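import Mathlib
import Fermat.Prelude.Def_GaloisRep_CompletionBridge

/-!
# P-CFT / LOC-B1 (part 1): `ℚ̄` inside `PadicAlgCl q`

* `denseRange_padicEmbedding`: the image of `ℚ̄` is dense in `PadicAlgCl q` (continuity of roots);
* `localGaloisToGlobal_injective`;
* `padicPlace_liesOverPrime`;
* `norm_padicEmbedding_of_mem_decompositionSubgroup`: elements of the decomposition group of
  `padicPlace q` are isometries for the `q`-adic norm.
-/

set_option autoImplicit false

open Polynomial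

open scoped NNReal Pointwise

namespace Fermat.Agent.H81.Local

/-- The absolute Galois group of `ℚ`. -/
abbrev GQ : Type := AlgebraicClosure ℚ ≃ₐ[ℚ] AlgebraicClosure ℚ

variable (q : ℕ) [Fact q.Prime]

theorem padicEmbedding_injective : Function.Injective (padicEmbedding q) :=
  (padicEmbedding q).toRingHom.injective

theorem denseRange_algebraMap_rat_padic : DenseRange (algebraMap ℚ ℚ_[q]) := by
  have h : (algebraMap ℚ ℚ_[q] : ℚ → ℚ_[q]) = Rat.cast := by
    funext x
    exact (eq_ratCast (algebraMap ℚ ℚ_[q]) x)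
  rw [h]
  exact Padic.denseRange_ratCast q

/-- Roots in `PadicAlgCl q` of a rational polynomial come from `ℚ̄`. -/
theorem exists_padicEmbedding_eq_of_mem_aroots {g : ℚ[X]} {b : PadicAlgCl q}
    (hb : b ∈ g.aroots (PadicAlgCl q)) : ∃ a : AlgebraicClosure ℚ, padicEmbedding q a = b := by
  have hsplit : (g.map (algebraMap ℚ (AlgebraicClosure ℚ))).Splits := IsAlgClosed.splits _
  have hcomp : (algebraMap ℚ (PadicAlgCl q)) =
      ((padicEmbedding q : AlgebraicClosure ℚ →+* PadicAlgCl q)).comp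
        (algebraMap ℚ (AlgebraicClosure ℚ)) := Subsingleton.elim _ _
  rw [Polynomial.aroots_def, hcomp, ← Polynomial.map_map,
    Splits.roots_map hsplit, Multiset.mem_map] at hb
  obtain ⟨a, _, ha⟩ := hb
  exact ⟨a, ha⟩

/-- **(B1-a)** The image of `ℚ̄` is dense in `PadicAlgCl q`. -/
theorem denseRange_padicEmbedding : DenseRange (padicEmbedding q) := by
  rw [Metric.denseRange_iff]
  intro β ε hε
  set f : ℚ_[q][X] := minpoly ℚ_[q] β with hf
  have hint : IsIntegral ℚ_[q] β := (PadicAlgCl.isAlgebraic q).isIntegral.isIntegral β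
  have fmon : f.Monic := minpoly.monic hint
  have fβ : f.aeval β = 0 := minpoly.aeval ℚ_[q] β
  have hn0 : f.natDegree ≠ 0 := (minpoly.natDegree_pos hint).ne'
  have hM : 0 < max ‖β‖ 1 := by positivity
  have hε' : (ε / (max ‖β‖ 1)) ^ f.natDegree / (f.natDegree + 1) > 0 := by positivity
  obtain ⟨g, gmon, gdeg, gcoeff⟩ :=
    exists_monic_and_natDegree_eq_and_norm_map_algebraMap_coeff_sub_lt
      (denseRange_algebraMap_rat_padic q) fmon hε'
  obtain ⟨b, hb, hab⟩ := exists_aroots_norm_sub_lt_of_norm_coeff_sub_lt (L := PadicAlgCl q)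
    hε' fβ fmon (gmon.map _) (gdeg ▸ (g.natDegree_map _)) gcoeff (IsAlgClosed.splits _)
  have hab' : ‖β - b‖ < ε := by
    rw [← Real.rpow_natCast, ← mul_comm_div, div_self, one_mul,
        ← Real.rpow_mul (div_pos hε (by positivity)).le, mul_inv_cancel₀] at hab
    · simpa [mul_assoc, div_mul_cancel₀ _ hM.ne'] using hab
    · simp [hn0]
    · positivity
  have hb' : b ∈ g.aroots (PadicAlgCl q) := by
    rw [Polynomial.aroots_def] at hb ⊢
    rw [Polynomial.map_map] at hb
    have : (algebraMap ℚ_[q] (PadicAlgCl q)).comp (algebraMap ℚ ℚ_[q]) =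
        algebraMap ℚ (PadicAlgCl q) := Subsingleton.elim _ _
    rwa [this] at hb
  obtain ⟨a, ha⟩ := exists_padicEmbedding_eq_of_mem_aroots q hb'
  refine ⟨a, ?_⟩
  rw [ha, dist_eq_norm]
  exact hab'

/-- Automorphisms of `PadicAlgCl q` over `ℚ_q` are isometries. -/
theorem norm_padicAlgCl_algEquiv (τ : PadicAlgCl q ≃ₐ[ℚ_[q]] PadicAlgCl q) (y : PadicAlgCl q) :
    ‖τ y‖ = ‖y‖ := by
  have h := nnnorm_padicAlgCl_algEquiv q τ y
  exact congrArg NNReal.toReal h

theorem continuous_padicAlgCl_algEquiv (τ : PadicAlgCl q ≃ₐ[ℚ_[q]] PadicAlgCl q) :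
    Continuous τ := by
  have hiso : Isometry τ := by
    apply AddMonoidHomClass.isometry_of_norm
    intro x
    exact norm_padicAlgCl_algEquiv q τ x
  exact hiso.continuous

/-- **(B1-b)** `localGaloisToGlobal q` is injective. -/
theorem localGaloisToGlobal_injective : Function.Injective (localGaloisToGlobal q) := by
  rw [injective_iff_map_eq_one]
  intro τ hτ
  have h1 : ∀ x : AlgebraicClosure ℚ, τ (padicEmbedding q x) = padicEmbedding q x := by
    intro x
    rw [← padicEmbedding_localGaloisToGlobal, hτ]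
    rfl
  have h2 : (τ : PadicAlgCl q → PadicAlgCl q) = id := by
    apply (denseRange_padicEmbedding q).equalizer (continuous_padicAlgCl_algEquiv q τ)
      continuous_id
    funext x
    exact h1 x
  ext y
  exact congrFun h2 y

/-- The norm of `q` in `PadicAlgCl q`. -/
theorem norm_natCast_self : ‖((q : ℕ) : PadicAlgCl q)‖ = (q : ℝ)⁻¹ := by
  have h := PadicAlgCl.norm_extends q (q : ℚ_[q])
  rw [map_natCast] at h
  rw [h]
  exact Padic.norm_p

/-- **(B1-d)** `padicPlace q` lies over `q`. -/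
theorem padicPlace_liesOverPrime : (padicPlace q).LiesOverPrime q := by
  have hq : (q : ℕ).Prime := Fact.out
  unfold ValuationSubring.LiesOverPrime
  rw [ValuationSubring.mem_nonunits_iff_exists_mem_maximalIdeal]
  have hmem : ((q : ℕ) : AlgebraicClosure ℚ) ∈ padicPlace q := by
    rw [mem_padicPlace_iff, map_natCast, ← NNReal.coe_le_coe, coe_nnnorm, norm_natCast_self]
    exact inv_le_one_of_one_le₀ (by exact_mod_cast hq.one_lt.le)
  refine ⟨hmem, ?_⟩
  rw [IsLocalRing.mem_maximalIdeal, mem_nonunits_iff]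
  intro hu
  obtain ⟨u, hu'⟩ := hu
  have hinv : ((u⁻¹ : (padicPlace q)ˣ) : AlgebraicClosure ℚ) = ((q : ℕ) : AlgebraicClosure ℚ)⁻¹ := by
    have h1 : ((u : padicPlace q) : AlgebraicClosure ℚ) = (q : AlgebraicClosure ℚ) := by
      rw [hu']
    have h2 : ((u : padicPlace q) : AlgebraicClosure ℚ) * ((u⁻¹ : (padicPlace q)ˣ) : padicPlace q)
        = 1 := by
      rw [← Subring.coe_mul, Units.mul_inv]
      rfl
    rw [h1] at h2
    exact eq_inv_of_mul_eq_one_right h2
  have hmem' : ((q : ℕ) : AlgebraicClosure ℚ)⁻¹ ∈ padicPlace q := by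
    rw [← hinv]
    exact ((u⁻¹ : (padicPlace q)ˣ) : padicPlace q).2
  rw [mem_padicPlace_iff, map_inv₀, map_natCast, ← NNReal.coe_le_coe, coe_nnnorm, norm_inv,
    norm_natCast_self, inv_inv] at hmem'
  have : (1 : ℝ) < q := by exact_mod_cast hq.one_lt
  exact absurd hmem' (not_le.mpr this)

/-! ### Elements of the decomposition group are isometries -/

/-- Membership in `padicPlace q` is preserved by the decomposition group. -/
theorem mem_padicPlace_map_iff {σ : GQ} (hσ : σ ∈ (padicPlace q).decompositionSubgroup ℚ)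
    (x : AlgebraicClosure ℚ) : σ x ∈ padicPlace q ↔ x ∈ padicPlace q := by
  have h : σ • padicPlace q = padicPlace q := hσ
  constructor
  · intro hx
    rw [← h, ValuationSubring.mem_pointwise_smul_iff_inv_smul_mem] at hx
    simpa using hx
  · intro hx
    rw [← h]
    exact ValuationSubring.smul_mem_pointwise_smul σ x _ hx

/-- The `q`-adic absolute value on `ℚ̄` induced by `padicEmbedding q`. -/
noncomputable def qAbs : AbsoluteValue (AlgebraicClosure ℚ) ℝ where
  toFun x := ‖padicEmbedding q x‖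
  map_mul' x y := by rw [map_mul, norm_mul]
  nonneg' x := norm_nonneg _
  eq_zero' x := by rw [norm_eq_zero, map_eq_zero]
  add_le' x y := by rw [map_add]; exact norm_add_le _ _

theorem qAbs_apply (x : AlgebraicClosure ℚ) : qAbs q x = ‖padicEmbedding q x‖ := rfl

theorem qAbs_natCast_self : qAbs q ((q : ℕ) : AlgebraicClosure ℚ) = (q : ℝ)⁻¹ := by
  rw [qAbs_apply, map_natCast, norm_natCast_self]

theorem qAbs_le_one_iff (x : AlgebraicClosure ℚ) : qAbs q x ≤ 1 ↔ x ∈ padicPlace q := by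
  rw [mem_padicPlace_iff, ← NNReal.coe_le_coe, coe_nnnorm]
  rfl

theorem qAbs_lt_one_iff {x : AlgebraicClosure ℚ} (hx : x ≠ 0) :
    qAbs q x < 1 ↔ x⁻¹ ∉ padicPlace q := by
  rw [← qAbs_le_one_iff, map_inv₀, not_le]
  have h0 : 0 < qAbs q x := (qAbs q).pos hx
  rw [one_lt_inv₀ h0]

/-- **(B1-iso)** Elements of the decomposition group of `padicPlace q` preserve the `q`-adic
norm. -/
theorem norm_padicEmbedding_of_mem_decompositionSubgroup {σ : GQ}
    (hσ : σ ∈ (padicPlace q).decompositionSubgroup ℚ) (x : AlgebraicClosure ℚ) :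
    ‖padicEmbedding q (σ x)‖ = ‖padicEmbedding q x‖ := by
  have hq : (q : ℕ).Prime := Fact.out
  have hq1 : (1 : ℝ) < q := by exact_mod_cast hq.one_lt
  set v := qAbs q with hv
  set w : AbsoluteValue (AlgebraicClosure ℚ) ℝ :=
    v.comp (f := (σ : AlgebraicClosure ℚ →+* AlgebraicClosure ℚ)) σ.injective with hw
  have hwapp : ∀ y, w y = v (σ y) := fun y => rfl
  have hvq : v ((q : ℕ) : AlgebraicClosure ℚ) = (q : ℝ)⁻¹ := qAbs_natCast_self q
  have hq0 : ((q : ℕ) : AlgebraicClosure ℚ) ≠ 0 := by exact_mod_cast hq.ne_zero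
  have hnt : v.IsNontrivial := by
    refine ⟨(q : AlgebraicClosure ℚ), hq0, ?_⟩
    rw [hvq]
    intro h
    have : (q : ℝ)⁻¹ < 1 := inv_lt_one_of_one_lt₀ hq1
    rw [h] at this
    exact lt_irrefl _ this
  have himp : ∀ y, v y < 1 → w y < 1 := by
    intro y hy
    rcases eq_or_ne y 0 with rfl | hy0
    · rw [map_zero]; exact zero_lt_one
    rw [hwapp, hv, qAbs_lt_one_iff q ((map_ne_zero σ).mpr hy0), ← map_inv₀,
      mem_padicPlace_map_iff q hσ]
    exact (qAbs_lt_one_iff q hy0).mp hy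
  obtain ⟨c, hc0, hc⟩ := AbsoluteValue.isEquiv_iff_exists_rpow_eq.mp
    (AbsoluteValue.isEquiv_of_lt_one_imp hnt himp)
  have hcq : v ((q : ℕ) : AlgebraicClosure ℚ) ^ c = w ((q : ℕ) : AlgebraicClosure ℚ) :=
    congrFun hc ((q : ℕ) : AlgebraicClosure ℚ)
  have hσq : σ ((q : ℕ) : AlgebraicClosure ℚ) = ((q : ℕ) : AlgebraicClosure ℚ) := map_natCast σ q
  rw [hwapp, hσq, hvq] at hcq
  have hc1 : c = 1 := by
    have hpos : (0 : ℝ) < (q : ℝ)⁻¹ := by positivity
    have hne : (q : ℝ)⁻¹ ≠ 1 := (inv_lt_one_of_one_lt₀ hq1).ne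
    have h1 : (q : ℝ)⁻¹ ^ c = (q : ℝ)⁻¹ ^ (1 : ℝ) := by rw [hcq, Real.rpow_one]
    have h2 := congrArg Real.log h1
    rw [Real.log_rpow hpos, Real.log_rpow hpos] at h2
    have hlog : Real.log (q : ℝ)⁻¹ ≠ 0 := by
      intro h0
      rcases Real.log_eq_zero.mp h0 with h | h | h
      · exact hpos.ne' h
      · exact hne h
      · linarith
    exact mul_right_cancel₀ hlog h2
  have hx : v x ^ c = w x := congrFun hc x
  rw [hc1, Real.rpow_one] at hx
  rw [← qAbs_apply, ← qAbs_apply, ← hv, hx]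
  rfl

end Fermat.Agent.H81.Local
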