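import Mathlib
import Fermat.Agent.H81.Local.Dense

/-!
# P-CFT / LOC-B1 (part 2): the image of `localGaloisToGlobal q` is the decomposition group

Every `σ` in the decomposition group of `padicPlace q` is an isometry of `(ℚ̄, |·|_q)`; it acts on
`ℚ_q ⊗_ℚ ℚ̄`, the canonical map `ℚ_q ⊗_ℚ ℚ̄ → PadicAlgCl q` is surjective (Krasner) and its kernel
is stable under `σ` (metric argument), whence an automorphism of `PadicAlgCl q` over `ℚ_q`
extending `σ`.
-/

set_option autoImplicit false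

open Polynomial TensorProduct IntermediateField

open scoped NNReal Pointwise

namespace Fermat.Agent.H81.Local

variable (q : ℕ) [Fact q.Prime]

/-- The canonical map `ℚ_q ⊗_ℚ ℚ̄ → PadicAlgCl q`. -/
noncomputable def tensorToPadicAlgCl : ℚ_[q] ⊗[ℚ] AlgebraicClosure ℚ →ₐ[ℚ_[q]] PadicAlgCl q :=
  Algebra.TensorProduct.lift (Algebra.ofId ℚ_[q] (PadicAlgCl q)) (padicEmbedding q)
    (fun _ _ => Commute.all _ _)

theorem tensorToPadicAlgCl_tmul (a : ℚ_[q]) (x : AlgebraicClosure ℚ) :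
    tensorToPadicAlgCl q (a ⊗ₜ x) = algebraMap ℚ_[q] (PadicAlgCl q) a * padicEmbedding q x := by
  simp [tensorToPadicAlgCl, Algebra.ofId_apply]

/-- The action of `σ` on the tensor product. -/
noncomputable def tensorMap (σ : GQ) :
    ℚ_[q] ⊗[ℚ] AlgebraicClosure ℚ →ₐ[ℚ_[q]] ℚ_[q] ⊗[ℚ] AlgebraicClosure ℚ :=
  Algebra.TensorProduct.map (AlgHom.id ℚ_[q] ℚ_[q])
    (σ : AlgebraicClosure ℚ →ₐ[ℚ] AlgebraicClosure ℚ)

theorem tensorMap_tmul (σ : GQ) (a : ℚ_[q]) (x : AlgebraicClosure ℚ) :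
    tensorMap q σ (a ⊗ₜ x) = a ⊗ₜ (σ x) := by
  simp [tensorMap]

/-! ### The metric argument -/

theorem algebraMap_ratCast_mul (r : ℚ) (x : AlgebraicClosure ℚ) :
    algebraMap ℚ_[q] (PadicAlgCl q) (r : ℚ_[q]) * padicEmbedding q x =
      padicEmbedding q ((r : AlgebraicClosure ℚ) * x) := by
  rw [map_mul, map_ratCast, map_ratCast]

/-- `σ` in the decomposition group preserves the norm of every `ℚ_q`-linear combination. -/
theorem norm_add_sum_eq {σ : GQ} (hσ : σ ∈ (padicPlace q).decompositionSubgroup ℚ)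
    (S : Finset (ℚ_[q] × AlgebraicClosure ℚ)) :
    ∀ y : AlgebraicClosure ℚ,
      ‖padicEmbedding q (σ y) +
          ∑ i ∈ S, algebraMap ℚ_[q] (PadicAlgCl q) i.1 * padicEmbedding q (σ i.2)‖ =
        ‖padicEmbedding q y +
          ∑ i ∈ S, algebraMap ℚ_[q] (PadicAlgCl q) i.1 * padicEmbedding q i.2‖ := by
  classical
  induction S using Finset.induction_on with
  | empty =>
      intro y
      simp only [Finset.sum_empty, add_zero]
      exact norm_padicEmbedding_of_mem_decompositionSubgroup q hσ y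
  | insert i S hi ih =>
      intro y
      rw [Finset.sum_insert hi, Finset.sum_insert hi]
      -- both sides are continuous in the coefficient `i.1` and agree on `ℚ`
      set T₁ := ∑ j ∈ S, algebraMap ℚ_[q] (PadicAlgCl q) j.1 * padicEmbedding q (σ j.2) with hT₁
      set T₂ := ∑ j ∈ S, algebraMap ℚ_[q] (PadicAlgCl q) j.1 * padicEmbedding q j.2 with hT₂
      have hcont₁ : Continuous fun a : ℚ_[q] =>
          ‖padicEmbedding q (σ y) +
            (algebraMap ℚ_[q] (PadicAlgCl q) a * padicEmbedding q (σ i.2) + T₁)‖ := by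
        have : Continuous (algebraMap ℚ_[q] (PadicAlgCl q)) := continuous_algebraMap _ _
        fun_prop
      have hcont₂ : Continuous fun a : ℚ_[q] =>
          ‖padicEmbedding q y +
            (algebraMap ℚ_[q] (PadicAlgCl q) a * padicEmbedding q i.2 + T₂)‖ := by
        have : Continuous (algebraMap ℚ_[q] (PadicAlgCl q)) := continuous_algebraMap _ _
        fun_prop
      have hfun := (Padic.denseRange_ratCast q).equalizer hcont₁ hcont₂ (by
        funext r
        simp only [Function.comp_apply]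
        rw [algebraMap_ratCast_mul, algebraMap_ratCast_mul, ← add_assoc, ← add_assoc,
          ← map_add, ← map_add]
        have h := ih (y + (r : AlgebraicClosure ℚ) * i.2)
        rw [map_add, map_mul, map_ratCast] at h
        exact h)
      exact congrFun hfun i.1

theorem norm_sum_eq {σ : GQ} (hσ : σ ∈ (padicPlace q).decompositionSubgroup ℚ)
    (S : Finset (ℚ_[q] × AlgebraicClosure ℚ)) :
    ‖∑ i ∈ S, algebraMap ℚ_[q] (PadicAlgCl q) i.1 * padicEmbedding q (σ i.2)‖ =
      ‖∑ i ∈ S, algebraMap ℚ_[q] (PadicAlgCl q) i.1 * padicEmbedding q i.2‖ := by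
  have h := norm_add_sum_eq q hσ S 0
  simpa using h

/-- The norm of the image is preserved by the action of `σ` on the tensor product. -/
theorem norm_tensorToPadicAlgCl_tensorMap {σ : GQ}
    (hσ : σ ∈ (padicPlace q).decompositionSubgroup ℚ) (z : ℚ_[q] ⊗[ℚ] AlgebraicClosure ℚ) :
    ‖tensorToPadicAlgCl q (tensorMap q σ z)‖ = ‖tensorToPadicAlgCl q z‖ := by
  obtain ⟨S, rfl⟩ := TensorProduct.exists_finset z
  simp only [map_sum, tensorMap_tmul, tensorToPadicAlgCl_tmul]
  exact norm_sum_eq q hσ S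

theorem ker_tensorToPadicAlgCl_le {σ : GQ} (hσ : σ ∈ (padicPlace q).decompositionSubgroup ℚ) :
    RingHom.ker (tensorToPadicAlgCl q : ℚ_[q] ⊗[ℚ] AlgebraicClosure ℚ →+* PadicAlgCl q) ≤
      RingHom.ker (((tensorToPadicAlgCl q).comp (tensorMap q σ) :
        ℚ_[q] ⊗[ℚ] AlgebraicClosure ℚ →ₐ[ℚ_[q]] PadicAlgCl q) :
        ℚ_[q] ⊗[ℚ] AlgebraicClosure ℚ →+* PadicAlgCl q) := by
  intro z hz
  rw [RingHom.mem_ker] at hz ⊢
  have h := norm_tensorToPadicAlgCl_tensorMap q hσ z
  have hz' : tensorToPadicAlgCl q z = 0 := hz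
  rw [hz', norm_zero, norm_eq_zero] at h
  exact h

/-! ### Surjectivity of `ℚ_q ⊗ ℚ̄ → PadicAlgCl q` (Krasner) -/

/-- A positive lower bound for the distance of `β` to its other conjugates. -/
theorem exists_pos_le_norm_sub_conj (β : PadicAlgCl q) :
    ∃ δ : ℝ, 0 < δ ∧ ∀ β' : PadicAlgCl q, IsConjRoot ℚ_[q] β β' → β ≠ β' → δ ≤ ‖β - β'‖ := by
  have hint : IsIntegral ℚ_[q] β := (PadicAlgCl.isAlgebraic q).isIntegral.isIntegral β
  set T : Set (PadicAlgCl q) := {x | x ∈ (minpoly ℚ_[q] β).rootSet (PadicAlgCl q) ∧ x ≠ β} with hT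
  have hTfin : T.Finite :=
    ((minpoly ℚ_[q] β).rootSet_finite (PadicAlgCl q)).subset fun x hx => hx.1
  have hopen : IsOpen Tᶜ := hTfin.isClosed.isOpen_compl
  have hβ : β ∈ Tᶜ := fun h => h.2 rfl
  obtain ⟨δ, hδ, hball⟩ := Metric.isOpen_iff.mp hopen β hβ
  refine ⟨δ, hδ, fun β' hconj hne => ?_⟩
  by_contra hlt
  rw [not_le] at hlt
  have hmem : β' ∈ Metric.ball β δ := by
    rw [Metric.mem_ball, dist_comm, dist_eq_norm]
    exact hlt
  exact hball hmem ⟨(isConjRoot_iff_mem_minpoly_rootSet hint).mp hconj, fun h => hne h.symm⟩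

/-- **Krasner**: every element of `PadicAlgCl q` lies in `ℚ_q(α)` for some `α ∈ ℚ̄`. -/
theorem exists_mem_adjoin_padicEmbedding (β : PadicAlgCl q) :
    ∃ α : AlgebraicClosure ℚ, β ∈ Algebra.adjoin ℚ_[q] {padicEmbedding q α} := by
  have hint : IsIntegral ℚ_[q] β := (PadicAlgCl.isAlgebraic q).isIntegral.isIntegral β
  obtain ⟨δ, hδ, hconj⟩ := exists_pos_le_norm_sub_conj q β
  obtain ⟨α, hα⟩ := Metric.denseRange_iff.mp (denseRange_padicEmbedding q) β δ hδ
  rw [dist_eq_norm] at hα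
  refine ⟨α, ?_⟩
  have hk : β ∈ ℚ_[q]⟮padicEmbedding q α⟯ :=
    IsKrasner.krasner (minpoly.irreducible hint).separable (IsAlgClosed.splits _)
      ((PadicAlgCl.isAlgebraic q).isIntegral.isIntegral _)
      (fun β' h1 h2 => lt_of_lt_of_le hα (hconj β' h1 h2))
  have h2 : (ℚ_[q]⟮padicEmbedding q α⟯).toSubalgebra =
      Algebra.adjoin ℚ_[q] {padicEmbedding q α} :=
    IntermediateField.adjoin_toSubalgebra (F := ℚ_[q]) (E := PadicAlgCl q) _
  rw [← h2]
  exact hk

theorem tensorToPadicAlgCl_surjective : Function.Surjective (tensorToPadicAlgCl q) := by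
  intro β
  obtain ⟨α, hα⟩ := exists_mem_adjoin_padicEmbedding q β
  have hle : Algebra.adjoin ℚ_[q] {padicEmbedding q α} ≤ (tensorToPadicAlgCl q).range := by
    apply Algebra.adjoin_le
    rintro _ rfl
    refine ⟨1 ⊗ₜ α, ?_⟩
    change tensorToPadicAlgCl q (1 ⊗ₜ α) = _
    rw [tensorToPadicAlgCl_tmul, map_one, one_mul]
  exact hle hα

/-! ### The extension of `σ` to `PadicAlgCl q` -/

/-- The ring endomorphism of `PadicAlgCl q` extending `σ`. -/
noncomputable def extendRingHom {σ : GQ} (hσ : σ ∈ (padicPlace q).decompositionSubgroup ℚ) :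
    PadicAlgCl q →+* PadicAlgCl q :=
  RingHom.liftOfSurjective
    (tensorToPadicAlgCl q : ℚ_[q] ⊗[ℚ] AlgebraicClosure ℚ →+* PadicAlgCl q)
    (tensorToPadicAlgCl_surjective q)
    ⟨_, ker_tensorToPadicAlgCl_le q hσ⟩

theorem extendRingHom_apply {σ : GQ} (hσ : σ ∈ (padicPlace q).decompositionSubgroup ℚ)
    (z : ℚ_[q] ⊗[ℚ] AlgebraicClosure ℚ) :
    extendRingHom q hσ (tensorToPadicAlgCl q z) = tensorToPadicAlgCl q (tensorMap q σ z) :=
  RingHom.liftOfRightInverse_comp_apply _ _ _ _ z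

theorem extendRingHom_algebraMap {σ : GQ} (hσ : σ ∈ (padicPlace q).decompositionSubgroup ℚ)
    (a : ℚ_[q]) :
    extendRingHom q hσ (algebraMap ℚ_[q] (PadicAlgCl q) a) =
      algebraMap ℚ_[q] (PadicAlgCl q) a := by
  have h := extendRingHom_apply q hσ (a ⊗ₜ 1)
  rw [tensorMap_tmul, map_one, tensorToPadicAlgCl_tmul, map_one, mul_one] at h
  exact h

theorem extendRingHom_padicEmbedding {σ : GQ} (hσ : σ ∈ (padicPlace q).decompositionSubgroup ℚ)
    (x : AlgebraicClosure ℚ) :
    extendRingHom q hσ (padicEmbedding q x) = padicEmbedding q (σ x) := by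
  have h := extendRingHom_apply q hσ (1 ⊗ₜ x)
  rw [tensorMap_tmul, tensorToPadicAlgCl_tmul, tensorToPadicAlgCl_tmul, map_one, one_mul,
    one_mul] at h
  exact h

/-- The `ℚ_q`-algebra endomorphism of `PadicAlgCl q` extending `σ`. -/
noncomputable def extendAlgHom {σ : GQ} (hσ : σ ∈ (padicPlace q).decompositionSubgroup ℚ) :
    PadicAlgCl q →ₐ[ℚ_[q]] PadicAlgCl q :=
  { extendRingHom q hσ with
    commutes' := extendRingHom_algebraMap q hσ }

/-- The automorphism of `PadicAlgCl q` over `ℚ_q` extending `σ`. -/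
noncomputable def extendAlgEquiv {σ : GQ} (hσ : σ ∈ (padicPlace q).decompositionSubgroup ℚ) :
    PadicAlgCl q ≃ₐ[ℚ_[q]] PadicAlgCl q :=
  AlgEquiv.ofBijective (extendAlgHom q hσ)
    (Algebra.IsAlgebraic.algHom_bijective (extendAlgHom q hσ))

theorem extendAlgEquiv_padicEmbedding {σ : GQ}
    (hσ : σ ∈ (padicPlace q).decompositionSubgroup ℚ) (x : AlgebraicClosure ℚ) :
    extendAlgEquiv q hσ (padicEmbedding q x) = padicEmbedding q (σ x) :=
  extendRingHom_padicEmbedding q hσ x

theorem localGaloisToGlobal_extendAlgEquiv {σ : GQ}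
    (hσ : σ ∈ (padicPlace q).decompositionSubgroup ℚ) :
    localGaloisToGlobal q (extendAlgEquiv q hσ) = σ := by
  ext x
  apply padicEmbedding_injective q
  rw [padicEmbedding_localGaloisToGlobal, extendAlgEquiv_padicEmbedding]

/-- **(B1-c)** The image of `localGaloisToGlobal q` is the decomposition group of
`padicPlace q`. -/
theorem range_localGaloisToGlobal :
    (localGaloisToGlobal q).range = (padicPlace q).decompositionSubgroup ℚ := by
  apply le_antisymm
  · rintro _ ⟨τ, rfl⟩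
    exact localGaloisToGlobal_mem_decompositionSubgroup q τ
  · intro σ hσ
    exact ⟨extendAlgEquiv q hσ, localGaloisToGlobal_extendAlgEquiv q hσ⟩

/-- **(B1-c2)** The local Galois group is isomorphic to the decomposition group. -/
noncomputable def localGaloisEquiv :
    (PadicAlgCl q ≃ₐ[ℚ_[q]] PadicAlgCl q) ≃* (padicPlace q).decompositionSubgroup ℚ :=
  (MonoidHom.ofInjective (localGaloisToGlobal_injective q)).trans
    (MulEquiv.subgroupCongr (range_localGaloisToGlobal q))

theorem coe_localGaloisEquiv (τ : PadicAlgCl q ≃ₐ[ℚ_[q]] PadicAlgCl q) :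
    ((localGaloisEquiv q τ : (padicPlace q).decompositionSubgroup ℚ) : GQ) =
      localGaloisToGlobal q τ := rfl

end Fermat.Agent.H81.Local
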