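import Mathlib
import Fermat.Agent.H81.Local.Range
import Fermat.Agent.H81.FrobExists

/-!
# P-CFT / LOC-B1 (part 3): the local field `K_v = ℚ̄ ∩ ℚ_q`

* `localField q`: the fixed field of the decomposition group `D_q` of `padicPlace q`;
* `mem_localField_iff`: `x ∈ K_v ↔ padicEmbedding q x ∈ ℚ_q`;
* `isClosed_decompositionSubgroup`: `D_q` is closed in the Krull topology;
* `fixingSubgroup_localField`: `Gal(ℚ̄/K_v) = D_q`;
* `range_localGaloisToGlobal_eq_fixingSubgroup`.
-/

set_option autoImplicit false

open Polynomial IntermediateField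

open scoped NNReal Pointwise

namespace Fermat.Agent.H81.Local

variable (q : ℕ) [Fact q.Prime]

/-- The decomposition group of `padicPlace q`. -/
noncomputable abbrev Dq : Subgroup GQ := (padicPlace q).decompositionSubgroup ℚ

/-- The local field `K_v = ℚ̄ ∩ ℚ_q` (the henselisation of `ℚ` at `q` inside `ℚ̄`), defined as
the fixed field of the decomposition group. -/
noncomputable def localField : IntermediateField ℚ (AlgebraicClosure ℚ) :=
  IntermediateField.fixedField (Dq q)

theorem mem_localField_iff' {x : AlgebraicClosure ℚ} :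
    x ∈ localField q ↔ ∀ σ ∈ Dq q, σ x = x :=
  IntermediateField.mem_fixedField_iff _ _

/-- `x ∈ K_v` iff its image in `PadicAlgCl q` lies in `ℚ_q`. -/
theorem mem_localField_iff {x : AlgebraicClosure ℚ} :
    x ∈ localField q ↔ ∃ a : ℚ_[q], algebraMap ℚ_[q] (PadicAlgCl q) a = padicEmbedding q x := by
  rw [mem_localField_iff']
  constructor
  · intro h
    have hfix : ∀ τ : PadicAlgCl q ≃ₐ[ℚ_[q]] PadicAlgCl q,
        τ (padicEmbedding q x) = padicEmbedding q x := by
      intro τ
      rw [← padicEmbedding_localGaloisToGlobal,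
        h _ (localGaloisToGlobal_mem_decompositionSubgroup q τ)]
    have hmem : padicEmbedding q x ∈
        IntermediateField.fixedField
          ((⊥ : IntermediateField ℚ_[q] (PadicAlgCl q)).fixingSubgroup) := by
      rw [IntermediateField.mem_fixedField_iff]
      intro τ _
      exact hfix τ
    rw [InfiniteGalois.fixedField_fixingSubgroup, IntermediateField.mem_bot] at hmem
    obtain ⟨a, ha⟩ := hmem
    exact ⟨a, ha⟩
  · rintro ⟨a, ha⟩ σ hσ
    apply padicEmbedding_injective q
    rw [← extendAlgEquiv_padicEmbedding q hσ, ← ha, AlgEquiv.commutes]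

/-- The decomposition group of `padicPlace q` is closed in the Krull topology. -/
theorem isClosed_decompositionSubgroup : IsClosed (Dq q : Set GQ) := by
  have := Fermat.Agent.H81.isAlgebraic_rat_Qbar
  have : Algebra.IsIntegral ℚ (AlgebraicClosure ℚ) := Algebra.IsAlgebraic.isIntegral
  rw [← isOpen_compl_iff, isOpen_iff_forall_mem_open]
  intro σ hσ
  -- find `x` witnessing `σ ∉ D_q`
  have hex : ∃ x : AlgebraicClosure ℚ, ¬ (σ x ∈ padicPlace q ↔ x ∈ padicPlace q) := by
    by_contra hcon
    have hcon : ∀ x : AlgebraicClosure ℚ, (σ x ∈ padicPlace q ↔ x ∈ padicPlace q) := by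
      intro x
      by_contra hx
      exact hcon ⟨x, hx⟩
    apply hσ
    change σ ∈ (padicPlace q).decompositionSubgroup ℚ
    rw [ValuationSubring.decompositionSubgroup, MulAction.mem_stabilizer_iff]
    ext y
    rw [ValuationSubring.mem_pointwise_smul_iff_inv_smul_mem]
    have h1 := hcon (σ⁻¹ • y)
    have e : σ (σ⁻¹ • y) = y := by
      change (σ * σ⁻¹) y = y
      rw [mul_inv_cancel]
      rfl
    rw [e] at h1
    exact h1.symm
  obtain ⟨x, hx⟩ := hex
  -- the open neighbourhood of `σ` of all `σ'` with `σ' x = σ x`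
  have hopen : IsOpen ((MulAction.stabilizer GQ x : Subgroup GQ) : Set GQ) :=
    stabilizer_isOpen_of_isIntegral x
  refine ⟨σ • ((MulAction.stabilizer GQ x : Subgroup GQ) : Set GQ), ?_, hopen.leftCoset σ, ?_⟩
  · rintro _ ⟨τ, hτ, rfl⟩ hmem
    apply hx
    have hτx : τ x = x := hτ
    have h2 := mem_padicPlace_map_iff q hmem x
    have h3 : (σ • τ) x = σ x := by
      change σ (τ x) = σ x
      rw [hτx]
    rw [h3] at h2
    exact h2
  · exact ⟨1, Subgroup.one_mem _, by simp⟩

/-- `Gal(ℚ̄/K_v) = D_q`. -/
theorem fixingSubgroup_localField : (localField q).fixingSubgroup = Dq q := by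
  have := Fermat.Agent.H81.isGalois_rat_Qbar
  exact InfiniteGalois.fixingSubgroup_fixedField
    (⟨Dq q, isClosed_decompositionSubgroup q⟩ : ClosedSubgroup GQ)

/-- **(B1-e)** the image of `localGaloisToGlobal q` is `Gal(ℚ̄/K_v)`. -/
theorem range_localGaloisToGlobal_eq_fixingSubgroup :
    (localGaloisToGlobal q).range = (localField q).fixingSubgroup := by
  rw [fixingSubgroup_localField, range_localGaloisToGlobal]

/-- Automorphisms fixing an intermediate field containing `K_v` lie in `D_q`. -/
theorem fixingSubgroup_le_of_localField_le {K : IntermediateField ℚ (AlgebraicClosure ℚ)}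
    (hK : localField q ≤ K) : K.fixingSubgroup ≤ Dq q := by
  rw [← fixingSubgroup_localField]
  exact IntermediateField.fixingSubgroup_antitone hK

/-- Automorphisms fixing an intermediate field containing `K_v` are isometries. -/
theorem norm_padicEmbedding_of_mem_fixingSubgroup {K : IntermediateField ℚ (AlgebraicClosure ℚ)}
    (hK : localField q ≤ K) {σ : GQ} (hσ : σ ∈ K.fixingSubgroup) (x : AlgebraicClosure ℚ) :
    ‖padicEmbedding q (σ x)‖ = ‖padicEmbedding q x‖ :=
  norm_padicEmbedding_of_mem_decompositionSubgroup q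
    (fixingSubgroup_le_of_localField_le q hK hσ) x

end Fermat.Agent.H81.Local
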