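import Mathlib

/-!
# P-CFT / LOC-B1 (part 4a): elementary lemmas on valuations and polynomials

For a field `L` with a valuation `w` (any value group):

* `exists_root_val_sub_lt_one`: if `g` is monic, splits and `w (g x) < 1` then `x` is congruent to
  a root of `g` modulo the maximal ideal;
* `val_eval_sub_eval_le`: `w (g x - g y) ≤ w (x - y)` for integral `g`, `x`, `y`;
* `root_unique_of_val_sub_lt_one`: a root congruent to `a₀` with `w (g' a₀) = 1` is unique
  (the uniqueness part of Hensel's lemma).
-/

set_option autoImplicit false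

open Polynomial

namespace Fermat.Agent.H81.Local

section General

variable {L : Type*} [Field L] {Γ₀ : Type*} [LinearOrderedCommGroupWithZero Γ₀]
  (w : Valuation L Γ₀)

theorem one_le_multiset_prod {s : Multiset Γ₀} (h : ∀ a ∈ s, 1 ≤ a) : 1 ≤ s.prod := by
  induction s using Multiset.induction_on with
  | empty => simp
  | cons a s ih =>
    rw [Multiset.prod_cons]
    have h1 : 1 ≤ a := h a (Multiset.mem_cons_self a s)
    have h2 : 1 ≤ s.prod := ih (fun b hb => h b (Multiset.mem_cons_of_mem hb))
    calc (1 : Γ₀) = 1 * 1 := (one_mul 1).symm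
      _ ≤ a * s.prod := mul_le_mul' h1 h2

/-- If `g` is monic and splits and `w (g x) < 1`, then `x` is congruent to a root of `g`. -/
theorem exists_root_val_sub_lt_one {g : L[X]} (hg : g.Monic) (hs : g.Splits) {x : L}
    (hx : w (g.eval x) < 1) : ∃ β ∈ g.roots, w (x - β) < 1 := by
  by_contra hcon
  have hcon' : ∀ β ∈ g.roots, 1 ≤ w (x - β) := by
    intro β hβ
    by_contra hlt
    exact hcon ⟨β, hβ, not_le.mp hlt⟩
  rw [hs.eval_eq_prod_roots_of_monic hg, map_multiset_prod, Multiset.map_map] at hx
  have : (1 : Γ₀) ≤ (Multiset.map (⇑w ∘ fun a => x - a) g.roots).prod := by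
    apply one_le_multiset_prod
    intro a ha
    obtain ⟨β, hβ, rfl⟩ := Multiset.mem_map.mp ha
    exact hcon' β hβ
  exact absurd hx (not_lt.mpr this)

/-- Lifting a polynomial with integral coefficients to the valuation ring. -/
theorem exists_integer_lift {g : L[X]} (hg : ∀ i, w (g.coeff i) ≤ 1) :
    ∃ G : w.integer[X], G.map w.integer.subtype = g := by
  have : g ∈ Polynomial.lifts w.integer.subtype := by
    rw [Polynomial.lifts_iff_coeff_lifts]
    intro n
    exact ⟨⟨g.coeff n, hg n⟩, rfl⟩
  exact (Polynomial.mem_lifts _).mp this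

theorem eval_map_integer (G : w.integer[X]) (x : w.integer) :
    (G.map w.integer.subtype).eval (x : L) = ((G.eval x : w.integer) : L) := by
  rw [Polynomial.eval_map]
  exact Polynomial.eval₂_at_apply w.integer.subtype x

/-- `w (g x - g y) ≤ w (x - y)` for a polynomial with integral coefficients and integral
`x`, `y`. -/
theorem val_eval_sub_eval_le {g : L[X]} (hg : ∀ i, w (g.coeff i) ≤ 1) {x y : L}
    (hx : w x ≤ 1) (hy : w y ≤ 1) : w (g.eval x - g.eval y) ≤ w (x - y) := by
  obtain ⟨G, rfl⟩ := exists_integer_lift w hg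
  obtain ⟨c, hc⟩ := Polynomial.sub_dvd_eval_sub (⟨x, hx⟩ : w.integer) ⟨y, hy⟩ G
  have h1 : (G.map w.integer.subtype).eval x - (G.map w.integer.subtype).eval y
      = (x - y) * (c : L) := by
    have e1 := eval_map_integer w G ⟨x, hx⟩
    have e2 := eval_map_integer w G ⟨y, hy⟩
    simp only at e1 e2
    rw [e1, e2]
    have := congrArg (fun z : w.integer => (z : L)) hc
    simpa using this
  rw [h1, map_mul]
  calc w (x - y) * w (c : L) ≤ w (x - y) * 1 := by
        exact mul_le_mul_right (c.2) _
    _ = w (x - y) := mul_one _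

theorem val_derivative_coeff_le {g : L[X]} (hg : ∀ i, w (g.coeff i) ≤ 1) (i : ℕ) :
    w (g.derivative.coeff i) ≤ 1 := by
  obtain ⟨G, rfl⟩ := exists_integer_lift w hg
  rw [Polynomial.derivative_map, Polynomial.coeff_map]
  exact (G.derivative.coeff i).2

/-- Uniqueness in Hensel's lemma. -/
theorem root_unique_of_val_sub_lt_one {g : L[X]} (hg : ∀ i, w (g.coeff i) ≤ 1) {a₀ α β : L}
    (ha₀ : w a₀ ≤ 1) (hd : w (g.derivative.eval a₀) = 1)
    (hα : g.eval α = 0) (hβ : g.eval β = 0) (hαa : w (α - a₀) < 1) (hβa : w (β - a₀) < 1) :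
    α = β := by
  have hαi : w α ≤ 1 := by
    have : α = (α - a₀) + a₀ := by ring
    rw [this]
    exact le_trans (w.map_add _ _) (max_le hαa.le ha₀)
  have hβi : w β ≤ 1 := by
    have : β = (β - a₀) + a₀ := by ring
    rw [this]
    exact le_trans (w.map_add _ _) (max_le hβa.le ha₀)
  -- `w (g' α) = 1`
  have hdα : w (g.derivative.eval α) = 1 := by
    have h1 : w (g.derivative.eval α - g.derivative.eval a₀) < 1 :=
      lt_of_le_of_lt (val_eval_sub_eval_le w (val_derivative_coeff_le w hg) hαi ha₀) hαa
    have h2 : g.derivative.eval α = g.derivative.eval a₀ +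
        (g.derivative.eval α - g.derivative.eval a₀) := by ring
    rw [h2, Valuation.map_add_eq_of_lt_left w (by rw [hd]; exact h1), hd]
  by_contra hne
  have hβα : w (β - α) < 1 := by
    have : β - α = (β - a₀) - (α - a₀) := by ring
    rw [this]
    exact lt_of_le_of_lt (w.map_sub _ _) (max_lt hβa hαa)
  obtain ⟨G, rfl⟩ := exists_integer_lift w hg
  obtain ⟨k, hk⟩ := Polynomial.binomExpansion G (⟨α, hαi⟩ : w.integer)
    (⟨β, hβi⟩ - ⟨α, hαi⟩)
  have e1 := eval_map_integer w G ⟨α, hαi⟩
  have e2 := eval_map_integer w G ⟨β, hβi⟩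
  have e3 := eval_map_integer w G.derivative ⟨α, hαi⟩
  simp only at e1 e2 e3
  rw [← Polynomial.derivative_map] at e3
  have hk' := congrArg (fun z : w.integer => (z : L)) hk
  simp only [add_sub_cancel] at hk'
  push_cast at hk'
  rw [← e1, ← e2, ← e3, hα, hβ] at hk'
  have hsub : β - α ≠ 0 := fun h => hne (sub_eq_zero.mp h).symm
  have h3 : (G.map w.integer.subtype).derivative.eval α = -((k : L) * (β - α)) := by
    have h4 : (β - α) * ((G.map w.integer.subtype).derivative.eval α + (k : L) * (β - α)) = 0 := by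
      linear_combination -hk'
    rcases mul_eq_zero.mp h4 with h5 | h5
    · exact absurd h5 hsub
    · linear_combination h5
  rw [h3, Valuation.map_neg, map_mul] at hdα
  have : w (k : L) * w (β - α) < 1 := by
    calc w (k : L) * w (β - α) ≤ 1 * w (β - α) := mul_le_mul_left k.2 _
      _ = w (β - α) := one_mul _
      _ < 1 := hβα
  rw [hdα] at this
  exact lt_irrefl _ this

end General

end Fermat.Agent.H81.Local
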