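import Mathlib
import Fermat.Agent.H81.Local.LocalField
import Fermat.Agent.H81.Local.ValLemmas

/-!
# P-CFT / LOC-B1 (part 4b): Hensel's lemma for algebraic extensions of `K_v`

* `qVal q`: the `q`-adic valuation on `ℚ̄` (values in `ℝ≥0`), `x ↦ ‖padicEmbedding q x‖₊`;
* `qVal_galois`: invariance under `Gal(ℚ̄/E)` for `K_v ≤ E`;
* `hensel_qbar`, `hensel_intermediate`: Hensel's lemma for every intermediate field `E ⊇ K_v`
  (no completion: the unique root of `g` congruent to `a₀` is fixed by `Gal(ℚ̄/E) ≤ D_q`).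
-/

set_option autoImplicit false

open Polynomial IntermediateField

open scoped NNReal

namespace Fermat.Agent.H81.Local

variable (q : ℕ) [Fact q.Prime]

/-- The `q`-adic valuation on `ℚ̄`. -/
noncomputable def qVal : Valuation (AlgebraicClosure ℚ) ℝ≥0 :=
  (Valued.v : Valuation (PadicAlgCl q) ℝ≥0).comap (padicEmbedding q).toRingHom

theorem qVal_apply (x : AlgebraicClosure ℚ) : qVal q x = ‖padicEmbedding q x‖₊ := rfl

theorem coe_qVal (x : AlgebraicClosure ℚ) : ((qVal q x : ℝ≥0) : ℝ) = ‖padicEmbedding q x‖ := rfl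

theorem qVal_le_one_iff (x : AlgebraicClosure ℚ) : qVal q x ≤ 1 ↔ x ∈ padicPlace q := Iff.rfl

theorem qVal_natCast_self : qVal q ((q : ℕ) : AlgebraicClosure ℚ) = (q : ℝ≥0)⁻¹ := by
  apply NNReal.coe_injective
  rw [coe_qVal, map_natCast, norm_natCast_self]
  simp

theorem qVal_natCast_le_one (n : ℕ) : qVal q (n : AlgebraicClosure ℚ) ≤ 1 := by
  rw [qVal_le_one_iff]
  exact natCast_mem _ n

theorem qVal_intCast_le_one (n : ℤ) : qVal q (n : AlgebraicClosure ℚ) ≤ 1 := by
  rw [qVal_le_one_iff]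
  exact intCast_mem _ n

/-- `D_q` preserves the valuation. -/
theorem qVal_of_mem_decompositionSubgroup {σ : GQ} (hσ : σ ∈ Dq q) (x : AlgebraicClosure ℚ) :
    qVal q (σ x) = qVal q x := by
  apply NNReal.coe_injective
  rw [coe_qVal, coe_qVal]
  exact norm_padicEmbedding_of_mem_decompositionSubgroup q hσ x

/-- `Gal(ℚ̄/E)` preserves the valuation when `K_v ≤ E`. -/
theorem qVal_galois {E : IntermediateField ℚ (AlgebraicClosure ℚ)} (hE : localField q ≤ E)
    {σ : GQ} (hσ : σ ∈ E.fixingSubgroup) (x : AlgebraicClosure ℚ) :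
    qVal q (σ x) = qVal q x :=
  qVal_of_mem_decompositionSubgroup q (fixingSubgroup_le_of_localField_le q hE hσ) x

/-- Membership in an intermediate field via the fixing subgroup. -/
theorem mem_of_fixed {E : IntermediateField ℚ (AlgebraicClosure ℚ)} {x : AlgebraicClosure ℚ}
    (h : ∀ σ ∈ E.fixingSubgroup, σ x = x) : x ∈ E := by
  have := Fermat.Agent.H81.isGalois_rat_Qbar
  rw [← InfiniteGalois.fixedField_fixingSubgroup E, IntermediateField.mem_fixedField_iff]
  exact h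

/-- **Hensel's lemma** for an intermediate field `E ⊇ K_v` of `ℚ̄/ℚ`, stated inside `ℚ̄`. -/
theorem hensel_qbar {E : IntermediateField ℚ (AlgebraicClosure ℚ)} (hE : localField q ≤ E)
    {g : (AlgebraicClosure ℚ)[X]} (hg : g.Monic) (hgE : ∀ i, g.coeff i ∈ E)
    (hgi : ∀ i, qVal q (g.coeff i) ≤ 1) {a₀ : AlgebraicClosure ℚ} (ha₀E : a₀ ∈ E)
    (ha₀ : qVal q a₀ ≤ 1) (h1 : qVal q (g.eval a₀) < 1)
    (h2 : qVal q (g.derivative.eval a₀) = 1) :
    ∃ a ∈ E, g.eval a = 0 ∧ qVal q (a - a₀) < 1 := by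
  obtain ⟨α, hα, hαa⟩ := exists_root_val_sub_lt_one (qVal q) hg (IsAlgClosed.splits g) h1
  have hα0 : g.eval α = 0 := (Polynomial.mem_roots hg.ne_zero).mp hα
  have hαa' : qVal q (α - a₀) < 1 := by
    rw [← Valuation.map_neg, neg_sub]
    exact hαa
  refine ⟨α, ?_, hα0, hαa'⟩
  apply mem_of_fixed
  intro σ hσ
  have hσfix : ∀ y ∈ E, σ y = y := fun y hy => hσ ⟨y, hy⟩
  -- `σ α` is again a root
  have hmap : g.map (σ : AlgebraicClosure ℚ →+* AlgebraicClosure ℚ) = g := by
    ext i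
    rw [Polynomial.coeff_map]
    exact hσfix _ (hgE i)
  have hσα0 : g.eval (σ α) = 0 := by
    have h3 : (g.map (σ : AlgebraicClosure ℚ →+* AlgebraicClosure ℚ)).eval (σ α) =
        σ (g.eval α) := by
      rw [Polynomial.eval_map]
      exact Polynomial.eval₂_at_apply (σ : AlgebraicClosure ℚ →+* AlgebraicClosure ℚ) α
    rw [hmap, hα0, map_zero] at h3
    exact h3
  have hσαa : qVal q (σ α - a₀) < 1 := by
    have : σ α - a₀ = σ (α - a₀) := by rw [map_sub, hσfix a₀ ha₀E]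
    rw [this, qVal_galois q hE hσ]
    exact hαa'
  exact root_unique_of_val_sub_lt_one (qVal q) hgi ha₀ h2 hσα0 hα0 hσαa hαa'

/-- **Hensel's lemma** for an intermediate field `E ⊇ K_v` of `ℚ̄/ℚ`. -/
theorem hensel_intermediate {E : IntermediateField ℚ (AlgebraicClosure ℚ)}
    (hE : localField q ≤ E) {f : E[X]} (hf : f.Monic)
    (hfi : ∀ i, qVal q (f.coeff i : AlgebraicClosure ℚ) ≤ 1) {a₀ : E}
    (ha₀ : qVal q (a₀ : AlgebraicClosure ℚ) ≤ 1)
    (h1 : qVal q ((f.eval a₀ : E) : AlgebraicClosure ℚ) < 1)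
    (h2 : qVal q ((f.derivative.eval a₀ : E) : AlgebraicClosure ℚ) = 1) :
    ∃ a : E, f.eval a = 0 ∧ qVal q ((a - a₀ : E) : AlgebraicClosure ℚ) < 1 := by
  have hev : ∀ (p : E[X]) (x : E), (p.map (algebraMap E (AlgebraicClosure ℚ))).eval
      (x : AlgebraicClosure ℚ) = ((p.eval x : E) : AlgebraicClosure ℚ) := by
    intro p x
    rw [Polynomial.eval_map]
    exact Polynomial.eval₂_at_apply (algebraMap E (AlgebraicClosure ℚ)) x
  obtain ⟨a, haE, ha0, haa⟩ := hensel_qbar q hE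
    (g := f.map (algebraMap E (AlgebraicClosure ℚ))) (hf.map _)
    (fun i => by rw [Polynomial.coeff_map]; exact (f.coeff i).2)
    (fun i => by rw [Polynomial.coeff_map]; exact hfi i)
    a₀.2 ha₀ (by rw [hev]; exact h1)
    (by rw [Polynomial.derivative_map, hev]; exact h2)
  refine ⟨⟨a, haE⟩, ?_, haa⟩
  have := hev f ⟨a, haE⟩
  rw [ha0] at this
  exact Subtype.ext this.symm

end Fermat.Agent.H81.Local
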