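import Mathlib
import Fermat.Agent.H81.Local.Hensel

/-!
# P-CFT / LOC-B1 (part 5a): values on `K_v`, conjugates, minimal polynomials

* `qVal_localField`: the value group of `K_v` is `q^ℤ`;
* `exists_nat_rep`: the residue field of `K_v` is `𝔽_q` (representatives `0, …, q - 1`);
* `qVal_conj`: conjugates over `E ⊇ K_v` have the same valuation;
* `qVal_minpoly_coeff_le_one`: the minimal polynomial over `E ⊇ K_v` of an integral element has
  integral coefficients;
* `qVal_pow_natDegree_minpoly`: `w(u) ^ deg = w(constant coefficient of the minimal polynomial)`.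
-/

set_option autoImplicit false

open Polynomial IntermediateField

open scoped NNReal

namespace Fermat.Agent.H81.Local

section General

variable {L : Type*} [Field L] {Γ₀ : Type*} [LinearOrderedCommGroupWithZero Γ₀]
  (w : Valuation L Γ₀)

/-- A monic split polynomial whose roots are integral has integral coefficients. -/
theorem val_coeff_le_one_of_roots {g : L[X]} (hg : g.Monic) (hs : g.Splits)
    (hr : ∀ β ∈ g.roots, w β ≤ 1) (i : ℕ) : w (g.coeff i) ≤ 1 := by
  have h1 : g = ((g.roots.attach.map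
      (fun β => (X - C (⟨β.1, hr β.1 β.2⟩ : w.integer) : w.integer[X]))).prod).map
        w.integer.subtype := by
    rw [Polynomial.map_multiset_prod, Multiset.map_map]
    conv_lhs => rw [hs.eq_prod_roots_of_monic hg, ← Multiset.attach_map_val g.roots,
      Multiset.map_map]
    congr 1
    apply Multiset.map_congr rfl
    intro β _
    simp
  rw [h1, Polynomial.coeff_map]
  generalize ((g.roots.attach.map
      (fun β => (X - C (⟨β.1, hr β.1 β.2⟩ : w.integer) : w.integer[X]))).prod).coeff i = c
  exact c.2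

/-- The value of a monic split polynomial at `0` is the product of the values of its roots. -/
theorem val_coeff_zero_eq_prod {g : L[X]} (hg : g.Monic) (hs : g.Splits) :
    w (g.coeff 0) = (g.roots.map w).prod := by
  rw [Polynomial.coeff_zero_eq_eval_zero, hs.eval_eq_prod_roots_of_monic hg, map_multiset_prod,
    Multiset.map_map]
  congr 1
  apply Multiset.map_congr rfl
  intro β _
  simp

end General

variable (q : ℕ) [Fact q.Prime]

theorem qInv_pos : (0 : ℝ≥0) < (q : ℝ≥0)⁻¹ := by
  have hq : (q : ℕ).Prime := Fact.out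
  have : (0 : ℝ≥0) < q := by exact_mod_cast hq.pos
  exact inv_pos.mpr this

theorem qInv_lt_one : (q : ℝ≥0)⁻¹ < 1 := by
  have hq : (q : ℕ).Prime := Fact.out
  have : (1 : ℝ≥0) < q := by exact_mod_cast hq.one_lt
  exact inv_lt_one_of_one_lt₀ this

/-- The value group of `K_v` is `q^ℤ`. -/
theorem qVal_localField {x : AlgebraicClosure ℚ} (hx : x ∈ localField q) (hx0 : x ≠ 0) :
    ∃ k : ℤ, qVal q x = ((q : ℝ≥0)⁻¹) ^ k := by
  obtain ⟨a, ha⟩ := (mem_localField_iff q).mp hx
  have ha0 : a ≠ 0 := by
    rintro rfl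
    rw [map_zero] at ha
    exact hx0 ((map_eq_zero _).mp ha.symm)
  refine ⟨a.valuation, ?_⟩
  apply NNReal.coe_injective
  rw [coe_qVal, ← ha, PadicAlgCl.norm_extends, Padic.norm_eq_zpow_neg_valuation ha0]
  push_cast
  rw [inv_zpow, zpow_neg]

/-- The residue field of `K_v` is `𝔽_q`: representatives `0, …, q - 1`. -/
theorem exists_nat_rep {x : AlgebraicClosure ℚ} (hx : x ∈ localField q) (hxi : qVal q x ≤ 1) :
    ∃ k : ℕ, k < q ∧ qVal q (x - (k : AlgebraicClosure ℚ)) < 1 := by
  obtain ⟨a, ha⟩ := (mem_localField_iff q).mp hx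
  have hnorm : ‖a‖ ≤ 1 := by
    rw [← PadicAlgCl.norm_extends, ha, ← coe_qVal]
    exact_mod_cast hxi
  set z : ℤ_[q] := ⟨a, hnorm⟩ with hz
  obtain ⟨k, hk, hmem⟩ := PadicInt.exists_mem_range (p := q) (x := z)
  refine ⟨k, hk, ?_⟩
  rw [IsLocalRing.mem_maximalIdeal, PadicInt.mem_nonunits] at hmem
  rw [← NNReal.coe_lt_coe, coe_qVal, map_sub, map_natCast, ← ha]
  have h2 : (algebraMap ℚ_[q] (PadicAlgCl q) a - (k : PadicAlgCl q)) =
      algebraMap ℚ_[q] (PadicAlgCl q) (a - (k : ℚ_[q])) := by
    rw [map_sub, map_natCast]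
  rw [h2, PadicAlgCl.norm_extends]
  have h3 : ‖z - (k : ℤ_[q])‖ = ‖a - (k : ℚ_[q])‖ := by
    rw [PadicInt.norm_def]
    push_cast
    rfl
  rw [← h3]
  exact_mod_cast hmem

/-- Conjugates over `E ⊇ K_v` have the same valuation. -/
theorem qVal_conj {E : IntermediateField ℚ (AlgebraicClosure ℚ)} (hE : localField q ≤ E)
    {u β : AlgebraicClosure ℚ} (h : aeval β (minpoly E u) = 0) : qVal q β = qVal q u := by
  have := Fermat.Agent.H81.isGalois_rat_Qbar
  have := Fermat.Agent.H81.isAlgebraic_rat_Qbar
  have hnormal : Normal E (AlgebraicClosure ℚ) := Normal.tower_top_of_normal ℚ E _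
  have hint : IsIntegral E u := (Algebra.IsAlgebraic.isAlgebraic (R := E) u).isIntegral
  obtain ⟨σ, hσ⟩ := (isConjRoot_of_aeval_eq_zero hint h).exists_algEquiv
  have hmem : (σ.restrictScalars ℚ) ∈ E.fixingSubgroup := by
    intro y
    exact σ.commutes y
  have h3 := qVal_galois q hE hmem β
  have h4 : (σ.restrictScalars ℚ) β = u := hσ
  rw [h4] at h3
  exact h3.symm

/-- The minimal polynomial over `E ⊇ K_v`, mapped to `ℚ̄`. -/
noncomputable def minpolyQbar (E : IntermediateField ℚ (AlgebraicClosure ℚ))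
    (u : AlgebraicClosure ℚ) : (AlgebraicClosure ℚ)[X] :=
  (minpoly E u).map (algebraMap E (AlgebraicClosure ℚ))

theorem isIntegral_over (E : IntermediateField ℚ (AlgebraicClosure ℚ))
    (u : AlgebraicClosure ℚ) : IsIntegral E u := by
  have := Fermat.Agent.H81.isAlgebraic_rat_Qbar
  exact (Algebra.IsAlgebraic.isAlgebraic (R := E) u).isIntegral

theorem minpolyQbar_monic (E : IntermediateField ℚ (AlgebraicClosure ℚ))
    (u : AlgebraicClosure ℚ) : (minpolyQbar E u).Monic :=
  (minpoly.monic (isIntegral_over E u)).map _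

theorem minpolyQbar_eval (E : IntermediateField ℚ (AlgebraicClosure ℚ))
    (u : AlgebraicClosure ℚ) : (minpolyQbar E u).eval u = 0 := by
  rw [minpolyQbar, Polynomial.eval_map, ← Polynomial.aeval_def]
  exact minpoly.aeval E u

theorem minpolyQbar_natDegree (E : IntermediateField ℚ (AlgebraicClosure ℚ))
    (u : AlgebraicClosure ℚ) : (minpolyQbar E u).natDegree = (minpoly E u).natDegree :=
  Polynomial.natDegree_map _

theorem minpolyQbar_coeff_mem (E : IntermediateField ℚ (AlgebraicClosure ℚ))
    (u : AlgebraicClosure ℚ) (i : ℕ) : (minpolyQbar E u).coeff i ∈ E := by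
  rw [minpolyQbar, Polynomial.coeff_map]
  exact ((minpoly E u).coeff i).2

theorem qVal_root_minpolyQbar {E : IntermediateField ℚ (AlgebraicClosure ℚ)}
    (hE : localField q ≤ E) {u β : AlgebraicClosure ℚ} (hβ : β ∈ (minpolyQbar E u).roots) :
    qVal q β = qVal q u := by
  apply qVal_conj q hE
  have := (Polynomial.mem_roots (minpolyQbar_monic E u).ne_zero).mp hβ
  rw [Polynomial.IsRoot, minpolyQbar, Polynomial.eval_map, ← Polynomial.aeval_def] at this
  exact this

/-- The minimal polynomial over `E ⊇ K_v` of an integral element has integral coefficients. -/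
theorem qVal_minpolyQbar_coeff_le_one {E : IntermediateField ℚ (AlgebraicClosure ℚ)}
    (hE : localField q ≤ E) {u : AlgebraicClosure ℚ} (hu : qVal q u ≤ 1) (i : ℕ) :
    qVal q ((minpolyQbar E u).coeff i) ≤ 1 := by
  apply val_coeff_le_one_of_roots (qVal q) (minpolyQbar_monic E u) (IsAlgClosed.splits _)
  intro β hβ
  rw [qVal_root_minpolyQbar q hE hβ]
  exact hu

/-- `w(u) ^ deg = w(constant coefficient of the minimal polynomial)`. -/
theorem qVal_pow_natDegree_minpoly {E : IntermediateField ℚ (AlgebraicClosure ℚ)}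
    (hE : localField q ≤ E) (u : AlgebraicClosure ℚ) :
    qVal q u ^ (minpoly E u).natDegree = qVal q ((minpolyQbar E u).coeff 0) := by
  rw [val_coeff_zero_eq_prod (qVal q) (minpolyQbar_monic E u) (IsAlgClosed.splits _)]
  have h1 : (minpolyQbar E u).roots.map (qVal q) =
      Multiset.replicate (Multiset.card (minpolyQbar E u).roots) (qVal q u) := by
    rw [Multiset.eq_replicate]
    refine ⟨by simp, ?_⟩
    intro b hb
    obtain ⟨β, hβ, rfl⟩ := Multiset.mem_map.mp hb
    exact qVal_root_minpolyQbar q hE hβ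
  rw [h1, Multiset.prod_replicate, (IsAlgClosed.splits (minpolyQbar E u)).natDegree_eq_card_roots.symm,
    minpolyQbar_natDegree]

end Fermat.Agent.H81.Local
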