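import Mathlib
import Fermat.Agent.H81.Local.Conj

/-!
# P-CFT / LOC-B1 (part 5b0): finite extensions of `K_v` inside `ℚ̄`

* `IsLocalFinite q E`: `K_v ≤ E ≤ K_v · F₀` for some number field `F₀ ⊆ ℚ̄`
  (equivalently: `E` is a finite extension of `K_v`);
* `IsLocalFinite.bdd`: bounded degree over `K_v`;
* `isLocalFinite_localField`, `isLocalFinite_sup`, `IsLocalFinite.mono`;
* `IsLocalFinite.of_finiteDimensional`: a finite extension of a finite extension.
-/

set_option autoImplicit false

open Polynomial IntermediateField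

open scoped NNReal

namespace Fermat.Agent.H81.Local

variable (q : ℕ) [Fact q.Prime]

/-- `E` is a finite extension of `K_v` inside `ℚ̄`: it contains `K_v` and is contained in the
compositum of `K_v` with a number field. -/
structure IsLocalFinite (E : IntermediateField ℚ (AlgebraicClosure ℚ)) : Prop where
  le : localField q ≤ E
  exists_le_sup : ∃ F₀ : IntermediateField ℚ (AlgebraicClosure ℚ),
    FiniteDimensional ℚ F₀ ∧ E ≤ localField q ⊔ F₀

variable {q}

theorem isLocalFinite_sup (F₀ : IntermediateField ℚ (AlgebraicClosure ℚ))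
    [FiniteDimensional ℚ F₀] : IsLocalFinite q (localField q ⊔ F₀) :=
  ⟨le_sup_left, F₀, inferInstance, le_refl _⟩

variable (q) in
theorem isLocalFinite_localField : IsLocalFinite q (localField q) :=
  ⟨le_refl _, ⊥, inferInstance, le_sup_left⟩

theorem IsLocalFinite.mono {E E' : IntermediateField ℚ (AlgebraicClosure ℚ)}
    (hE : IsLocalFinite q E) (h1 : localField q ≤ E') (h2 : E' ≤ E) : IsLocalFinite q E' := by
  obtain ⟨F₀, hF₀, hle⟩ := hE.exists_le_sup
  exact ⟨h1, F₀, hF₀, h2.trans hle⟩

/-- Bounded degree over `K_v`. -/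
theorem IsLocalFinite.bdd {E : IntermediateField ℚ (AlgebraicClosure ℚ)}
    (hE : IsLocalFinite q E) :
    ∃ n : ℕ, ∀ u ∈ E, (minpoly (localField q) u).natDegree ≤ n := by
  obtain ⟨F₀, hF₀, hle⟩ := hE.exists_le_sup
  set M : IntermediateField (localField q) (AlgebraicClosure ℚ) :=
    adjoin (localField q) (F₀ : Set (AlgebraicClosure ℚ)) with hM
  have hrank : Module.rank (localField q) M ≤ Module.rank ℚ F₀ :=
    IntermediateField.adjoin_rank_le_of_isAlgebraic_right (localField q) F₀
  have hfin : Module.rank ℚ F₀ < Cardinal.aleph0 := Module.rank_lt_aleph0 ℚ F₀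
  have hMfin : Module.Finite (localField q) M :=
    Module.rank_lt_aleph0_iff.mp (lt_of_le_of_lt hrank hfin)
  have hle' : localField q ⊔ F₀ ≤ M.restrictScalars ℚ := by
    apply sup_le
    · intro x hx
      exact M.algebraMap_mem ⟨x, hx⟩
    · intro x hx
      rw [IntermediateField.mem_restrictScalars]
      exact subset_adjoin (localField q) (F₀ : Set (AlgebraicClosure ℚ)) hx
  have hfree : Module.Free (localField q) M := Module.Free.of_divisionRing _ _
  refine ⟨Module.finrank (localField q) M, ?_⟩
  intro u hu
  have huM : u ∈ M := hle' (hle hu)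
  have h1 : (minpoly (localField q) (⟨u, huM⟩ : M)).natDegree ≤
      Module.finrank (localField q) M := minpoly.natDegree_le _
  rw [IntermediateField.minpoly_eq] at h1
  exact h1

/-- A finite extension of a finite extension of `K_v` is a finite extension of `K_v`. -/
theorem IsLocalFinite.of_finiteDimensional {E : IntermediateField ℚ (AlgebraicClosure ℚ)}
    (hE : IsLocalFinite q E) (F : IntermediateField E (AlgebraicClosure ℚ))
    [FiniteDimensional E F] : IsLocalFinite q (F.restrictScalars ℚ) := by
  have := Fermat.Agent.H81.isAlgebraic_rat_Qbar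
  have hEF : E ≤ F.restrictScalars ℚ := by
    intro x hx
    exact F.algebraMap_mem ⟨x, hx⟩
  refine ⟨hE.le.trans hEF, ?_⟩
  obtain ⟨F₀, hF₀, hle⟩ := hE.exists_le_sup
  obtain ⟨S, hS⟩ := (Module.Finite.fg_top : (⊤ : Submodule E F).FG)
  set S' : Set (AlgebraicClosure ℚ) := (fun x : F => (x : AlgebraicClosure ℚ)) '' (S : Set F)
    with hS'
  have hS'fin : S'.Finite := (Finset.finite_toSet S).image _
  have : Finite S' := hS'fin
  have : FiniteDimensional ℚ (adjoin ℚ S') :=
    IntermediateField.finiteDimensional_adjoin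
      (fun x _ => (Algebra.IsAlgebraic.isAlgebraic (R := ℚ) x).isIntegral)
  refine ⟨F₀ ⊔ adjoin ℚ S', inferInstance, ?_⟩
  set T : IntermediateField ℚ (AlgebraicClosure ℚ) := localField q ⊔ (F₀ ⊔ adjoin ℚ S') with hT
  have hET : E ≤ T := hle.trans (sup_le le_sup_left (le_sup_right.trans' le_sup_left))
  have hS'T : S' ⊆ T := fun x hx =>
    (le_sup_right.trans' (le_sup_right.trans' (le_refl _)) : adjoin ℚ S' ≤ T)
      (subset_adjoin ℚ S' hx)
  intro x hx
  have hxF : (⟨x, hx⟩ : F) ∈ Submodule.span E (S : Set F) := by rw [hS]; trivial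
  have key : ∀ y : F, y ∈ Submodule.span E (S : Set F) → (y : AlgebraicClosure ℚ) ∈ T := by
    intro y hy
    induction hy using Submodule.span_induction with
    | mem z hz => exact hS'T ⟨z, hz, rfl⟩
    | zero => exact zero_mem T
    | add a b _ _ ha hb => exact add_mem ha hb
    | smul e a _ ha =>
      have : ((e • a : F) : AlgebraicClosure ℚ) = (e : AlgebraicClosure ℚ) * (a : AlgebraicClosure ℚ) := by
        rw [Algebra.smul_def]
        rfl
      rw [this]
      exact mul_mem (hET e.2) ha
  exact key ⟨x, hx⟩ hxF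

/-- A finite-dimensional intermediate field of `ℚ̄/K_v`. -/
theorem isLocalFinite_of_finiteDimensional
    (M : IntermediateField (localField q) (AlgebraicClosure ℚ))
    [FiniteDimensional (localField q) M] : IsLocalFinite q (M.restrictScalars ℚ) :=
  (isLocalFinite_localField q).of_finiteDimensional M

end Fermat.Agent.H81.Local
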