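import Mathlib
import Fermat.Agent.H81.Local.LocalFinite

/-!
# P-CFT / LOC-B1 (part 5b): discreteness of the valuation on finite extensions of `K_v`

* `exists_pow_qVal_eq_zpow`: a fixed power of every value is in `q^ℤ`;
* `exists_uniformizer`: the value group of `E` is generated by one element.
-/

set_option autoImplicit false

open Polynomial IntermediateField

open scoped NNReal

namespace Fermat.Agent.H81.Local

variable {q : ℕ} [Fact q.Prime]

theorem qVal_ne_zero {x : AlgebraicClosure ℚ} (hx : x ≠ 0) : qVal q x ≠ 0 :=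
  (Valuation.ne_zero_iff _).mpr hx

/-- A fixed power of every value of `E` lies in `q^ℤ`. -/
theorem exists_pow_qVal_eq_zpow {E : IntermediateField ℚ (AlgebraicClosure ℚ)}
    (hE : IsLocalFinite q E) :
    ∃ N : ℕ, 0 < N ∧ ∀ u ∈ E, u ≠ 0 → ∃ k : ℤ, qVal q u ^ N = ((q : ℝ≥0)⁻¹) ^ k := by
  obtain ⟨n, hn⟩ := hE.bdd
  refine ⟨n.factorial, Nat.factorial_pos n, ?_⟩
  intro u hu hu0
  set d := (minpoly (localField q) u).natDegree with hd
  have hdpos : 0 < d := minpoly.natDegree_pos (isIntegral_over (localField q) u)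
  have hdn : d ≤ n := hn u hu
  have hdvd : d ∣ n.factorial := Nat.dvd_factorial hdpos hdn
  obtain ⟨e, he⟩ := hdvd
  have h1 := qVal_pow_natDegree_minpoly q (le_refl (localField q)) u
  have hc0 : (minpolyQbar (localField q) u).coeff 0 ≠ 0 := by
    intro h0
    rw [h0, map_zero] at h1
    exact qVal_ne_zero hu0 ((pow_eq_zero_iff hdpos.ne').mp h1)
  obtain ⟨k, hk⟩ := qVal_localField q (minpolyQbar_coeff_mem (localField q) u 0) hc0
  refine ⟨k * e, ?_⟩
  rw [he, pow_mul, hd, h1, hk, zpow_mul, zpow_natCast]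

/-- **Discreteness**: the value group of a finite extension `E` of `K_v` is generated by the value
of a uniformizer. -/
theorem exists_uniformizer {E : IntermediateField ℚ (AlgebraicClosure ℚ)}
    (hE : IsLocalFinite q E) :
    ∃ ϖ ∈ E, ϖ ≠ 0 ∧ qVal q ϖ < 1 ∧
      ∀ x ∈ E, x ≠ 0 → ∃ n : ℤ, qVal q x = qVal q ϖ ^ n := by
  have hq : (q : ℕ).Prime := Fact.out
  obtain ⟨N, hN, hpow⟩ := exists_pow_qVal_eq_zpow hE
  set c : ℝ≥0 := (q : ℝ≥0)⁻¹ with hc
  have hc0 : (0 : ℝ≥0) < c := qInv_pos q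
  have hc1 : c < 1 := qInv_lt_one q
  have hcne : c ≠ 0 := hc0.ne'
  -- injectivity of `k ↦ c ^ k`
  have hinj : ∀ a b : ℤ, c ^ a = c ^ b → a = b := by
    intro a b hab
    exact zpow_right_injective₀ hc0 hc1.ne hab
  -- the set of positive exponents
  have hex : ∃ k : ℕ, 0 < k ∧ ∃ u ∈ E, u ≠ 0 ∧ qVal q u ^ N = c ^ (k : ℤ) := by
    refine ⟨N, hN, (q : AlgebraicClosure ℚ), IntermediateField.natCast_mem E q, ?_, ?_⟩
    · exact_mod_cast hq.ne_zero
    · rw [qVal_natCast_self, zpow_natCast]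
  classical
  set k₀ := Nat.find hex with hk₀
  obtain ⟨hk₀pos, ϖ, hϖE, hϖ0, hϖ⟩ := Nat.find_spec hex
  have hmin : ∀ k : ℕ, k < k₀ → ¬ (0 < k ∧ ∃ u ∈ E, u ≠ 0 ∧ qVal q u ^ N = c ^ (k : ℤ)) :=
    fun k hk => Nat.find_min hex hk
  have hϖlt : qVal q ϖ < 1 := by
    by_contra hge
    have hge' : 1 ≤ qVal q ϖ := not_lt.mp hge
    have h1 : 1 ≤ qVal q ϖ ^ N := one_le_pow₀ hge'
    rw [hϖ, zpow_natCast] at h1
    have h2 : c ^ k₀ < 1 := pow_lt_one₀ hc0.le hc1 (hk₀pos.ne')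
    exact absurd h1 (not_le.mpr h2)
  refine ⟨ϖ, hϖE, hϖ0, hϖlt, ?_⟩
  intro x hxE hx0
  obtain ⟨m, hm⟩ := hpow x hxE hx0
  have hk₀Z : (0 : ℤ) < (k₀ : ℤ) := by exact_mod_cast hk₀pos
  set t := m / (k₀ : ℤ) with ht
  set r := m % (k₀ : ℤ) with hr
  have hr0 : 0 ≤ r := Int.emod_nonneg m hk₀Z.ne'
  have hrlt : r < k₀ := Int.emod_lt_of_pos m hk₀Z
  have hmtr : m = (k₀ : ℤ) * t + r := (Int.mul_ediv_add_emod m k₀).symm
  set y : AlgebraicClosure ℚ := x * ϖ ^ (-t) with hy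
  have hyE : y ∈ E := mul_mem hxE (zpow_mem hϖE _)
  have hy0 : y ≠ 0 := mul_ne_zero hx0 (zpow_ne_zero _ hϖ0)
  have hyN : qVal q y ^ N = c ^ r := by
    rw [hy, map_mul, map_zpow₀, mul_pow, hm, ← zpow_natCast (qVal q ϖ ^ (-t)) N, ← zpow_mul,
      mul_comm (-t) (N : ℤ), zpow_mul, zpow_natCast, hϖ, ← zpow_mul, ← zpow_add₀ hcne]
    congr 1
    rw [hmtr]
    ring
  have hr_eq : r = 0 := by
    by_contra hrne
    have hrpos : 0 < r := lt_of_le_of_ne hr0 (Ne.symm hrne)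
    have h1 : r.toNat < k₀ := by
      have : (r.toNat : ℤ) = r := Int.toNat_of_nonneg hr0
      exact_mod_cast this ▸ hrlt
    have h2 : 0 < r.toNat := by
      have : (r.toNat : ℤ) = r := Int.toNat_of_nonneg hr0
      exact_mod_cast this ▸ hrpos
    apply hmin r.toNat h1
    refine ⟨h2, y, hyE, hy0, ?_⟩
    rw [Int.toNat_of_nonneg hr0]
    exact hyN
  refine ⟨t, ?_⟩
  have h3 : qVal q x ^ N = (qVal q ϖ ^ t) ^ N := by
    rw [hm, ← zpow_natCast (qVal q ϖ ^ t) N, ← zpow_mul, mul_comm t (N : ℤ), zpow_mul,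
      zpow_natCast, hϖ, ← zpow_mul, hmtr, hr_eq, add_zero]
  exact (pow_left_inj₀ zero_le zero_le hN.ne').mp h3

end Fermat.Agent.H81.Local
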