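import Mathlib
import Fermat.Agent.H81.Local.Discrete

/-!
# P-CFT / LOC-B1 (part 5c): finiteness of the residue field of finite extensions of `K_v`

* `exists_residue_reps`: for `E` finite over `K_v` there is a finite set of integral elements of
  `E` representing all residue classes.
-/

set_option autoImplicit false

open Polynomial IntermediateField

open scoped NNReal

namespace Fermat.Agent.H81.Local

/-- The monic polynomial `X^d + Σ_{i<d} r_i X^i`. -/
noncomputable def repPoly (d : ℕ) (r : ℕ → ℕ) : (AlgebraicClosure ℚ)[X] :=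
  X ^ d + ∑ i ∈ Finset.range d, C ((r i : ℕ) : AlgebraicClosure ℚ) * X ^ i

theorem repPoly_monic (d : ℕ) (r : ℕ → ℕ) : (repPoly d r).Monic := by
  apply Polynomial.monic_X_pow_add
  refine lt_of_le_of_lt (Polynomial.degree_sum_le _ _) ?_
  refine (Finset.sup_lt_iff (WithBot.bot_lt_coe d)).mpr ?_
  intro i hi
  refine lt_of_le_of_lt (Polynomial.degree_C_mul_X_pow_le _ _) ?_
  exact WithBot.coe_lt_coe.mpr (Finset.mem_range.mp hi)

theorem repPoly_congr {d : ℕ} {r r' : ℕ → ℕ} (h : ∀ i < d, r i = r' i) :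
    repPoly d r = repPoly d r' := by
  unfold repPoly
  congr 1
  apply Finset.sum_congr rfl
  intro i hi
  rw [h i (Finset.mem_range.mp hi)]

/-- The finite family of polynomials `repPoly d r`, `d ≤ n`, `r i < q`. -/
noncomputable def repPolyFamily (q n : ℕ) : Finset (AlgebraicClosure ℚ)[X] :=
  (Finset.univ : Finset (Fin (n + 1) × (Fin n → Fin q))).image
    (fun p => repPoly p.1 (fun i => if h : i < n then ((p.2 ⟨i, h⟩ : Fin q) : ℕ) else 0))

theorem repPoly_mem_family {q n d : ℕ} (hd : d ≤ n) {r : ℕ → ℕ} (hr : ∀ i, r i < q) :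
    repPoly d r ∈ repPolyFamily q n := by
  unfold repPolyFamily
  rw [Finset.mem_image]
  refine ⟨(⟨d, Nat.lt_succ_of_le hd⟩, fun i => ⟨r i, hr i⟩), Finset.mem_univ _, ?_⟩
  apply repPoly_congr
  intro i hi
  simp [lt_of_lt_of_le hi hd]

/-- The finite set of roots of the polynomials of `repPolyFamily`. -/
noncomputable def repRoots (q n : ℕ) : Finset (AlgebraicClosure ℚ) :=
  (repPolyFamily q n).biUnion (fun P => P.roots.toFinset)

variable {q : ℕ} [Fact q.Prime]

/-- Every integral element of degree `≤ n` over `K_v` is congruent to an element of the finite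
set `repRoots q n`. -/
theorem exists_repRoot {n : ℕ} {u : AlgebraicClosure ℚ} (hu : qVal q u ≤ 1)
    (hn : (minpoly (localField q) u).natDegree ≤ n) :
    ∃ β ∈ repRoots q n, qVal q (u - β) < 1 := by
  classical
  set μ := minpolyQbar (localField q) u with hμ
  set d := μ.natDegree with hd
  have hdn : d ≤ n := by rw [hd, hμ, minpolyQbar_natDegree]; exact hn
  have hmon : μ.Monic := minpolyQbar_monic _ u
  have hc : ∀ i, ∃ k : ℕ, k < q ∧ qVal q (μ.coeff i - (k : AlgebraicClosure ℚ)) < 1 := fun i =>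
    exists_nat_rep q (minpolyQbar_coeff_mem _ u i)
      (qVal_minpolyQbar_coeff_le_one q (le_refl _) hu i)
  choose r hrq hr using hc
  have hsum : μ = X ^ d + ∑ i ∈ Finset.range d, C (μ.coeff i) * X ^ i := hmon.as_sum
  have heval : (repPoly d r).eval u =
      ∑ i ∈ Finset.range d, ((r i : AlgebraicClosure ℚ) - μ.coeff i) * u ^ i := by
    have h0 : μ.eval u = 0 := minpolyQbar_eval _ u
    have h1 : (repPoly d r).eval u = (repPoly d r).eval u - μ.eval u := by rw [h0, sub_zero]
    rw [h1]
    conv_lhs => rw [hsum]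
    unfold repPoly
    simp only [eval_add, eval_pow, eval_X, eval_finsetSum, eval_mul, eval_C]
    rw [add_sub_add_left_eq_sub, ← Finset.sum_sub_distrib]
    apply Finset.sum_congr rfl
    intro i _
    ring
  have hlt : qVal q ((repPoly d r).eval u) < 1 := by
    rw [heval]
    apply Valuation.map_sum_lt _ one_ne_zero
    intro i _
    rw [map_mul, map_pow]
    have h2 : qVal q ((r i : AlgebraicClosure ℚ) - μ.coeff i) < 1 := by
      rw [← Valuation.map_neg, neg_sub]
      exact hr i
    calc qVal q ((r i : AlgebraicClosure ℚ) - μ.coeff i) * qVal q u ^ i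
        ≤ qVal q ((r i : AlgebraicClosure ℚ) - μ.coeff i) * 1 :=
          mul_le_mul_right (pow_le_one₀ zero_le hu) _
      _ = qVal q ((r i : AlgebraicClosure ℚ) - μ.coeff i) := mul_one _
      _ < 1 := h2
  obtain ⟨β, hβ, hβu⟩ := exists_root_val_sub_lt_one (qVal q) (repPoly_monic d r)
    (IsAlgClosed.splits _) hlt
  refine ⟨β, ?_, hβu⟩
  unfold repRoots
  rw [Finset.mem_biUnion]
  exact ⟨repPoly d r, repPoly_mem_family hdn hrq, Multiset.mem_toFinset.mpr hβ⟩

/-- **Finiteness of the residue field** of a finite extension `E` of `K_v`: a finite set of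
integral elements of `E` representing all residue classes. -/
theorem exists_residue_reps {E : IntermediateField ℚ (AlgebraicClosure ℚ)}
    (hE : IsLocalFinite q E) :
    ∃ R : Finset (AlgebraicClosure ℚ), (∀ r ∈ R, r ∈ E ∧ qVal q r ≤ 1) ∧
      ∀ x ∈ E, qVal q x ≤ 1 → ∃ r ∈ R, qVal q (x - r) < 1 := by
  classical
  obtain ⟨n, hn⟩ := hE.bdd
  set φ : AlgebraicClosure ℚ → AlgebraicClosure ℚ := fun β =>
    if h : ∃ u ∈ E, qVal q u ≤ 1 ∧ qVal q (u - β) < 1 then h.choose else 0 with hφ
  refine ⟨(repRoots q n).image φ, ?_, ?_⟩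
  · intro r hr
    obtain ⟨β, _, rfl⟩ := Finset.mem_image.mp hr
    by_cases h : ∃ u ∈ E, qVal q u ≤ 1 ∧ qVal q (u - β) < 1
    · have : φ β = h.choose := by rw [hφ]; exact dif_pos h
      rw [this]
      exact ⟨h.choose_spec.1, h.choose_spec.2.1⟩
    · have : φ β = 0 := by rw [hφ]; exact dif_neg h
      rw [this]
      exact ⟨zero_mem E, by simp⟩
  · intro x hxE hx
    obtain ⟨β, hβ, hβx⟩ := exists_repRoot hx (hn x hxE)
    have h : ∃ u ∈ E, qVal q u ≤ 1 ∧ qVal q (u - β) < 1 := ⟨x, hxE, hx, hβx⟩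
    refine ⟨φ β, Finset.mem_image_of_mem φ hβ, ?_⟩
    have hφβ : φ β = h.choose := by rw [hφ]; exact dif_pos h
    rw [hφβ]
    have h1 : qVal q (h.choose - β) < 1 := h.choose_spec.2.2
    have h2 : x - h.choose = (x - β) - (h.choose - β) := by ring
    rw [h2]
    exact lt_of_le_of_lt (Valuation.map_sub _ _ _) (max_lt hβx h1)

end Fermat.Agent.H81.Local
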