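import Mathlib
import Fermat.Agent.H78.CFT.LocalDefs
import Fermat.Agent.H81.Local.Residue

/-!
# P-CFT / LOC-B1 (e): the `LocalNormDatum` of a finite extension of finite extensions of `K_v`

For `E` a finite extension of `K_v = ℚ̄^{D_q}` inside `ℚ̄` (`IsLocalFinite q E`) and
`F : IntermediateField E ℚ̄` finite over `E`, the restriction `qValOn q F` of the `q`-adic
valuation to `F` satisfies `Fermat.Agent.H78.CFT.LocalNormDatum E F (qValOn q F)`.
-/

set_option autoImplicit false

open Polynomial IntermediateField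

open scoped NNReal

namespace Fermat.Agent.H81.Local

variable (q : ℕ) [Fact q.Prime]

/-- The restriction of the `q`-adic valuation to an intermediate field `F` of `ℚ̄/E`. -/
noncomputable def qValOn {E : IntermediateField ℚ (AlgebraicClosure ℚ)}
    (F : IntermediateField E (AlgebraicClosure ℚ)) : Valuation F ℝ≥0 :=
  (qVal q).comap (algebraMap F (AlgebraicClosure ℚ))

theorem qValOn_apply {E : IntermediateField ℚ (AlgebraicClosure ℚ)}
    (F : IntermediateField E (AlgebraicClosure ℚ)) (x : F) :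
    qValOn q F x = qVal q (x : AlgebraicClosure ℚ) := rfl

theorem qValOn_algebraMap {E : IntermediateField ℚ (AlgebraicClosure ℚ)}
    (F : IntermediateField E (AlgebraicClosure ℚ)) (x : E) :
    qValOn q F (algebraMap E F x) = qVal q (x : AlgebraicClosure ℚ) := rfl

variable {q}

/-- The valuation is invariant under `Gal(ℚ̄/E)` (in the form `ℚ̄ ≃ₐ[E] ℚ̄`). -/
theorem qVal_algEquiv {E : IntermediateField ℚ (AlgebraicClosure ℚ)} (hE : localField q ≤ E)
    (σ : AlgebraicClosure ℚ ≃ₐ[E] AlgebraicClosure ℚ) (x : AlgebraicClosure ℚ) :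
    qVal q (σ x) = qVal q x := by
  have hmem : (σ.restrictScalars ℚ) ∈ E.fixingSubgroup := by
    intro y
    exact σ.commutes y
  exact qVal_galois q hE hmem x

/-- The valuation on `F` is invariant under `Gal(F/E)`. -/
theorem qValOn_galois {E : IntermediateField ℚ (AlgebraicClosure ℚ)} (hE : localField q ≤ E)
    (F : IntermediateField E (AlgebraicClosure ℚ)) (σ : F ≃ₐ[E] F) (x : F) :
    qValOn q F (σ x) = qValOn q F x := by
  have := Fermat.Agent.H81.isGalois_rat_Qbar
  have hnormal : Normal E (AlgebraicClosure ℚ) := Normal.tower_top_of_normal ℚ E _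
  have h1 := AlgEquiv.liftNormal_commutes σ (AlgebraicClosure ℚ) x
  rw [qValOn_apply, qValOn_apply]
  have h2 : ((σ x : F) : AlgebraicClosure ℚ) = (σ.liftNormal (AlgebraicClosure ℚ)) (x : AlgebraicClosure ℚ) :=
    h1.symm
  rw [h2]
  exact qVal_algEquiv hE _ _

/-- **LOC-B1 (e)**: the local norm datum of `F / E`. -/
theorem localNormDatum {E : IntermediateField ℚ (AlgebraicClosure ℚ)} (hE : IsLocalFinite q E)
    (F : IntermediateField E (AlgebraicClosure ℚ)) [FiniteDimensional E F] :
    Fermat.Agent.H78.CFT.LocalNormDatum E F (qValOn q F) where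
  galois_inv := qValOn_galois hE.le F
  unifL := by
    obtain ⟨ϖ, hϖF, hϖ0, hϖ1, hϖ⟩ := exists_uniformizer (hE.of_finiteDimensional F)
    refine ⟨⟨ϖ, hϖF⟩, ?_, hϖ1, ?_⟩
    · intro h
      exact hϖ0 (congrArg Subtype.val h)
    · intro x hx
      exact hϖ (x : AlgebraicClosure ℚ) x.2 (fun h => hx (Subtype.ext h))
  unifK := by
    obtain ⟨π, hπE, hπ0, hπ1, hπ⟩ := exists_uniformizer hE
    refine ⟨⟨π, hπE⟩, ?_, hπ1, ?_⟩
    · intro h
      exact hπ0 (congrArg Subtype.val h)
    · intro x hx
      exact hπ (x : AlgebraicClosure ℚ) x.2 (fun h => hx (Subtype.ext h))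
  res_finite := by
    classical
    obtain ⟨R, hR, hrep⟩ := exists_residue_reps (hE.of_finiteDimensional F)
    refine ⟨R.subtype (fun r => r ∈ F), ?_⟩
    intro x hx
    obtain ⟨r, hr, hxr⟩ := hrep (x : AlgebraicClosure ℚ) x.2 hx
    exact ⟨⟨r, (hR r hr).1⟩, Finset.mem_subtype.mpr hr, hxr⟩
  hensel := by
    intro f hf hfi a₀ ha₀ h1 h2
    exact hensel_intermediate q hE.le hf hfi ha₀ h1 h2

end Fermat.Agent.H81.Local
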