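import Mathlib

/-!
# P-CFT / LOC-B1 (B3, part a): a valuation with a uniformizer has a discrete valuation ring

Mathlib only. For a field `K` with a valuation `v` (any value group) and `π ≠ 0`, `v π < 1`,
such that every nonzero value is an integer power of `v π`:
`isDiscreteValuationRing_of_uniformizer : IsDiscreteValuationRing v.valuationSubring`.

Also: `val_le_one_of_root`: roots of monic polynomials with integral coefficients are integral.
-/

set_option autoImplicit false

open Polynomial

namespace Fermat.Agent.H81.Local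

section DVR

variable {K : Type*} [Field K] {Γ₀ : Type*} [LinearOrderedCommGroupWithZero Γ₀]
  (v : Valuation K Γ₀)

/-- An element of value `1` gives a unit of the valuation ring. -/
theorem exists_unit_of_val_eq_one {x : K} (hx : v x = 1) :
    ∃ u : (v.valuationSubring)ˣ, ((u : v.valuationSubring) : K) = x := by
  have hx0 : x ≠ 0 := by
    rintro rfl
    simp at hx
  have h1 : x ∈ v.valuationSubring := (Valuation.mem_valuationSubring_iff v x).mpr hx.le
  have h2 : x⁻¹ ∈ v.valuationSubring := by
    rw [Valuation.mem_valuationSubring_iff, map_inv₀, hx, inv_one]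
  refine ⟨⟨⟨x, h1⟩, ⟨x⁻¹, h2⟩, ?_, ?_⟩, rfl⟩
  · apply Subtype.ext
    change x * x⁻¹ = 1
    exact mul_inv_cancel₀ hx0
  · apply Subtype.ext
    change x⁻¹ * x = 1
    exact inv_mul_cancel₀ hx0

/-- Units of the valuation ring have value `1`. -/
theorem val_unit_eq_one (u : (v.valuationSubring)ˣ) : v ((u : v.valuationSubring) : K) = 1 := by
  have h1 : v ((u : v.valuationSubring) : K) ≤ 1 :=
    (Valuation.mem_valuationSubring_iff v _).mp (u : v.valuationSubring).2
  have h2 : v (((u⁻¹ : (v.valuationSubring)ˣ) : v.valuationSubring) : K) ≤ 1 :=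
    (Valuation.mem_valuationSubring_iff v _).mp ((u⁻¹ : (v.valuationSubring)ˣ) : v.valuationSubring).2
  have h3 : ((u : v.valuationSubring) : K) *
      (((u⁻¹ : (v.valuationSubring)ˣ) : v.valuationSubring) : K) = 1 := by
    rw [← MulMemClass.coe_mul, Units.mul_inv]
    rfl
  have h4 := congrArg v h3
  rw [map_mul, map_one] at h4
  apply le_antisymm h1
  by_contra hlt
  have hlt' : v ((u : v.valuationSubring) : K) < 1 := not_le.mp hlt
  have : v ((u : v.valuationSubring) : K) *
      v (((u⁻¹ : (v.valuationSubring)ˣ) : v.valuationSubring) : K) < 1 := by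
    calc v ((u : v.valuationSubring) : K) *
        v (((u⁻¹ : (v.valuationSubring)ˣ) : v.valuationSubring) : K)
        ≤ v ((u : v.valuationSubring) : K) * 1 := mul_le_mul_right h2 _
      _ = v ((u : v.valuationSubring) : K) := mul_one _
      _ < 1 := hlt'
  rw [h4] at this
  exact lt_irrefl _ this

/-- A valuation with a uniformizer has a discrete valuation ring. -/
theorem isDiscreteValuationRing_of_uniformizer {π : K} (hπ0 : π ≠ 0) (hπ1 : v π < 1)
    (hπ : ∀ x : K, x ≠ 0 → ∃ n : ℤ, v x = v π ^ n) :
    IsDiscreteValuationRing v.valuationSubring := by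
  have hpos : 0 < v π := zero_lt_iff.mpr ((Valuation.ne_zero_iff v).mpr hπ0)
  have hπA : π ∈ v.valuationSubring := (Valuation.mem_valuationSubring_iff v π).mpr hπ1.le
  apply IsDiscreteValuationRing.ofHasUnitMulPowIrreducibleFactorization
  have key : ∀ x : v.valuationSubring, x ≠ 0 →
      ∃ n : ℕ, ∃ u : (v.valuationSubring)ˣ, x = (⟨π, hπA⟩ : v.valuationSubring) ^ n * u := by
    intro x hx
    have hx0 : (x : K) ≠ 0 := fun h0 => hx (Subtype.ext h0)
    obtain ⟨k, hk⟩ := hπ x hx0
    have hk0 : 0 ≤ k := by
      rw [← zpow_le_one_iff_right_of_lt_one₀ hpos hπ1, ← hk]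
      exact (Valuation.mem_valuationSubring_iff v _).mp x.2
    obtain ⟨n, rfl⟩ := Int.eq_ofNat_of_zero_le hk0
    rw [zpow_natCast] at hk
    have h1 : v ((x : K) / π ^ n) = 1 := by
      rw [map_div₀, map_pow, hk]
      exact div_self (pow_ne_zero _ hpos.ne')
    obtain ⟨u, hu⟩ := exists_unit_of_val_eq_one v h1
    refine ⟨n, u, Subtype.ext ?_⟩
    change (x : K) = π ^ n * ((u : v.valuationSubring) : K)
    rw [hu, mul_div_cancel₀ _ (pow_ne_zero _ hπ0)]
  have hirr : Irreducible (⟨π, hπA⟩ : v.valuationSubring) := by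
    refine ⟨?_, ?_⟩
    · intro hu
      obtain ⟨u, hu⟩ := hu
      have h := val_unit_eq_one v u
      rw [hu] at h
      exact hπ1.ne h
    · intro a b hab
      have ha0 : a ≠ 0 := by
        rintro rfl
        rw [zero_mul] at hab
        exact hπ0 (congrArg Subtype.val hab)
      have hb0 : b ≠ 0 := by
        rintro rfl
        rw [mul_zero] at hab
        exact hπ0 (congrArg Subtype.val hab)
      obtain ⟨n, u, hn⟩ := key a ha0
      obtain ⟨m, u', hm⟩ := key b hb0
      have h2 : v π = v π ^ (n + m) := by
        have h3 := congrArg (fun z : v.valuationSubring => v (z : K)) hab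
        simp only [hn, hm] at h3
        have e1 : ((((⟨π, hπA⟩ : v.valuationSubring) ^ n * (u : v.valuationSubring)) *
            ((⟨π, hπA⟩ : v.valuationSubring) ^ m * (u' : v.valuationSubring)) :
              v.valuationSubring) : K) =
            (π ^ n * ((u : v.valuationSubring) : K)) * (π ^ m * ((u' : v.valuationSubring) : K)) :=
          rfl
        rw [e1, map_mul, map_mul, map_mul, map_pow, map_pow, val_unit_eq_one, val_unit_eq_one,
          mul_one, mul_one, ← pow_add] at h3
        exact h3
      have h4 : ((n + m : ℕ) : ℤ) = 1 := by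
        have h5 : v π ^ ((n + m : ℕ) : ℤ) = v π ^ (1 : ℤ) := by
          rw [zpow_natCast, zpow_one]
          exact h2.symm
        exact zpow_right_injective₀ hpos hπ1.ne h5
      have h6 : n + m = 1 := by exact_mod_cast h4
      rcases Nat.eq_zero_or_pos n with hn0 | hnpos
      · left
        rw [hn, hn0, pow_zero, one_mul]
        exact u.isUnit
      · right
        have hm0 : m = 0 := by omega
        rw [hm, hm0, pow_zero, one_mul]
        exact u'.isUnit
  refine ⟨⟨π, hπA⟩, hirr, ?_⟩
  intro x hx
  obtain ⟨n, u, hn⟩ := key x hx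
  exact ⟨n, u, hn.symm⟩

end DVR

section Integral

variable {L : Type*} [Field L] {Γ₀ : Type*} [LinearOrderedCommGroupWithZero Γ₀]
  (w : Valuation L Γ₀)

/-- A root of a monic polynomial with integral coefficients is integral. -/
theorem val_le_one_of_root {g : L[X]} (hg : g.Monic) (hc : ∀ i, w (g.coeff i) ≤ 1) {x : L}
    (hx : g.eval x = 0) : w x ≤ 1 := by
  by_contra hlt
  have h1 : 1 < w x := not_le.mp hlt
  have hx0 : w x ≠ 0 := (lt_trans zero_lt_one h1).ne'
  set d := g.natDegree with hd
  have hsum : g.eval x = x ^ d + ∑ i ∈ Finset.range d, g.coeff i * x ^ i := by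
    conv_lhs => rw [hg.as_sum]
    simp only [eval_add, eval_pow, eval_X, eval_finsetSum, eval_mul, eval_C]
    rfl
  have hlt2 : w (∑ i ∈ Finset.range d, g.coeff i * x ^ i) < w (x ^ d) := by
    apply Valuation.map_sum_lt w
    · rw [map_pow]
      exact pow_ne_zero _ hx0
    · intro i hi
      rw [map_mul, map_pow, map_pow]
      have hid : i < d := Finset.mem_range.mp hi
      calc w (g.coeff i) * w x ^ i ≤ 1 * w x ^ i := mul_le_mul_left (hc i) _
        _ = w x ^ i := one_mul _
        _ < w x ^ d := pow_lt_pow_right₀ h1 hid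
  have h3 : w (g.eval x) = w (x ^ d) := by
    rw [hsum]
    exact Valuation.map_add_eq_of_lt_left w hlt2
  rw [hx, map_zero, map_pow] at h3
  exact pow_ne_zero _ hx0 h3.symm

end Integral

end Fermat.Agent.H81.Local
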