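import Mathlib
import Fermat.Agent.H81.Local.LocalDatum
import Fermat.Agent.H81.Local.DVR

/-!
# P-CFT / LOC-B1 (B3): integral bases (no defect) for finite extensions of finite extensions
of `K_v`

For `E` finite over `K_v` and `F : IntermediateField E ℚ̄` finite over `E`:

* `qValE q E`: the valuation on `E`; `isDiscreteValuationRing_qValE`: its valuation ring is a DVR;
* `mem_integralClosure_iff`: the valuation ring of `F` is the integral closure of that of `E`;
* `exists_integral_basis`: there is a basis `b` of `F / E` such that `x ∈ O_F` iff all
  coordinates of `x` lie in `O_E` (`O_F` is a free `O_E`-module of rank `[F : E]`).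
-/

set_option autoImplicit false

open Polynomial IntermediateField

open scoped NNReal

namespace Fermat.Agent.H81.Local

variable (q : ℕ) [Fact q.Prime]

/-- The restriction of the `q`-adic valuation to an intermediate field `E` of `ℚ̄/ℚ`. -/
noncomputable def qValE (E : IntermediateField ℚ (AlgebraicClosure ℚ)) : Valuation E ℝ≥0 :=
  (qVal q).comap (algebraMap E (AlgebraicClosure ℚ))

theorem qValE_apply (E : IntermediateField ℚ (AlgebraicClosure ℚ)) (x : E) :
    qValE q E x = qVal q (x : AlgebraicClosure ℚ) := rfl

theorem mem_valuationSubring_qValE (E : IntermediateField ℚ (AlgebraicClosure ℚ)) (x : E) :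
    x ∈ (qValE q E).valuationSubring ↔ qVal q (x : AlgebraicClosure ℚ) ≤ 1 := Iff.rfl

variable {q}

/-- The valuation ring of a finite extension of `K_v` is a discrete valuation ring. -/
theorem isDiscreteValuationRing_qValE {E : IntermediateField ℚ (AlgebraicClosure ℚ)}
    (hE : IsLocalFinite q E) : IsDiscreteValuationRing (qValE q E).valuationSubring := by
  obtain ⟨π, hπE, hπ0, hπ1, hπ⟩ := exists_uniformizer hE
  apply isDiscreteValuationRing_of_uniformizer (qValE q E) (π := ⟨π, hπE⟩)
  · intro h
    exact hπ0 (congrArg Subtype.val h)
  · exact hπ1
  · intro x hx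
    exact hπ (x : AlgebraicClosure ℚ) x.2 (fun h => hx (Subtype.ext h))

/-- The valuation ring of `F` is the integral closure of the valuation ring of `E`. -/
theorem mem_integralClosure_iff {E : IntermediateField ℚ (AlgebraicClosure ℚ)}
    (hE : localField q ≤ E) (F : IntermediateField E (AlgebraicClosure ℚ)) (x : F) :
    x ∈ integralClosure (qValE q E).valuationSubring F ↔ qValOn q F x ≤ 1 := by
  constructor
  · rintro ⟨p, hp, hpx⟩
    apply val_le_one_of_root (qValOn q F)
      (g := p.map (algebraMap (qValE q E).valuationSubring F)) (hp.map _)
    · intro i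
      rw [Polynomial.coeff_map]
      exact (p.coeff i).2
    · rw [Polynomial.eval_map]
      exact hpx
  · intro hx
    have hμ : ∀ i, qVal q (((minpoly E x).coeff i : E) : AlgebraicClosure ℚ) ≤ 1 := by
      intro i
      have h1 := qVal_minpolyQbar_coeff_le_one q hE (u := (x : AlgebraicClosure ℚ)) hx i
      rw [minpolyQbar, Polynomial.coeff_map, ← IntermediateField.minpoly_eq] at h1
      exact h1
    have hlift : minpoly E x ∈ Polynomial.lifts (algebraMap (qValE q E).valuationSubring E) := by
      rw [Polynomial.lifts_iff_coeff_lifts]
      intro i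
      exact ⟨⟨(minpoly E x).coeff i, hμ i⟩, rfl⟩
    have hint : IsIntegral E x :=
      (isIntegral_algebraMap_iff (algebraMap F (AlgebraicClosure ℚ)).injective).mp
        (isIntegral_over E (x : AlgebraicClosure ℚ))
    obtain ⟨P, hP, -, hPm⟩ := Polynomial.lifts_and_degree_eq_and_monic hlift (minpoly.monic hint)
    refine ⟨P, hPm, ?_⟩
    have h2 : Polynomial.eval₂ (algebraMap (qValE q E).valuationSubring F) x P =
        Polynomial.eval₂ (algebraMap E F) x (P.map (algebraMap (qValE q E).valuationSubring E)) := by
      rw [Polynomial.eval₂_map, IsScalarTower.algebraMap_eq (qValE q E).valuationSubring E F]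
    rw [h2, hP, ← Polynomial.aeval_def]
    exact minpoly.aeval E x

/-- **No defect / integral basis**: for `E` finite over `K_v` and `F` finite over `E` there is a
basis of `F / E` whose `O_E`-span is `O_F`. -/
theorem exists_integral_basis {E : IntermediateField ℚ (AlgebraicClosure ℚ)}
    (hE : IsLocalFinite q E) (F : IntermediateField E (AlgebraicClosure ℚ))
    [FiniteDimensional E F] :
    ∃ b : Module.Basis (Fin (Module.finrank E F)) E F,
      ∀ x : F, qValOn q F x ≤ 1 ↔ ∀ i, qVal q ((b.repr x i : E) : AlgebraicClosure ℚ) ≤ 1 := by
  classical
  have hdvr : IsDiscreteValuationRing (qValE q E).valuationSubring :=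
    isDiscreteValuationRing_qValE hE
  have htf : Module.IsTorsionFree (qValE q E).valuationSubring F := by
    rw [Module.isTorsionFree_iff_algebraMap_injective,
      IsScalarTower.algebraMap_eq (qValE q E).valuationSubring E F]
    exact (algebraMap E F).injective.comp Subtype.val_injective
  have hsep : Algebra.IsSeparable E F := Algebra.IsAlgebraic.isSeparable_of_perfectField
  have hfree : Module.Free (qValE q E).valuationSubring
      (integralClosure (qValE q E).valuationSubring F) :=
    IsIntegralClosure.module_free (qValE q E).valuationSubring E F _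
  have hnoeth : IsNoetherian (qValE q E).valuationSubring
      (integralClosure (qValE q E).valuationSubring F) :=
    IsIntegralClosure.isNoetherian (qValE q E).valuationSubring E F _
  have hloc : IsLocalization (Algebra.algebraMapSubmonoid
      (integralClosure (qValE q E).valuationSubring F)
      (nonZeroDivisors (qValE q E).valuationSubring)) F :=
    IsIntegralClosure.isLocalization (qValE q E).valuationSubring E F _
  set c := Module.Free.chooseBasis (qValE q E).valuationSubring
      (integralClosure (qValE q E).valuationSubring F) with hc
  set b₀ := c.localizationLocalization E (nonZeroDivisors (qValE q E).valuationSubring) F with hb₀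
  have hcard : Fintype.card (Module.Free.ChooseBasisIndex (qValE q E).valuationSubring
      (integralClosure (qValE q E).valuationSubring F)) = Module.finrank E F :=
    (Module.finrank_eq_card_basis b₀).symm
  set e := Fintype.equivFinOfCardEq hcard with he
  refine ⟨b₀.reindex e, ?_⟩
  intro x
  have hrepr : ∀ (y : F) (i : Fin (Module.finrank E F)),
      (b₀.reindex e).repr y i = b₀.repr y (e.symm i) := by
    intro y i
    rw [Module.Basis.repr_reindex_apply]
  constructor
  · intro hx i
    have hxC : x ∈ integralClosure (qValE q E).valuationSubring F :=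
      (mem_integralClosure_iff hE.le F x).mpr hx
    have h1 := Module.Basis.localizationLocalization_repr_algebraMap E
      (nonZeroDivisors (qValE q E).valuationSubring) F c ⟨x, hxC⟩ (e.symm i)
    rw [hrepr]
    have h2 : algebraMap (integralClosure (qValE q E).valuationSubring F) F ⟨x, hxC⟩ = x := rfl
    rw [h2] at h1
    rw [← hb₀] at h1
    rw [h1]
    exact (c.repr ⟨x, hxC⟩ (e.symm i)).2
  · intro hx
    have hsum : x = ∑ i, (b₀.reindex e).repr x i • (b₀.reindex e) i :=
      ((b₀.reindex e).sum_repr x).symm
    rw [hsum]
    apply Valuation.map_sum_le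
    intro i _
    rw [Algebra.smul_def, map_mul]
    have h3 : qValOn q F (algebraMap E F ((b₀.reindex e).repr x i)) ≤ 1 := hx i
    have h4 : qValOn q F ((b₀.reindex e) i) ≤ 1 := by
      rw [Module.Basis.reindex_apply, hb₀, Module.Basis.localizationLocalization_apply]
      exact (mem_integralClosure_iff hE.le F _).mp (c (e.symm i)).2
    calc qValOn q F (algebraMap E F ((b₀.reindex e).repr x i)) * qValOn q F ((b₀.reindex e) i)
        ≤ 1 * 1 := mul_le_mul' h3 h4
      _ = 1 := one_mul 1

end Fermat.Agent.H81.Local
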