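import Mathlib

/-!
# P-CFT / LOC-B1 (B3, counting): systems of representatives modulo `{x | w x ≤ γ}`

Mathlib only. For a field `L` with a valuation `w` and `γ` in the value group:
`IsRepSystemMod w γ S`: `S` is a finite set of integral elements, pairwise incongruent modulo
`{x | w x ≤ γ}`, representing every integral element.

* `IsRepSystemMod.card_eq`: two such systems have the same cardinality;
* `exists_repSystemMod_pow`: from a system `R` modulo `w ϖ` one gets a system modulo `w ϖ ^ e` of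
  cardinality `R.card ^ e` (`ϖ`-adic expansions);
* `exists_repSystemMod_basis`: from an integral basis of `L / K` (`n` elements) and a system `R`
  of `K` modulo `w c` one gets a system of `L` modulo `w c` of cardinality `R.card ^ n`.
-/

set_option autoImplicit false

namespace Fermat.Agent.H81.Local

section RepSystem

variable {L : Type*} [Field L] {Γ₀ : Type*} [LinearOrderedCommGroupWithZero Γ₀]
  (w : Valuation L Γ₀)

/-- `S` is a complete irredundant system of representatives of the valuation ring of `w` modulo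
`{x | w x ≤ γ}`. -/
def IsRepSystemMod (γ : Γ₀) (S : Finset L) : Prop :=
  (∀ s ∈ S, w s ≤ 1) ∧ (∀ s ∈ S, ∀ t ∈ S, w (s - t) ≤ γ → s = t) ∧
    ∀ x : L, w x ≤ 1 → ∃ s ∈ S, w (x - s) ≤ γ

variable {w}

theorem IsRepSystemMod.card_le {γ : Γ₀} {S T : Finset L} (hS : IsRepSystemMod w γ S)
    (hT : IsRepSystemMod w γ T) : S.card ≤ T.card := by
  classical
  have hex : ∀ s : L, ∃ t : L, s ∈ S → (t ∈ T ∧ w (s - t) ≤ γ) := by
    intro s
    by_cases hs : s ∈ S
    · obtain ⟨t, ht, hst⟩ := hT.2.2 s (hS.1 s hs)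
      exact ⟨t, fun _ => ⟨ht, hst⟩⟩
    · exact ⟨0, fun h => absurd h hs⟩
  choose φ hφ using hex
  apply Finset.card_le_card_of_injOn φ
  · intro s hs
    exact (hφ s hs).1
  · intro s hs s' hs' hss'
    apply hS.2.1 s hs s' hs'
    have h1 : w (s - φ s) ≤ γ := (hφ s hs).2
    have h2 : w (s' - φ s') ≤ γ := (hφ s' hs').2
    have h3 : s - s' = (s - φ s) - (s' - φ s') := by rw [hss']; ring
    rw [h3]
    exact le_trans (Valuation.map_sub w _ _) (max_le h1 h2)

/-- Two systems of representatives modulo the same `γ` have the same cardinality. -/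
theorem IsRepSystemMod.card_eq {γ : Γ₀} {S T : Finset L} (hS : IsRepSystemMod w γ S)
    (hT : IsRepSystemMod w γ T) : S.card = T.card :=
  le_antisymm (hS.card_le hT) (hT.card_le hS)

/-- `ϖ`-adic expansions: a system of representatives modulo `w ϖ ^ e`. -/
theorem exists_repSystemMod_pow {ϖ : L} (hϖ0 : ϖ ≠ 0) (hϖ1 : w ϖ ≤ 1) {R : Finset L}
    (hR : IsRepSystemMod w (w ϖ) R) (e : ℕ) :
    ∃ S : Finset L, IsRepSystemMod w (w ϖ ^ e) S ∧ S.card = R.card ^ e := by
  classical
  have hwϖ : w ϖ ≠ 0 := (Valuation.ne_zero_iff w).mpr hϖ0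
  induction e with
  | zero =>
    refine ⟨{0}, ⟨?_, ?_, ?_⟩, by simp⟩
    · intro s hs
      rw [Finset.mem_singleton] at hs
      rw [hs, map_zero]
      exact zero_le_one
    · intro s hs t ht _
      rw [Finset.mem_singleton] at hs ht
      rw [hs, ht]
    · intro x hx
      exact ⟨0, Finset.mem_singleton_self 0, by rw [sub_zero, pow_zero]; exact hx⟩
  | succ e ih =>
    obtain ⟨S, hS, hcard⟩ := ih
    have hpow_le : w ϖ ^ (e + 1) ≤ w ϖ ^ e := by
      rw [pow_succ]
      calc w ϖ ^ e * w ϖ ≤ w ϖ ^ e * 1 := mul_le_mul_right hϖ1 _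
        _ = w ϖ ^ e := mul_one _
    have hpow_ne : w ϖ ^ e ≠ 0 := pow_ne_zero _ hwϖ
    -- the key injectivity / irredundancy statement
    have key : ∀ s ∈ S, ∀ r ∈ R, ∀ s' ∈ S, ∀ r' ∈ R,
        w ((s + r * ϖ ^ e) - (s' + r' * ϖ ^ e)) ≤ w ϖ ^ (e + 1) → s = s' ∧ r = r' := by
      intro s hs r hr s' hs' r' hr' hle
      have hrr' : w (r - r') ≤ 1 :=
        le_trans (Valuation.map_sub w _ _) (max_le (hR.1 r hr) (hR.1 r' hr'))
      have h1 : w ((r - r') * ϖ ^ e) ≤ w ϖ ^ e := by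
        rw [map_mul, map_pow]
        calc w (r - r') * w ϖ ^ e ≤ 1 * w ϖ ^ e := mul_le_mul_left hrr' _
          _ = w ϖ ^ e := one_mul _
      have h2 : s - s' = ((s + r * ϖ ^ e) - (s' + r' * ϖ ^ e)) - (r - r') * ϖ ^ e := by ring
      have h3 : w (s - s') ≤ w ϖ ^ e := by
        rw [h2]
        exact le_trans (Valuation.map_sub w _ _) (max_le (hle.trans hpow_le) h1)
      have hss' : s = s' := hS.2.1 s hs s' hs' h3
      refine ⟨hss', ?_⟩
      apply hR.2.1 r hr r' hr'
      have h4 : (s + r * ϖ ^ e) - (s' + r' * ϖ ^ e) = (r - r') * ϖ ^ e := by rw [hss']; ring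
      rw [h4, map_mul, map_pow, pow_succ, mul_comm (w ϖ ^ e) (w ϖ)] at hle
      exact le_of_mul_le_mul_right hle (zero_lt_iff.mpr hpow_ne)
    refine ⟨(S ×ˢ R).image (fun x : L × L => x.1 + x.2 * ϖ ^ e), ⟨?_, ?_, ?_⟩, ?_⟩
    · intro y hy
      obtain ⟨⟨s, r⟩, hsr, rfl⟩ := Finset.mem_image.mp hy
      obtain ⟨hs, hr⟩ := Finset.mem_product.mp hsr
      refine le_trans (Valuation.map_add w _ _) (max_le (hS.1 s hs) ?_)
      rw [map_mul, map_pow]
      calc w r * w ϖ ^ e ≤ 1 * 1 := mul_le_mul' (hR.1 r hr) (pow_le_one₀ zero_le hϖ1)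
        _ = 1 := one_mul 1
    · intro y hy y' hy' hle
      obtain ⟨⟨s, r⟩, hsr, rfl⟩ := Finset.mem_image.mp hy
      obtain ⟨⟨s', r'⟩, hsr', rfl⟩ := Finset.mem_image.mp hy'
      obtain ⟨hs, hr⟩ := Finset.mem_product.mp hsr
      obtain ⟨hs', hr'⟩ := Finset.mem_product.mp hsr'
      obtain ⟨h1, h2⟩ := key s hs r hr s' hs' r' hr' hle
      simp only [h1, h2]
    · intro x hx
      obtain ⟨s, hs, hxs⟩ := hS.2.2 x hx
      have hy : w ((x - s) / ϖ ^ e) ≤ 1 := by
        rw [map_div₀, map_pow]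
        exact div_le_one_of_le₀ hxs zero_le
      obtain ⟨r, hr, hyr⟩ := hR.2.2 _ hy
      refine ⟨s + r * ϖ ^ e, Finset.mem_image.mpr ⟨(s, r), Finset.mem_product.mpr ⟨hs, hr⟩, rfl⟩,
        ?_⟩
      have h5 : x - (s + r * ϖ ^ e) = ((x - s) / ϖ ^ e - r) * ϖ ^ e := by
        field_simp
        ring
      rw [h5, map_mul, map_pow, pow_succ, mul_comm (w ϖ ^ e) (w ϖ)]
      exact mul_le_mul_left hyr _
    · rw [Finset.card_image_of_injOn, Finset.card_product, hcard, pow_succ]
      intro x hx x' hx' hxx'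
      obtain ⟨hs, hr⟩ := Finset.mem_product.mp hx
      obtain ⟨hs', hr'⟩ := Finset.mem_product.mp hx'
      have hle : w ((x.1 + x.2 * ϖ ^ e) - (x'.1 + x'.2 * ϖ ^ e)) ≤ w ϖ ^ (e + 1) := by
        have : (x.1 + x.2 * ϖ ^ e) - (x'.1 + x'.2 * ϖ ^ e) = 0 := sub_eq_zero.mpr hxx'
        rw [this, map_zero]
        exact zero_le
      obtain ⟨h1, h2⟩ := key x.1 hs x.2 hr x'.1 hs' x'.2 hr' hle
      exact Prod.ext h1 h2

end RepSystem

section Basis

variable {K L : Type*} [Field K] [Field L] [Algebra K L]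
  {Γ₀ : Type*} [LinearOrderedCommGroupWithZero Γ₀] (w : Valuation L Γ₀)

/-- From an integral basis of `L / K` and a system of representatives of `K` modulo `w c`, a
system of representatives of `L` modulo `w c`, of cardinality `R.card ^ n`. -/
theorem exists_repSystemMod_basis {n : ℕ} (b : Module.Basis (Fin n) K L)
    (hb : ∀ x : L, w x ≤ 1 ↔ ∀ i, w (algebraMap K L (b.repr x i)) ≤ 1)
    {c : K} (hc : c ≠ 0) {R : Finset K}
    (hR : IsRepSystemMod (w.comap (algebraMap K L)) (w (algebraMap K L c)) R) :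
    ∃ S : Finset L, IsRepSystemMod w (w (algebraMap K L c)) S ∧ S.card = R.card ^ n := by
  classical
  have hc' : algebraMap K L c ≠ 0 := by
    rw [Ne, map_eq_zero_iff _ (algebraMap K L).injective]
    exact hc
  have hwc : w (algebraMap K L c) ≠ 0 := (Valuation.ne_zero_iff w).mpr hc'
  set Φ : (Fin n → K) → L := fun r => ∑ i, r i • b i with hΦ
  have hrepr : ∀ r : Fin n → K, ∀ i, b.repr (Φ r) i = r i := by
    intro r i
    rw [hΦ]
    simp only
    rw [Module.Basis.repr_sum_self]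
  -- divisibility by `c` is detected on coordinates
  have hdiv : ∀ y : L, w y ≤ w (algebraMap K L c) ↔
      ∀ i, w (algebraMap K L (b.repr y i)) ≤ w (algebraMap K L c) := by
    intro y
    have h1 : w y ≤ w (algebraMap K L c) ↔ w ((c⁻¹ : K) • y) ≤ 1 := by
      rw [Algebra.smul_def, map_mul, map_inv₀, map_inv₀, inv_mul_le_iff₀ (zero_lt_iff.mpr hwc),
        mul_one]
    rw [h1, hb]
    apply forall_congr'
    intro i
    rw [map_smul, Finsupp.smul_apply, smul_eq_mul, map_mul, map_mul, map_inv₀, map_inv₀,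
      inv_mul_le_iff₀ (zero_lt_iff.mpr hwc), mul_one]
  have key : ∀ r ∈ Fintype.piFinset (fun _ : Fin n => R),
      ∀ r' ∈ Fintype.piFinset (fun _ : Fin n => R),
      w (Φ r - Φ r') ≤ w (algebraMap K L c) → r = r' := by
    intro r hr r' hr' hle
    rw [Fintype.mem_piFinset] at hr hr'
    funext i
    apply hR.2.1 (r i) (hr i) (r' i) (hr' i)
    have h2 := (hdiv _).mp hle i
    rw [map_sub, Finsupp.sub_apply, hrepr, hrepr] at h2
    exact h2
  refine ⟨(Fintype.piFinset (fun _ : Fin n => R)).image Φ, ⟨?_, ?_, ?_⟩, ?_⟩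
  · intro y hy
    obtain ⟨r, hr, rfl⟩ := Finset.mem_image.mp hy
    rw [Fintype.mem_piFinset] at hr
    rw [hb]
    intro i
    rw [hrepr]
    exact hR.1 (r i) (hr i)
  · intro y hy y' hy' hle
    obtain ⟨r, hr, rfl⟩ := Finset.mem_image.mp hy
    obtain ⟨r', hr', rfl⟩ := Finset.mem_image.mp hy'
    rw [key r hr r' hr' hle]
  · intro x hx
    have hcoord := (hb x).mp hx
    have hex : ∀ i, ∃ r ∈ R, w (algebraMap K L (b.repr x i - r)) ≤ w (algebraMap K L c) :=
      fun i => hR.2.2 (b.repr x i) (hcoord i)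
    choose r hrR hr using hex
    refine ⟨Φ r, Finset.mem_image.mpr ⟨r, Fintype.mem_piFinset.mpr hrR, rfl⟩, ?_⟩
    rw [hdiv]
    intro i
    rw [map_sub, Finsupp.sub_apply, hrepr]
    exact hr i
  · rw [Finset.card_image_of_injOn, Fintype.card_piFinset, Finset.prod_const, Finset.card_univ,
      Fintype.card_fin]
    intro r hr r' hr' hrr'
    apply key r hr r' hr'
    have : Φ r - Φ r' = 0 := sub_eq_zero.mpr hrr'
    rw [this, map_zero]
    exact zero_le

end Basis

end Fermat.Agent.H81.Local
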