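import Mathlib
import Fermat.Agent.H49.CFT.UnramQbar
import Fermat.Agent.H81.Local.IntBasis
import Fermat.Agent.H81.Local.RepSystem

/-!
# P-CFT / LOC-B1 (B3): `e · f = n` for finite extensions of finite extensions of `K_v`

* `IsUnif q E π`: `π` is a uniformizer of `E`;
* `exists_resSystem_qbar`: an irredundant system of representatives of the residue field of `E`,
  of cardinality `resCard q E` (helper49's residue cardinality), as a finset of `ℚ̄`;
* `exists_repSystem_mod_unif`: `#(O_F / π_E O_F) = (resCard q E) ^ [F : E]`;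
* `exists_ef`: `e · f = [F : E]`, where `v(π_E) = v(π_F) ^ e` and
  `resCard q F = resCard q E ^ f`.
-/

set_option autoImplicit false

open Polynomial IntermediateField

open scoped NNReal

namespace Fermat.Agent.H81.Local

open Fermat.Agent.H49.Unram

variable (q : ℕ) [Fact q.Prime]

/-- `π` is a uniformizer of `E`. -/
def IsUnif (E : IntermediateField ℚ (AlgebraicClosure ℚ)) (π : AlgebraicClosure ℚ) : Prop :=
  π ∈ E ∧ π ≠ 0 ∧ qVal q π < 1 ∧ ∀ x ∈ E, x ≠ 0 → ∃ k : ℤ, qVal q x = qVal q π ^ k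

variable {q}

theorem exists_isUnif {E : IntermediateField ℚ (AlgebraicClosure ℚ)} (hE : IsLocalFinite q E) :
    ∃ π, IsUnif q E π := by
  obtain ⟨π, h1, h2, h3, h4⟩ := exists_uniformizer hE
  exact ⟨π, h1, h2, h3, h4⟩

theorem IsUnif.pos {E : IntermediateField ℚ (AlgebraicClosure ℚ)} {π : AlgebraicClosure ℚ}
    (h : IsUnif q E π) : 0 < qVal q π :=
  zero_lt_iff.mpr ((Valuation.ne_zero_iff _).mpr h.2.1)

/-- In `E`, `v x < 1 ↔ v x ≤ v π`. -/
theorem IsUnif.lt_one_iff {E : IntermediateField ℚ (AlgebraicClosure ℚ)} {π : AlgebraicClosure ℚ}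
    (h : IsUnif q E π) {x : AlgebraicClosure ℚ} (hx : x ∈ E) :
    qVal q x < 1 ↔ qVal q x ≤ qVal q π := by
  constructor
  · intro hlt
    rcases eq_or_ne x 0 with rfl | hx0
    · rw [map_zero]; exact zero_le
    obtain ⟨k, hk⟩ := h.2.2.2 x hx hx0
    rw [hk] at hlt ⊢
    have hk1 : 0 < k := (zpow_lt_one_iff_right_of_lt_one₀ h.pos h.2.2.1).mp hlt
    calc qVal q π ^ k ≤ qVal q π ^ (1 : ℤ) :=
          (zpow_right_strictAnti₀ h.pos h.2.2.1).antitone (by omega)
      _ = qVal q π := zpow_one _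
  · intro hle
    exact lt_of_le_of_lt hle h.2.2.1

/-- Two uniformizers have the same value. -/
theorem IsUnif.qVal_eq {E : IntermediateField ℚ (AlgebraicClosure ℚ)}
    {π π' : AlgebraicClosure ℚ} (h : IsUnif q E π) (h' : IsUnif q E π') :
    qVal q π = qVal q π' :=
  le_antisymm ((h'.lt_one_iff h.1).mp h.2.2.1) ((h.lt_one_iff h'.1).mp h'.2.2.1)

/-- An irredundant system of representatives of the residue field of `E`, of cardinality
`resCard q E`. -/
theorem exists_resSystem_qbar {E : IntermediateField ℚ (AlgebraicClosure ℚ)}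
    (hE : IsLocalFinite q E) :
    ∃ R : Finset (AlgebraicClosure ℚ), R.card = resCard q E ∧
      (∀ r ∈ R, r ∈ E ∧ qVal q r ≤ 1) ∧
      (∀ r ∈ R, ∀ s ∈ R, qVal q (r - s) < 1 → r = s) ∧
      ∀ x ∈ E, qVal q x ≤ 1 → ∃ r ∈ R, qVal q (x - r) < 1 := by
  classical
  obtain ⟨R₀, hcard, h1, h2, h3⟩ := (residueDatum_qbar hE).res_card
  refine ⟨R₀.map ⟨Subtype.val, Subtype.val_injective⟩, by rw [Finset.card_map, hcard], ?_, ?_, ?_⟩
  · intro r hr
    obtain ⟨r₀, hr₀, rfl⟩ := Finset.mem_map.mp hr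
    exact ⟨r₀.2, h1 r₀ hr₀⟩
  · intro r hr s hs hrs
    obtain ⟨r₀, hr₀, rfl⟩ := Finset.mem_map.mp hr
    obtain ⟨s₀, hs₀, rfl⟩ := Finset.mem_map.mp hs
    have := h2 r₀ hr₀ s₀ hs₀ hrs
    rw [this]
  · intro x hx hx1
    obtain ⟨r₀, hr₀, hxr⟩ := h3 ⟨x, hx⟩ hx1
    exact ⟨r₀, Finset.mem_map.mpr ⟨r₀, hr₀, rfl⟩, hxr⟩

/-- The residue system of `E` as a system of representatives modulo a uniformizer, on the type
of any intermediate field `M` with the same elements. -/
theorem exists_repSystemMod_unif {E : IntermediateField ℚ (AlgebraicClosure ℚ)}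
    (hE : IsLocalFinite q E) {π : AlgebraicClosure ℚ} (hπ : IsUnif q E π) :
    ∃ R : Finset E, R.card = resCard q E ∧ IsRepSystemMod (qValE q E) (qVal q π) R := by
  classical
  obtain ⟨R, hcard, h1, h2, h3⟩ := exists_resSystem_qbar hE
  refine ⟨R.subtype (fun r => r ∈ E), ?_, ?_, ?_, ?_⟩
  · rw [Finset.card_subtype, Finset.filter_true_of_mem (fun r hr => (h1 r hr).1), hcard]
  · intro s hs
    exact (h1 s (Finset.mem_subtype.mp hs)).2
  · intro s hs t ht hst
    apply Subtype.ext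
    apply h2 s (Finset.mem_subtype.mp hs) t (Finset.mem_subtype.mp ht)
    exact (hπ.lt_one_iff (E.sub_mem s.2 t.2)).mpr hst
  · intro x hx
    obtain ⟨r, hr, hxr⟩ := h3 x x.2 hx
    have hrE : r ∈ E := (h1 r hr).1
    exact ⟨⟨r, hrE⟩, Finset.mem_subtype.mpr hr, (hπ.lt_one_iff (E.sub_mem x.2 hrE)).mp hxr⟩

/-- **Counting modulo a uniformizer of the base**: `#(O_F / π_E O_F) = (resCard q E) ^ [F : E]`. -/
theorem exists_repSystem_mod_unif {E : IntermediateField ℚ (AlgebraicClosure ℚ)}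
    (hE : IsLocalFinite q E) (F : IntermediateField E (AlgebraicClosure ℚ))
    [FiniteDimensional E F] {π : AlgebraicClosure ℚ} (hπ : IsUnif q E π) :
    ∃ S : Finset F, S.card = resCard q E ^ Module.finrank E F ∧
      IsRepSystemMod (qValOn q F) (qVal q π) S := by
  obtain ⟨b, hb⟩ := exists_integral_basis hE F
  obtain ⟨R, hRcard, hR⟩ := exists_repSystemMod_unif hE hπ
  have hπ0 : (⟨π, hπ.1⟩ : E) ≠ 0 := fun h => hπ.2.1 (congrArg Subtype.val h)
  obtain ⟨S, hS, hScard⟩ := exists_repSystemMod_basis (qValOn q F) b hb hπ0 (R := R) hR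
  exact ⟨S, by rw [hScard, hRcard], hS⟩

/-- **`e · f = n`** for `F / E`, `E` finite over `K_v`, `F` finite over `E`. -/
theorem exists_ef {E : IntermediateField ℚ (AlgebraicClosure ℚ)}
    (hE : IsLocalFinite q E) (F : IntermediateField E (AlgebraicClosure ℚ))
    [FiniteDimensional E F] :
    ∃ e f : ℕ, 0 < e ∧ 0 < f ∧ e * f = Module.finrank E F ∧
      resCard q (F.restrictScalars ℚ) = resCard q E ^ f ∧
      ∀ π ϖ : AlgebraicClosure ℚ, IsUnif q E π → IsUnif q (F.restrictScalars ℚ) ϖ →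
        qVal q π = qVal q ϖ ^ e := by
  classical
  have hF : IsLocalFinite q (F.restrictScalars ℚ) := hE.of_finiteDimensional F
  have hEF : E ≤ F.restrictScalars ℚ := fun x hx => F.algebraMap_mem ⟨x, hx⟩
  obtain ⟨π, hπ⟩ := exists_isUnif hE
  obtain ⟨ϖ, hϖ⟩ := exists_isUnif hF
  -- the ramification index
  obtain ⟨k, hk⟩ := hϖ.2.2.2 π (hEF hπ.1) hπ.2.1
  have hk1 : 0 < k := by
    rw [← zpow_lt_one_iff_right_of_lt_one₀ hϖ.pos hϖ.2.2.1, ← hk]
    exact hπ.2.2.1
  obtain ⟨e, rfl⟩ := Int.eq_ofNat_of_zero_le hk1.le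
  have he : 0 < e := by exact_mod_cast hk1
  rw [zpow_natCast] at hk
  -- the residue degree
  obtain ⟨f, hf, hQ, -⟩ := exists_frob_unramExt_baseChange hEF hE hF
  -- counting
  obtain ⟨S₁, hS₁card, hS₁⟩ := exists_repSystem_mod_unif hE F hπ
  obtain ⟨R, hRcard, hR⟩ := exists_repSystemMod_unif hF hϖ
  have hϖ0 : (⟨ϖ, hϖ.1⟩ : F) ≠ 0 := fun h => hϖ.2.1 (congrArg Subtype.val h)
  obtain ⟨S₂, hS₂, hS₂card⟩ := exists_repSystemMod_pow (w := qValOn q F) (ϖ := ⟨ϖ, hϖ.1⟩) hϖ0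
    hϖ.2.2.1.le (R := R) hR e
  have hS₂' : IsRepSystemMod (qValOn q F) (qVal q π) S₂ := by
    rw [hk]
    exact hS₂
  have hRcard' : @Finset.card F R = resCard q (F.restrictScalars ℚ) := hRcard
  have hcards : resCard q E ^ Module.finrank E F = resCard q E ^ (f * e) := by
    rw [← hS₁card, hS₁.card_eq hS₂', hS₂card, hRcard', hQ, pow_mul]
  have hQ2 : 2 ≤ resCard q E := one_lt_Q (residueDatum_qbar hE)
  have hn : Module.finrank E F = f * e := Nat.pow_right_injective hQ2 hcards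
  refine ⟨e, f, he, hf, by rw [hn, mul_comm], hQ, ?_⟩
  intro π' ϖ' hπ' hϖ'
  rw [hπ'.qVal_eq hπ, hϖ'.qVal_eq hϖ, hk]

end Fermat.Agent.H81.Local
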