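import Mathlib
import Fermat.Agent.H81.Local.EF

/-!
# P-CFT / LOC-B1 (B3, base case `K_v`): `#(O_E / q O_E) = q ^ [E : K_v]`

* `qVal_intCast_lt_one_iff`: `v(m) < 1 ↔ q ∣ m` for integers `m`;
* `isUnif_natCast_localField`: `q` is a uniformizer of `K_v`;
* `resCard_localField`: the residue field of `K_v` has `q` elements;
* `IsLocalFinite.finiteDimensional`: `E` is finite-dimensional over `K_v`;
* `exists_repSystem_mod_q`: `#(O_E / q O_E) = q ^ [E : K_v]` (system of representatives);
* `exists_ef_localField`: `e f = [E : K_v]` with `v(q) = v(π_E) ^ e`, `resCard q E = q ^ f`.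
-/

set_option autoImplicit false

open Polynomial IntermediateField

open scoped NNReal

namespace Fermat.Agent.H81.Local

open Fermat.Agent.H49.Unram

variable (q : ℕ) [Fact q.Prime]

/-- `v(m) < 1 ↔ q ∣ m` for integers `m`. -/
theorem qVal_intCast_lt_one_iff (m : ℤ) :
    qVal q ((m : ℤ) : AlgebraicClosure ℚ) < 1 ↔ (q : ℤ) ∣ m := by
  rw [← PadicInt.norm_int_lt_one_iff_dvd (p := q), ← NNReal.coe_lt_coe, coe_qVal, map_intCast]
  have h1 : ((m : ℤ) : PadicAlgCl q) = algebraMap ℚ_[q] (PadicAlgCl q) ((m : ℤ) : ℚ_[q]) := by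
    rw [map_intCast]
  rw [h1, PadicAlgCl.norm_extends, PadicInt.norm_def]
  push_cast
  rfl

/-- `q` is a uniformizer of `K_v`. -/
theorem isUnif_natCast_localField :
    IsUnif q (localField q) ((q : ℕ) : AlgebraicClosure ℚ) := by
  have hq : (q : ℕ).Prime := Fact.out
  refine ⟨IntermediateField.natCast_mem _ q, by exact_mod_cast hq.ne_zero, ?_, ?_⟩
  · rw [qVal_natCast_self]
    exact qInv_lt_one q
  · intro x hx hx0
    rw [qVal_natCast_self]
    exact qVal_localField q hx hx0

/-- The residue datum of `K_v`: the residue field has `q` elements. -/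
theorem residueDatum_localField :
    ResidueDatum (localField q) (AlgebraicClosure ℚ) (qVal q) q := by
  classical
  have hq : (q : ℕ).Prime := Fact.out
  refine ⟨qVal_algEquiv (le_refl _), ?_⟩
  refine ⟨(Finset.range q).image (fun k : ℕ => ((k : ℕ) : localField q)), ?_, ?_, ?_, ?_⟩
  · rw [Finset.card_image_of_injective _ Nat.cast_injective, Finset.card_range]
  · intro r hr
    obtain ⟨k, _, rfl⟩ := Finset.mem_image.mp hr
    change qVal q (((k : ℕ) : localField q) : AlgebraicClosure ℚ) ≤ 1
    have h0 : (((k : ℕ) : localField q) : AlgebraicClosure ℚ) = (k : AlgebraicClosure ℚ) := by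
      push_cast
      rfl
    rw [h0]
    exact qVal_natCast_le_one q k
  · intro r hr s hs hrs
    obtain ⟨k, hk, rfl⟩ := Finset.mem_image.mp hr
    obtain ⟨l, hl, rfl⟩ := Finset.mem_image.mp hs
    rw [Finset.mem_range] at hk hl
    have h1 : qVal q (((k : ℤ) - (l : ℤ) : ℤ) : AlgebraicClosure ℚ) < 1 := by
      have h2 : (((k : ℤ) - (l : ℤ) : ℤ) : AlgebraicClosure ℚ) =
          ((((k : ℕ) : localField q) - ((l : ℕ) : localField q) : localField q) :
            AlgebraicClosure ℚ) := by
        push_cast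
        rfl
      rw [h2]
      exact hrs
    rw [qVal_intCast_lt_one_iff] at h1
    have h3 : k = l := by
      obtain ⟨c, hc⟩ := h1
      have hk' : (k : ℤ) < q := by exact_mod_cast hk
      have hl' : (l : ℤ) < q := by exact_mod_cast hl
      have hk0 : (0 : ℤ) ≤ k := Int.natCast_nonneg k
      have hl0 : (0 : ℤ) ≤ l := Int.natCast_nonneg l
      have hq0 : (0 : ℤ) < q := by exact_mod_cast hq.pos
      have hc0 : c = 0 := by
        by_contra hne
        rcases lt_or_gt_of_ne hne with hneg | hpos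
        · have : (q : ℤ) * c ≤ (q : ℤ) * (-1) := mul_le_mul_of_nonneg_left (by omega) hq0.le
          omega
        · have : (q : ℤ) * 1 ≤ (q : ℤ) * c := mul_le_mul_of_nonneg_left (by omega) hq0.le
          omega
      rw [hc0, mul_zero] at hc
      omega
    rw [h3]
  · intro x hx
    obtain ⟨k, hk, hxk⟩ := exists_nat_rep q x.2 hx
    refine ⟨((k : ℕ) : localField q), Finset.mem_image.mpr ⟨k, Finset.mem_range.mpr hk, rfl⟩, ?_⟩
    change qVal q (((x - ((k : ℕ) : localField q) : localField q)) : AlgebraicClosure ℚ) < 1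
    have h2 : (((x - ((k : ℕ) : localField q) : localField q)) : AlgebraicClosure ℚ) =
        (x : AlgebraicClosure ℚ) - (k : AlgebraicClosure ℚ) := by
      push_cast
      rfl
    rw [h2]
    exact hxk

/-- The residue field of `K_v` has `q` elements. -/
theorem resCard_localField : resCard q (localField q) = q :=
  ((residueDatum_localField q).unique (residueDatum_qbar (isLocalFinite_localField q))).symm

variable {q}

/-- A finite extension of `K_v` is finite-dimensional over `K_v`. -/
theorem IsLocalFinite.finiteDimensional {E : IntermediateField ℚ (AlgebraicClosure ℚ)}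
    (hE : IsLocalFinite q E) :
    FiniteDimensional (localField q) (IntermediateField.extendScalars hE.le) := by
  obtain ⟨F₀, hF₀, hle⟩ := hE.exists_le_sup
  set M : IntermediateField (localField q) (AlgebraicClosure ℚ) :=
    adjoin (localField q) (F₀ : Set (AlgebraicClosure ℚ)) with hM
  have hrank : Module.rank (localField q) M ≤ Module.rank ℚ F₀ :=
    IntermediateField.adjoin_rank_le_of_isAlgebraic_right (localField q) F₀
  have hfin : Module.rank ℚ F₀ < Cardinal.aleph0 := Module.rank_lt_aleph0 ℚ F₀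
  have hMfin : Module.Finite (localField q) M :=
    Module.rank_lt_aleph0_iff.mp (lt_of_le_of_lt hrank hfin)
  have hle' : localField q ⊔ F₀ ≤ M.restrictScalars ℚ := by
    apply sup_le
    · intro x hx
      exact M.algebraMap_mem ⟨x, hx⟩
    · intro x hx
      rw [IntermediateField.mem_restrictScalars]
      exact subset_adjoin (localField q) (F₀ : Set (AlgebraicClosure ℚ)) hx
  have hEM : IntermediateField.extendScalars hE.le ≤ M := fun x hx => hle' (hle hx)
  exact FiniteDimensional.of_injective (IntermediateField.inclusion hEM).toLinearMap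
    (IntermediateField.inclusion hEM).injective

/-- **`#(O_E / q O_E) = q ^ [E : K_v]`**: a system of representatives. -/
theorem exists_repSystem_mod_q {E : IntermediateField ℚ (AlgebraicClosure ℚ)}
    (hE : IsLocalFinite q E) :
    ∃ S : Finset (AlgebraicClosure ℚ),
      S.card = q ^ IntermediateField.relfinrank (localField q) E ∧
      (∀ s ∈ S, s ∈ E ∧ qVal q s ≤ 1) ∧
      (∀ s ∈ S, ∀ t ∈ S, qVal q (s - t) ≤ (q : ℝ≥0)⁻¹ → s = t) ∧
      ∀ x ∈ E, qVal q x ≤ 1 → ∃ s ∈ S, qVal q (x - s) ≤ (q : ℝ≥0)⁻¹ := by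
  classical
  have := hE.finiteDimensional
  obtain ⟨S, hcard, h1, h2, h3⟩ := exists_repSystem_mod_unif (isLocalFinite_localField q)
    (IntermediateField.extendScalars hE.le) (isUnif_natCast_localField q)
  rw [resCard_localField, qVal_natCast_self,
    ← IntermediateField.relfinrank_eq_finrank_of_le hE.le] at *
  refine ⟨S.map ⟨Subtype.val, Subtype.val_injective⟩, by rw [Finset.card_map, hcard], ?_, ?_, ?_⟩
  · intro s hs
    obtain ⟨s₀, hs₀, rfl⟩ := Finset.mem_map.mp hs
    exact ⟨s₀.2, h1 s₀ hs₀⟩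
  · intro s hs t ht hst
    obtain ⟨s₀, hs₀, rfl⟩ := Finset.mem_map.mp hs
    obtain ⟨t₀, ht₀, rfl⟩ := Finset.mem_map.mp ht
    rw [h2 s₀ hs₀ t₀ ht₀ hst]
  · intro x hx hx1
    obtain ⟨s₀, hs₀, hxs⟩ := h3 ⟨x, hx⟩ hx1
    exact ⟨s₀, Finset.mem_map.mpr ⟨s₀, hs₀, rfl⟩, hxs⟩

/-- **`e f = [E : K_v]`** with `v(q) = v(π_E) ^ e` and `resCard q E = q ^ f`. -/
theorem exists_ef_localField {E : IntermediateField ℚ (AlgebraicClosure ℚ)}
    (hE : IsLocalFinite q E) :
    ∃ e f : ℕ, 0 < e ∧ 0 < f ∧ e * f = IntermediateField.relfinrank (localField q) E ∧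
      resCard q E = q ^ f ∧
      ∀ ϖ : AlgebraicClosure ℚ, IsUnif q E ϖ → (q : ℝ≥0)⁻¹ = qVal q ϖ ^ e := by
  have := hE.finiteDimensional
  obtain ⟨e, f, he, hf, hef, hQ, hval⟩ := exists_ef (isLocalFinite_localField q)
    (IntermediateField.extendScalars hE.le)
  rw [resCard_localField] at hQ
  refine ⟨e, f, he, hf, ?_, hQ, ?_⟩
  · rw [IntermediateField.relfinrank_eq_finrank_of_le hE.le]
    exact hef
  · intro ϖ hϖ
    rw [← qVal_natCast_self]
    exact hval _ ϖ (isUnif_natCast_localField q) hϖ

end Fermat.Agent.H81.Local
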