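/-
P-CFT / LOCAL, row LOC-INFL (helper81): the inflation of a finite-level multiplicative
2-coboundary on `Gal(F/E)` is a LEVEL coboundary on `G_E`.

Main results (namespace `Fermat.Agent.H81.Local`):
* `resEF_apply` : `(resEF E F g) z = g z` for `z ∈ F`;
* `ker_resEF_mem_lvlE` : the kernel of `resEF E F` is a level of `lvlE E`
  (for `F / E` finite and normal);
* `isLvlFun₁_comp_resEF` : every function factoring through `resEF E F` is a level function;
* `inflCoboundary : Fermat.Agent.H78.CFT.InflCoboundaryStatement`.
-/
import Fermat.Agent.H78.CFT.LocalH2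

set_option autoImplicit false

namespace Fermat.Agent.H81.Local

open Fermat.Agent.H13.Cft Fermat.Agent.H78.CFT groupCohomology

variable (E : IntermediateField ℚ Qb)

/-- The restriction `G_E → Gal(F/E)` is the restriction of automorphisms. -/
lemma resEF_apply (F : IntermediateField E Qb) [Normal E F] (g : E.fixingSubgroup) (z : F) :
    ((resEF E F g z : F) : Qb) = (g : Qb ≃ₐ[ℚ] Qb) (z : Qb) := by
  change algebraMap F Qb
    ((AlgEquiv.restrictNormal (IntermediateField.fixingSubgroupEquiv E g) F) z) = _
  rw [AlgEquiv.restrictNormal_commutes]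
  rfl

/-- The kernel of `G_E → Gal(F/E)` is a level of `G_E` (for `F / E` finite normal). -/
lemma ker_resEF_mem_lvlE (F : IntermediateField E Qb) [FiniteDimensional E F] [Normal E F] :
    (resEF E F).ker ∈ (lvlE E).sets := by
  refine ⟨inferInstance, ?_, ?_⟩
  · have : Finite (F ≃ₐ[E] F) := inferInstance
    exact Subgroup.finiteIndex_ker (resEF E F)
  · -- a basis of `F` over `E`
    let b := Module.finBasis E F
    let S : Set Qb := Set.range fun i => ((b i : F) : Qb)
    have hS : S.Finite := Set.finite_range _
    have hA : Algebra.IsAlgebraic ℚ Qb := Fermat.Agent.H81.isAlgebraic_rat_Qbar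
    have hfd : FiniteDimensional ℚ (IntermediateField.adjoin ℚ S) := by
      have := hS.to_subtype
      exact IntermediateField.finiteDimensional_adjoin
        (fun x _ => (Algebra.IsIntegral.isIntegral (R := ℚ) x))
    refine ⟨IntermediateField.adjoin ℚ S, hfd, ?_⟩
    intro g hg
    rw [Subgroup.mem_comap] at hg
    rw [MonoidHom.mem_ker]
    have hb : ∀ i, (g : Qb ≃ₐ[ℚ] Qb) ((b i : F) : Qb) = ((b i : F) : Qb) := fun i =>
      hg ⟨_, IntermediateField.subset_adjoin ℚ S ⟨i, rfl⟩⟩
    have hbi : ∀ i, resEF E F g (b i) = b i := by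
      intro i
      apply Subtype.ext
      rw [resEF_apply, hb]
    apply AlgEquiv.ext
    intro z
    change resEF E F g z = z
    have hlin : (resEF E F g).toLinearMap = LinearMap.id := by
      apply b.ext
      intro i
      exact hbi i
    have := congrArg (fun f => f z) hlin
    exact this

/-- Functions on `G_E` factoring through `Gal(F/E)` are level functions. -/
lemma isLvlFun₁_comp_resEF (F : IntermediateField E Qb) [FiniteDimensional E F] [Normal E F]
    {M : Type} (y : (F ≃ₐ[E] F) → M) :
    IsLvlFun₁ (lvlE E) (fun g => y (resEF E F g)) := by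
  refine ⟨(resEF E F).ker, ker_resEF_mem_lvlE E F, fun g n hn => ?_⟩
  change y (resEF E F (g * n)) = y (resEF E F g)
  rw [map_mul, MonoidHom.mem_ker.1 hn, mul_one]

/-- **[LOC-INFL]** the inflation of a finite level coboundary is a level coboundary. -/
theorem inflCoboundary : InflCoboundaryStatement := by
  intro E F _ _ c hc
  obtain ⟨y, hy⟩ := hc
  refine ⟨fun g => Units.map (algebraMap F Qb : F →* Qb) (y (resEF E F g)),
    isLvlFun₁_comp_resEF E F (fun σ => Units.map (algebraMap F Qb : F →* Qb) (y σ)), ?_⟩
  rintro ⟨g, h⟩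
  change actU (g : Qb ≃ₐ[ℚ] Qb) (Units.map (algebraMap F Qb : F →* Qb) (y (resEF E F h)))
      * Units.map (algebraMap F Qb : F →* Qb) (y (resEF E F g))
      / Units.map (algebraMap F Qb : F →* Qb) (y (resEF E F (g * h)))
    = Units.map (algebraMap F Qb : F →* Qb) (c (resEF E F g, resEF E F h))
  have hact : actU (g : Qb ≃ₐ[ℚ] Qb) (Units.map (algebraMap F Qb : F →* Qb) (y (resEF E F h)))
      = Units.map (algebraMap F Qb : F →* Qb) (resEF E F g • y (resEF E F h)) := by
    apply Units.ext
    rw [coe_actU]
    exact (resEF_apply E F g _).symm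
  rw [← hy (resEF E F g) (resEF E F h), hact, map_mul (resEF E F) g h,
    map_mul (Units.map (algebraMap F Qb : F →* Qb)),
    map_div (Units.map (algebraMap F Qb : F →* Qb)), div_mul_eq_mul_div]

end Fermat.Agent.H81.Local
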