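import Mathlib
import Fermat.Agent.H78.CFT.LocalTarget

/-!
# P-CFT / LOC-B5 (part 1): transport of `TrivCore` along a group isomorphism over `G_ℚ`

For `e : G ≃* G'` with `r' ∘ e = r` (maps to `G_ℚ`), the level systems `pullbackLevelSys r` and
`pullbackLevelSys r'` correspond, hence `TrivCore (pullbackLevelSys r') p → TrivCore
(pullbackLevelSys r) p`.
-/

set_option autoImplicit false

namespace Fermat.Agent.H81.Local

open Fermat.Agent.H13.Cft Fermat.Agent.H78.CFT

section Transport

variable {G G' : Type} [Group G] [Group G'] (e : G ≃* G')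
  (r : G →* Fermat.Agent.H13.Cft.GQ) (r' : G' →* Fermat.Agent.H13.Cft.GQ)

/-- Levels pull back along an isomorphism over `G_ℚ`. -/
theorem comap_mem_pullbackLevelSys (h : ∀ g, r' (e g) = r g) {N' : Subgroup G'}
    (hN' : N' ∈ (pullbackLevelSys r').sets) :
    N'.comap e.toMonoidHom ∈ (pullbackLevelSys r).sets := by
  obtain ⟨hnorm, hfin, F, hF, hle⟩ := hN'
  refine ⟨hnorm.comap _, ⟨?_⟩, F, hF, ?_⟩
  · rw [Subgroup.index_comap_of_surjective _ e.surjective]
    exact hfin.index_ne_zero
  · intro x hx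
    rw [Subgroup.mem_comap] at hx ⊢
    apply hle
    rw [Subgroup.mem_comap]
    change r' (e x) ∈ F.fixingSubgroup
    rw [h]
    exact hx

variable {A : Type}

theorem isLvl₁_comp (h : ∀ g, r' (e g) = r g) {x' : G' → A}
    (hx : IsLvl₁ (pullbackLevelSys r') x') : IsLvl₁ (pullbackLevelSys r) (fun g => x' (e g)) := by
  obtain ⟨N', hN', hinv⟩ := hx
  refine ⟨N'.comap e.toMonoidHom, comap_mem_pullbackLevelSys e r r' h hN', ?_⟩
  intro g n hn
  change x' (e (g * n)) = x' (e g)
  rw [map_mul]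
  exact hinv (e g) (e n) hn

theorem isLvl₂_comp (h : ∀ g, r' (e g) = r g) {c' : G' × G' → A}
    (hc : IsLvl₂ (pullbackLevelSys r') c') :
    IsLvl₂ (pullbackLevelSys r) (fun x => c' (e x.1, e x.2)) := by
  obtain ⟨N', hN', hinv⟩ := hc
  refine ⟨N'.comap e.toMonoidHom, comap_mem_pullbackLevelSys e r r' h hN', ?_⟩
  intro g g' n hn m hm
  change c' (e (g * n), e (g' * m)) = c' (e g, e g')
  rw [map_mul, map_mul]
  exact hinv (e g) (e g') (e n) hn (e m) hm

variable [AddCommGroup A]

theorem isTrivCocycle₂_comp {c' : G' × G' → A} (hc : IsTrivCocycle₂ c') :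
    IsTrivCocycle₂ (fun x : G × G => c' (e x.1, e x.2)) := by
  intro g g' j
  change c' (e (g * g'), e j) + c' (e g, e g') = c' (e g', e j) + c' (e g, e (g' * j))
  rw [map_mul, map_mul]
  exact hc (e g) (e g') (e j)

theorem isLvlCoboundary₂_comp (h : ∀ g, r' (e g) = r g) {c' : G' × G' → A}
    (hc : IsLvlCoboundary₂ (pullbackLevelSys r') c') :
    IsLvlCoboundary₂ (pullbackLevelSys r) (fun x => c' (e x.1, e x.2)) := by
  obtain ⟨x', hx', hd⟩ := hc
  refine ⟨fun g => x' (e g), isLvl₁_comp e r r' h hx', ?_⟩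
  intro g g'
  change x' (e g') - x' (e (g * g')) + x' (e g) = c' (e g, e g')
  rw [map_mul]
  exact hd (e g) (e g')

theorem isLvlHom_comp (h : ∀ g, r' (e g) = r g) {χ' : G' → A}
    (hχ : IsLvlHom (pullbackLevelSys r') χ') :
    IsLvlHom (pullbackLevelSys r) (fun g => χ' (e g)) := by
  refine ⟨?_, isLvl₁_comp e r r' h hχ.2⟩
  intro g g'
  change χ' (e (g * g')) = χ' (e g) + χ' (e g')
  rw [map_mul]
  exact hχ.1 (e g) (e g')

/-- **Transport of `TrivCore`** along an isomorphism over `G_ℚ`. -/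
theorem trivCore_of_mulEquiv (h : ∀ g, r' (e g) = r g) (p : ℕ)
    (hT : TrivCore (pullbackLevelSys r') p) : TrivCore (pullbackLevelSys r) p := by
  have h' : ∀ g', r (e.symm g') = r' g' := by
    intro g'
    rw [← h, MulEquiv.apply_symm_apply]
  refine ⟨?_, ?_, ?_⟩
  · -- H2OneDim
    obtain ⟨c₀', hc₀lvl, hc₀coc, hc₀ncob, hc₀gen⟩ := hT.h2
    refine ⟨fun x => c₀' (e x.1, e x.2), isLvl₂_comp e r r' h hc₀lvl,
      isTrivCocycle₂_comp e hc₀coc, ?_, ?_⟩
    · intro hcob
      apply hc₀ncob
      have := isLvlCoboundary₂_comp e.symm r' r h' hcob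
      simp only [MulEquiv.apply_symm_apply, Prod.mk.eta] at this
      exact this
    · intro c hclvl hccoc
      obtain ⟨j, hj⟩ := hc₀gen (fun x => c (e.symm x.1, e.symm x.2))
        (isLvl₂_comp e.symm r' r h' hclvl) (isTrivCocycle₂_comp e.symm hccoc)
      refine ⟨j, ?_⟩
      have := isLvlCoboundary₂_comp e r r' h hj
      simp only [MulEquiv.symm_apply_apply, Prod.mk.eta] at this
      exact this
  · -- CupNondeg
    intro χ hχ hcup
    have hχ' : IsLvlHom (pullbackLevelSys r') (fun g' => χ (e.symm g')) :=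
      isLvlHom_comp e.symm r' r h' hχ
    have hzero := hT.cup (fun g' => χ (e.symm g')) hχ' (by
      intro ψ' hψ'
      have hψ : IsLvlHom (pullbackLevelSys r) (fun g => ψ' (e g)) :=
        isLvlHom_comp e r r' h hψ'
      have := isLvlCoboundary₂_comp e.symm r' r h' (hcup _ hψ)
      simp only [MulEquiv.apply_symm_apply] at this
      exact this)
    funext g
    have := congrFun hzero (e g)
    simp only [MulEquiv.symm_apply_apply] at this
    exact this
  · -- H1Finite
    have hfin := hT.fin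
    unfold H1Finite at hfin ⊢
    apply (hfin.image (fun χ' : G' → ZMod p => fun g => χ' (e g))).subset
    intro χ hχ
    refine ⟨fun g' => χ (e.symm g'), isLvlHom_comp e.symm r' r h' hχ, ?_⟩
    funext g
    simp

end Transport

end Fermat.Agent.H81.Local
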