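import Mathlib
import Fermat.Agent.H78.CFT.LocalTarget
import Fermat.Agent.H81.Local.B5Transport
import Fermat.Agent.H81.Local.LocalFinite

/-!
# P-CFT / LOC-B5 (row 632): from fields to open subgroups of the local Galois group

`fieldToLocal : Fermat.Agent.H78.CFT.FieldToLocalStatement`
(`FieldCoreStatement → LocalCoreStatement`).

For `V ≤ primeLocalGaloisGroup q` containing a level, `W := V.map (primeLocalToGlobal q)`:
* `isClosed_of_between`: `W` is closed (it lies between `D_q ∩ Gal(ℚ̄/F)` and `D_q`);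
* `fixingSubgroup_fixedField_of_between`: `Gal(ℚ̄/ℚ̄^W) = W`;
* `isLocalFinite_fixedField_of_between`: `ℚ̄^W` is a finite extension of `K_v`;
* `mem_fixedField_of_cycloChar`: `ζ_p ∈ ℚ̄^W` if the mod `p` cyclotomic character is trivial on `W`.
-/

set_option autoImplicit false

open IntermediateField

open scoped Pointwise

namespace Fermat.Agent.H81.Local

open Fermat.Agent.H13.Cft Fermat.Agent.H78.CFT ExtCitation

section Between

variable (q : ℕ) [Fact q.Prime]

/-- A subgroup between `D_q ∩ Gal(ℚ̄/F)` (`F` a number field) and `D_q` is closed. -/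
theorem isClosed_of_between {W : Subgroup GQ} (hW : W ≤ Dq q)
    (F : IntermediateField ℚ (AlgebraicClosure ℚ)) [FiniteDimensional ℚ F]
    (hU : F.fixingSubgroup ⊓ Dq q ≤ W) : IsClosed (W : Set GQ) := by
  have hopen : IsOpen ((F.fixingSubgroup : Subgroup GQ) : Set GQ) :=
    IntermediateField.fixingSubgroup_isOpen F
  set O : Set GQ := ⋃ d ∈ {d : GQ | d ∈ Dq q ∧ d ∉ W},
    d • ((F.fixingSubgroup : Subgroup GQ) : Set GQ) with hO
  have hOopen : IsOpen O := by
    apply isOpen_biUnion
    intro d _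
    exact hopen.leftCoset d
  have heq : (W : Set GQ) = (Dq q : Set GQ) ∩ Oᶜ := by
    ext w
    constructor
    · intro hw
      refine ⟨hW hw, ?_⟩
      intro hwO
      rw [hO, Set.mem_iUnion₂] at hwO
      obtain ⟨d, ⟨hdD, hdW⟩, f, hf, hfw⟩ := hwO
      apply hdW
      have hfw' : d * f = w := hfw
      have hfD : f ∈ Dq q := by
        have : f = d⁻¹ * w := by rw [← hfw', inv_mul_cancel_left]
        rw [this]
        exact (Dq q).mul_mem ((Dq q).inv_mem hdD) (hW hw)
      have hfW : f ∈ W := hU ⟨hf, hfD⟩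
      have : d = w * f⁻¹ := by rw [← hfw', mul_inv_cancel_right]
      rw [this]
      exact W.mul_mem hw (W.inv_mem hfW)
    · rintro ⟨hwD, hwO⟩
      by_contra hwW
      apply hwO
      rw [hO, Set.mem_iUnion₂]
      exact ⟨w, ⟨hwD, hwW⟩, 1, Subgroup.one_mem _, mul_one w⟩
  rw [heq]
  exact (isClosed_decompositionSubgroup q).inter hOopen.isClosed_compl

/-- `Gal(ℚ̄/ℚ̄^W) = W` for `W` between `D_q ∩ Gal(ℚ̄/F)` and `D_q`. -/
theorem fixingSubgroup_fixedField_of_between {W : Subgroup GQ} (hW : W ≤ Dq q)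
    (F : IntermediateField ℚ (AlgebraicClosure ℚ)) [FiniteDimensional ℚ F]
    (hU : F.fixingSubgroup ⊓ Dq q ≤ W) :
    (IntermediateField.fixedField W).fixingSubgroup = W := by
  have := Fermat.Agent.H81.isGalois_rat_Qbar
  exact InfiniteGalois.fixingSubgroup_fixedField
    (⟨W, isClosed_of_between q hW F hU⟩ : ClosedSubgroup GQ)

/-- `ℚ̄^W` is a finite extension of `K_v` for `W` between `D_q ∩ Gal(ℚ̄/F)` and `D_q`. -/
theorem isLocalFinite_fixedField_of_between {W : Subgroup GQ} (hW : W ≤ Dq q)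
    (F : IntermediateField ℚ (AlgebraicClosure ℚ)) [hF : FiniteDimensional ℚ F]
    (hU : F.fixingSubgroup ⊓ Dq q ≤ W) :
    IsLocalFinite q (IntermediateField.fixedField W) := by
  have := Fermat.Agent.H81.isGalois_rat_Qbar
  refine ⟨?_, F, hF, ?_⟩
  · exact IntermediateField.fixedField_antitone hW
  · have h1 : (localField q ⊔ F).fixingSubgroup ≤ W := by
      rw [IntermediateField.fixingSubgroup_sup, fixingSubgroup_localField, inf_comm]
      exact hU
    have h2 := IntermediateField.fixedField_antitone h1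
    rw [InfiniteGalois.fixedField_fixingSubgroup] at h2
    exact h2

end Between

section Cyclo

variable (p : ℕ) [Fact p.Prime]

/-- An automorphism with trivial mod `p` cyclotomic character fixes the `p`-th roots of unity. -/
theorem apply_eq_of_cycloChar_eq_one {σ : GQ} (hσ : cycloChar p σ = 1)
    {t : AlgebraicClosure ℚ} (ht : t ^ p = 1) : σ t = t := by
  have hp : p.Prime := Fact.out
  have : NeZero p := ⟨hp.ne_zero⟩
  have : Fact (1 < p) := ⟨hp.one_lt⟩
  have ht0 : t ≠ 0 := by
    rintro rfl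
    rw [zero_pow hp.ne_zero] at ht
    exact zero_ne_one ht
  set u : (AlgebraicClosure ℚ)ˣ := Units.mk0 t ht0 with hu
  have hmem : u ∈ rootsOfUnity p (AlgebraicClosure ℚ) := by
    rw [mem_rootsOfUnity]
    apply Units.ext
    rw [Units.val_pow_eq_pow_val, Units.val_one]
    exact ht
  have h1 := modularCyclotomicCharacter.spec (L := AlgebraicClosure ℚ)
    (card_rootsOfUnity_eq_self p) (σ : AlgebraicClosure ℚ ≃+* AlgebraicClosure ℚ) hmem
  have h2 : modularCyclotomicCharacter (AlgebraicClosure ℚ) (card_rootsOfUnity_eq_self p)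
      (σ : AlgebraicClosure ℚ ≃+* AlgebraicClosure ℚ) = 1 := hσ
  rw [h2, Units.val_one, ZMod.val_one, pow_one] at h1
  exact h1

end Cyclo

/-- **[LOC-B5]** the bridge from fields to open subgroups of the local Galois group. -/
theorem fieldToLocal : FieldToLocalStatement := by
  intro hField p _ hp2 q V hV hcyc
  have : Fact (q : ℕ).Prime := ⟨q.2⟩
  have hp : p.Prime := Fact.out
  have : NeZero p := ⟨hp.ne_zero⟩
  obtain ⟨N, ⟨-, -, F, hF, hFN⟩, hNV⟩ := hV
  have := hF
  set r : primeLocalGaloisGroup q →* GQ := primeLocalToGlobal q with hr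
  have hrange : r.range = Dq (q : ℕ) := range_localGaloisToGlobal (q : ℕ)
  have hinj : Function.Injective r := localGaloisToGlobal_injective (q : ℕ)
  set W : Subgroup GQ := V.map r with hWdef
  have hWD : W ≤ Dq (q : ℕ) := by
    rw [← hrange]
    rintro _ ⟨v, _, rfl⟩
    exact ⟨v, rfl⟩
  have hUW : F.fixingSubgroup ⊓ Dq (q : ℕ) ≤ W := by
    rintro σ ⟨hσF, hσD⟩
    rw [← hrange] at hσD
    obtain ⟨τ, rfl⟩ := hσD
    exact ⟨τ, hNV (hFN hσF), rfl⟩
  set E : IntermediateField ℚ (AlgebraicClosure ℚ) := IntermediateField.fixedField W with hEdef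
  have hE : IsLocalFinite (q : ℕ) E := isLocalFinite_fixedField_of_between (q : ℕ) hWD F hUW
  have hfix : E.fixingSubgroup = W := fixingSubgroup_fixedField_of_between (q : ℕ) hWD F hUW
  -- `ζ_p ∈ E`
  obtain ⟨ζ, hζ⟩ := HasEnoughRootsOfUnity.exists_primitiveRoot (AlgebraicClosure ℚ) p
  have hζE : ζ ∈ E := by
    rw [hEdef, IntermediateField.mem_fixedField_iff]
    rintro σ ⟨v, hv, rfl⟩
    exact apply_eq_of_cycloChar_eq_one p (hcyc v hv) hζ.pow_eq_one
  -- the isomorphism `V ≃* Gal(ℚ̄/E)`
  have hmem : ∀ v : V, (r.comp V.subtype) v ∈ E.fixingSubgroup := by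
    intro v
    rw [hfix]
    exact ⟨v, v.2, rfl⟩
  set f : V →* E.fixingSubgroup := (r.comp V.subtype).codRestrict E.fixingSubgroup hmem with hf
  have hbij : Function.Bijective f := by
    constructor
    · intro v v' hvv'
      have h1 : r v = r v' := congrArg Subtype.val hvv'
      exact Subtype.ext (hinj h1)
    · rintro ⟨σ, hσ⟩
      rw [hfix] at hσ
      obtain ⟨v, hv, rfl⟩ := hσ
      exact ⟨⟨v, hv⟩, rfl⟩
  exact trivCore_of_mulEquiv (MulEquiv.ofBijective f hbij) (r.comp V.subtype)
    E.fixingSubgroup.subtype (fun _ => rfl) p (hField p hp2 (q : ℕ) E hE ⟨ζ, hζE, hζ⟩)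

end Fermat.Agent.H81.Local
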