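import Mathlib
import Fermat.Agent.H81.Local.LocalFinite

/-!
# P-CFT / LOC-B1: `IsLocalFinite` for images of abstract fields

* `isLocalFinite_lift`: the image in `ℚ̄` of an intermediate field `M` of `F / E`;
* `isLocalFinite_fieldRange`: the image of a finite-dimensional `E`-algebra `K` (a field) under an
  `E`-embedding into `ℚ̄`;
* `IsLocalFinite.sup`: the compositum of two finite extensions of `K_v`;
* `IsLocalFinite.sup_of_finiteDimensional`: the compositum with a number field.
-/

set_option autoImplicit false

open IntermediateField

namespace Fermat.Agent.H81.Local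

variable {q : ℕ} [Fact q.Prime]

/-- The image in `ℚ̄` of an intermediate field of `F / E`. -/
theorem isLocalFinite_lift {E : IntermediateField ℚ (AlgebraicClosure ℚ)}
    (hE : IsLocalFinite q E) (F : IntermediateField E (AlgebraicClosure ℚ))
    [FiniteDimensional E F] (M : IntermediateField E F) :
    IsLocalFinite q ((IntermediateField.lift M).restrictScalars ℚ) := by
  have hF := hE.of_finiteDimensional F
  refine hF.mono ?_ ?_
  · intro x hx
    exact (IntermediateField.lift M).algebraMap_mem ⟨x, hE.le hx⟩
  · intro x hx
    exact IntermediateField.lift_le M hx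

/-- The image of a finite extension `K` of `E` under an `E`-embedding into `ℚ̄`. -/
theorem isLocalFinite_fieldRange {E : IntermediateField ℚ (AlgebraicClosure ℚ)}
    (hE : IsLocalFinite q E) {K : Type*} [Field K] [Algebra E K] [FiniteDimensional E K]
    (φ : K →ₐ[E] AlgebraicClosure ℚ) :
    IsLocalFinite q (φ.fieldRange.restrictScalars ℚ) := by
  have : FiniteDimensional E φ.fieldRange := by
    have h : Function.Surjective φ.rangeRestrict := AlgHom.rangeRestrict_surjective φ
    exact Module.Finite.of_surjective φ.rangeRestrict.toLinearMap h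
  exact hE.of_finiteDimensional φ.fieldRange

/-- The compositum of a finite extension of `K_v` with a number field. -/
theorem IsLocalFinite.sup_of_finiteDimensional {E : IntermediateField ℚ (AlgebraicClosure ℚ)}
    (hE : IsLocalFinite q E) (F₁ : IntermediateField ℚ (AlgebraicClosure ℚ))
    [FiniteDimensional ℚ F₁] : IsLocalFinite q (E ⊔ F₁) := by
  obtain ⟨F₀, hF₀, hle⟩ := hE.exists_le_sup
  have := hF₀
  refine ⟨hE.le.trans le_sup_left, F₀ ⊔ F₁, inferInstance, ?_⟩
  apply sup_le
  · exact hle.trans (sup_le le_sup_left (le_sup_left.trans le_sup_right))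
  · exact le_sup_right.trans le_sup_right

/-- The compositum of two finite extensions of `K_v`. -/
theorem IsLocalFinite.sup {E E' : IntermediateField ℚ (AlgebraicClosure ℚ)}
    (hE : IsLocalFinite q E) (hE' : IsLocalFinite q E') : IsLocalFinite q (E ⊔ E') := by
  obtain ⟨F₀, hF₀, hle⟩ := hE.exists_le_sup
  obtain ⟨F₀', hF₀', hle'⟩ := hE'.exists_le_sup
  have := hF₀
  have := hF₀'
  refine ⟨hE.le.trans le_sup_left, F₀ ⊔ F₀', inferInstance, ?_⟩
  apply sup_le
  · exact hle.trans (sup_le le_sup_left (le_sup_left.trans le_sup_right))
  · exact hle'.trans (sup_le le_sup_left (le_sup_right.trans le_sup_right))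

end Fermat.Agent.H81.Local
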