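import Mathlib
import Fermat.Agent.H81.Local.LocalDatum
import Fermat.Agent.H81.Local.LocalFiniteLift

/-!
# P-CFT / LOC-6, row BR-PAIR: local pairs (abstract fields embedded into `ℚ̄`)

* `localNormDatum_of_ringEquiv` : transport of a `LocalNormDatum` along compatible ring
  isomorphisms `K ≃+* K'`, `L ≃+* L'`;
* for fields `K`, `F` with `[Algebra K F]`, an embedding `j : F →+* ℚ̄` and
  `E₀ : IntermediateField ℚ ℚ̄` with `x ∈ E₀ ↔ ∃ k, j (algebraMap K F k) = x`:
  `pairImage` (the image of `F` as an intermediate field of `ℚ̄ / E₀`), `pairEquivK : K ≃+* E₀`,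
  `pairEquivF : F ≃+* pairImage`, `finiteDimensional_pairImage`;
* `isLocalFinite_pairImage`, `isLocalFinite_midImage` (the image of an intermediate layer),
  `localNormDatum_pair` (the `LocalNormDatum` of `F / K` for the valuation `(qVal q).comap j`).
-/

set_option autoImplicit false

open Polynomial IntermediateField

open scoped NNReal

namespace Fermat.Agent.H81.Local

section transport

variable {K L K' L' : Type*} [Field K] [Field L] [Algebra K L] [Field K'] [Field L']
  [Algebra K' L'] {Γ₀ : Type*} [LinearOrderedCommGroupWithZero Γ₀]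

/-- Conjugation of a `K`-automorphism of `L` by compatible ring isomorphisms. -/
noncomputable def conjAlgEquiv (eK : K ≃+* K') (eL : L ≃+* L')
    (hcomp : ∀ k, eL (algebraMap K L k) = algebraMap K' L' (eK k)) (σ : L ≃ₐ[K] L) :
    L' ≃ₐ[K'] L' :=
  AlgEquiv.ofRingEquiv (f := eL.symm.trans (σ.toRingEquiv.trans eL)) (by
    intro k'
    have h1 : algebraMap K' L' k' = eL (algebraMap K L (eK.symm k')) := by
      rw [hcomp, RingEquiv.apply_symm_apply]
    change eL (σ (eL.symm (algebraMap K' L' k'))) = algebraMap K' L' k'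
    rw [h1, RingEquiv.symm_apply_apply, σ.commutes])

lemma conjAlgEquiv_apply (eK : K ≃+* K') (eL : L ≃+* L')
    (hcomp : ∀ k, eL (algebraMap K L k) = algebraMap K' L' (eK k)) (σ : L ≃ₐ[K] L) (x : L) :
    conjAlgEquiv eK eL hcomp σ (eL x) = eL (σ x) := by
  change eL (σ (eL.symm (eL x))) = eL (σ x)
  rw [RingEquiv.symm_apply_apply]

/-- Transport of a `LocalNormDatum` along compatible ring isomorphisms. -/
theorem localNormDatum_of_ringEquiv
    {v : Valuation L Γ₀} {v' : Valuation L' Γ₀} (eK : K ≃+* K') (eL : L ≃+* L')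
    (hcomp : ∀ k, eL (algebraMap K L k) = algebraMap K' L' (eK k))
    (hv : ∀ x, v x = v' (eL x)) (h : Fermat.Agent.H78.CFT.LocalNormDatum K' L' v') :
    Fermat.Agent.H78.CFT.LocalNormDatum K L v where
  galois_inv := by
    intro σ x
    rw [hv, hv, ← conjAlgEquiv_apply eK eL hcomp σ x]
    exact h.galois_inv _ _
  unifL := by
    obtain ⟨ϖ, hϖ0, hϖ1, hϖ⟩ := h.unifL
    have e : v (eL.symm ϖ) = v' ϖ := by rw [hv, RingEquiv.apply_symm_apply]
    refine ⟨eL.symm ϖ, ?_, ?_, ?_⟩
    · intro h0
      apply hϖ0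
      have := congrArg eL h0
      rwa [RingEquiv.apply_symm_apply, map_zero] at this
    · rw [e]; exact hϖ1
    · intro x hx
      obtain ⟨n, hn⟩ := hϖ (eL x) (by
        intro h0
        exact hx (eL.injective (by rw [h0, map_zero])))
      exact ⟨n, by rw [e, hv, hn]⟩
  unifK := by
    obtain ⟨π, hπ0, hπ1, hπ⟩ := h.unifK
    have e : v (algebraMap K L (eK.symm π)) = v' (algebraMap K' L' π) := by
      rw [hv, hcomp, RingEquiv.apply_symm_apply]
    refine ⟨eK.symm π, ?_, ?_, ?_⟩
    · intro h0
      apply hπ0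
      have := congrArg eK h0
      rwa [RingEquiv.apply_symm_apply, map_zero] at this
    · rw [e]; exact hπ1
    · intro x hx
      obtain ⟨n, hn⟩ := hπ (eK x) (by
        intro h0
        exact hx (eK.injective (by rw [h0, map_zero])))
      exact ⟨n, by rw [e, hv, hcomp, hn]⟩
  res_finite := by
    classical
    obtain ⟨R, hR⟩ := h.res_finite
    refine ⟨R.image eL.symm, ?_⟩
    intro x hx
    obtain ⟨r, hr, hxr⟩ := hR (eL x) (by rw [← hv]; exact hx)
    refine ⟨eL.symm r, Finset.mem_image_of_mem _ hr, ?_⟩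
    rw [hv, map_sub, RingEquiv.apply_symm_apply]
    exact hxr
  hensel := by
    intro f hf hfi a₀ ha₀ h1 h2
    have hw : ∀ k : K, v' (algebraMap K' L' (eK k)) = v (algebraMap K L k) := by
      intro k
      rw [hv, hcomp]
    obtain ⟨a, ha, haa⟩ := h.hensel (f.map (eK : K →+* K')) (hf.map _)
      (by
        intro i
        rw [Polynomial.coeff_map]
        change v' (algebraMap K' L' (eK (f.coeff i))) ≤ 1
        rw [hw]
        exact hfi i)
      (eK a₀) (by rw [hw]; exact ha₀)
      (by
        have : (f.map (eK : K →+* K')).eval (eK a₀) = eK (f.eval a₀) :=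
          Polynomial.eval_map_apply (f := (eK : K →+* K')) a₀
        rw [this, hw]
        exact h1)
      (by
        have : (f.map (eK : K →+* K')).derivative.eval (eK a₀) = eK (f.derivative.eval a₀) := by
          rw [Polynomial.derivative_map]
          exact Polynomial.eval_map_apply (f := (eK : K →+* K')) a₀
        rw [this, hw]
        exact h2)
    refine ⟨eK.symm a, ?_, ?_⟩
    · apply eK.injective
      have : (f.map (eK : K →+* K')).eval (eK (eK.symm a)) = eK (f.eval (eK.symm a)) :=
        Polynomial.eval_map_apply (f := (eK : K →+* K')) (eK.symm a)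
      rw [← this, RingEquiv.apply_symm_apply, ha, map_zero]
    · rw [← hw, map_sub, RingEquiv.apply_symm_apply]
      exact haa

end transport

section pair

variable {K F : Type*} [Field K] [Field F] [Algebra K F]
  (j : F →+* AlgebraicClosure ℚ) (E₀ : IntermediateField ℚ (AlgebraicClosure ℚ))
  (h : ∀ x : AlgebraicClosure ℚ, x ∈ E₀ ↔ ∃ k : K, j (algebraMap K F k) = x)

/-- The image of `F` in `ℚ̄`, as an intermediate field of `ℚ̄ / E₀`. -/
noncomputable def pairImage : IntermediateField E₀ (AlgebraicClosure ℚ) :=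
  Subfield.toIntermediateField j.fieldRange (by
    intro x
    obtain ⟨k, hk⟩ := (h (x : AlgebraicClosure ℚ)).1 x.2
    exact ⟨algebraMap K F k, hk⟩)

lemma mem_pairImage {x : AlgebraicClosure ℚ} : x ∈ pairImage j E₀ h ↔ ∃ y : F, j y = x :=
  Iff.rfl

/-- `K ≃+* E₀`. -/
noncomputable def pairEquivK : K ≃+* E₀ :=
  RingEquiv.ofBijective ((j.comp (algebraMap K F)).codRestrict E₀ (fun k => (h _).2 ⟨k, rfl⟩))
    ⟨RingHom.injective _, fun x => by
      obtain ⟨k, hk⟩ := (h (x : AlgebraicClosure ℚ)).1 x.2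
      exact ⟨k, Subtype.ext hk⟩⟩

lemma coe_pairEquivK (k : K) :
    ((pairEquivK j E₀ h k : E₀) : AlgebraicClosure ℚ) = j (algebraMap K F k) := rfl

/-- `F ≃+* pairImage`. -/
noncomputable def pairEquivF : F ≃+* pairImage j E₀ h :=
  RingEquiv.ofBijective (j.codRestrict (pairImage j E₀ h) (fun y => ⟨y, rfl⟩))
    ⟨RingHom.injective _, fun x => by
      obtain ⟨y, hy⟩ := x.2
      exact ⟨y, Subtype.ext hy⟩⟩

lemma coe_pairEquivF (y : F) :
    ((pairEquivF j E₀ h y : pairImage j E₀ h) : AlgebraicClosure ℚ) = j y := rfl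

lemma pairEquiv_comp (k : K) :
    pairEquivF j E₀ h (algebraMap K F k)
      = algebraMap E₀ (pairImage j E₀ h) (pairEquivK j E₀ h k) := by
  apply Subtype.ext
  rfl

theorem finiteDimensional_pairImage [FiniteDimensional K F] :
    FiniteDimensional E₀ (pairImage j E₀ h) := by
  exact Module.Finite.of_equiv_equiv (pairEquivK j E₀ h) (pairEquivF j E₀ h)
    (RingHom.ext fun k => (pairEquiv_comp j E₀ h k).symm)

variable {q : ℕ} [Fact q.Prime]

/-- The image of `F` is a finite extension of `K_v`. -/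
theorem isLocalFinite_pairImage [FiniteDimensional K F] (hE₀ : IsLocalFinite q E₀) :
    IsLocalFinite q ((pairImage j E₀ h).restrictScalars ℚ) := by
  have := finiteDimensional_pairImage j E₀ h
  exact hE₀.of_finiteDimensional _

/-- The image of an intermediate layer `K → M → F` is a finite extension of `K_v`. -/
theorem isLocalFinite_midImage [FiniteDimensional K F]
    (h : ∀ x : AlgebraicClosure ℚ, x ∈ E₀ ↔ ∃ k : K, j (algebraMap K F k) = x)
    (hE₀ : IsLocalFinite q E₀) {M : Type*} [Field M] [Algebra K M] [Algebra M F] [IsScalarTower K M F]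
    (E₁ : IntermediateField ℚ (AlgebraicClosure ℚ))
    (h₁ : ∀ x : AlgebraicClosure ℚ, x ∈ E₁ ↔ ∃ m : M, j (algebraMap M F m) = x) :
    IsLocalFinite q E₁ := by
  refine (isLocalFinite_pairImage j E₀ h hE₀).mono ?_ ?_
  · refine hE₀.le.trans ?_
    intro x hx
    obtain ⟨k, hk⟩ := (h x).1 hx
    exact (h₁ x).2 ⟨algebraMap K M k, by rw [← IsScalarTower.algebraMap_apply, hk]⟩
  · intro x hx
    obtain ⟨m, hm⟩ := (h₁ x).1 hx
    exact ⟨algebraMap M F m, hm⟩

/-- The image of a ring homomorphism of fields into `ℚ̄`, as an intermediate field of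
`ℚ̄ / ℚ`. -/
noncomputable def ratImage {M : Type*} [Field M] (φ : M →+* AlgebraicClosure ℚ) :
    IntermediateField ℚ (AlgebraicClosure ℚ) :=
  Subfield.toIntermediateField φ.fieldRange (by
    intro x
    rw [eq_ratCast (algebraMap ℚ (AlgebraicClosure ℚ)) x]
    exact SubfieldClass.ratCast_mem _ x)

lemma mem_ratImage {M : Type*} [Field M] (φ : M →+* AlgebraicClosure ℚ)
    {x : AlgebraicClosure ℚ} : x ∈ ratImage φ ↔ ∃ m : M, φ m = x := Iff.rfl

/-- The `LocalNormDatum` of a local pair. -/
theorem localNormDatum_pair [FiniteDimensional K F]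
    (h : ∀ x : AlgebraicClosure ℚ, x ∈ E₀ ↔ ∃ k : K, j (algebraMap K F k) = x)
    (hE₀ : IsLocalFinite q E₀) :
    Fermat.Agent.H78.CFT.LocalNormDatum K F ((qVal q).comap j) := by
  have := finiteDimensional_pairImage j E₀ h
  exact localNormDatum_of_ringEquiv (pairEquivK j E₀ h)
    (pairEquivF j E₀ h) (pairEquiv_comp j E₀ h) (fun _ => rfl)
    (localNormDatum hE₀ (pairImage j E₀ h))

end pair

end Fermat.Agent.H81.Local
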