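import Fermat.Agent.H24.Brauer.Interfaces
import Fermat.Agent.H81.Local.PairTransport

/-!
# P-CFT / LOC-6, row 752 BR-PAIR (helper81)

* `localPairTower : LocalPairTowerStatement`;
* `localPairLayer : LocalPairLayerStatement`;
* `localDatumAbs : LocalDatumAbsStatement`.
-/

set_option autoImplicit false

namespace Fermat.Agent.H81.Local

open Fermat.Agent.H24.Brauer Fermat.Agent.H78.CFT

/-- **[BR-PAIR a]** an intermediate layer `K ⊆ M ⊆ F` of a local pair: `(M, F)` is a local
pair. -/
theorem localPairTower : LocalPairTowerStatement := by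
  intro q _ K M F _ _ _ _ _ _ _ _ j hj
  obtain ⟨E₀, hE₀, h⟩ := hj
  refine ⟨ratImage (j.comp (algebraMap M F)), ?_, fun x => Iff.rfl⟩
  exact isLocalFinite_midImage j E₀ h hE₀ (M := M) _ (fun x => Iff.rfl)

/-- **[BR-PAIR b]** a layer `M ⊆ M'` inside `F / K`: `(M, M')` is a local pair. -/
theorem localPairLayer : LocalPairLayerStatement := by
  intro q _ K F _ _ _ _ j hj M M'
  obtain ⟨E₁, hE₁, h₁⟩ := localPairTower q K M F j hj
  exact ⟨E₁, hE₁, h₁⟩

/-- **[BR-PAIR c]** the `LocalNormDatum` of a local pair. -/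
theorem localDatumAbs : LocalDatumAbsStatement := by
  intro q _ K F _ _ _ _ j hj
  obtain ⟨E₀, hE₀, h⟩ := hj
  exact localNormDatum_pair j E₀ h hE₀

end Fermat.Agent.H81.Local
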