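/-
P-CFT / LOCAL, row 831 INV-RES (helper81): restriction `G_E → G_{E'}` multiplies the canonical
local invariant by the degree `[E' : E]`.

`theorem invRes : Fermat.Agent.H78.CFT.InvResStatement`.

Route (no change of generator needed): with `Q' = Q ^ f`, `n = e f`, `N = m f`:
* `u_{E,m} ~ u_{E,N} ^ f`  (helper38's `unramCocycle_tower_coboundary`);
* `unramExt q E N ⊆ unramExt q E' m`, and the Frobenius `φ'` of `unramExt q E' m / E'` restricts
  to `φ_N ^ f` (helper49's `IsUnramCyclic.eq_pow_of_frob`), so that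
  `dlog φ_N (g|F_N) = f * dlog φ' (g|F'_m)` for `g ∈ G_{E'}` and
  `res u_{E,N}(π) = u_{E',m}(π)` as cochains;
* `ord_{E'}(π) = e`  (helper81's `exists_ef`), and units have trivial unramified cocycle
  (helper57's `unramCocycleStd`).
-/
import Fermat.Agent.H78.CFT.LocalInvRes
import Fermat.Agent.H38.Cft.InvCompat
import Fermat.Agent.H57.CFT.UnramCocycle
import Fermat.Agent.H49.CFT.UnramCompat
import Fermat.Agent.H81.Local.EF
import Fermat.Agent.H81.FrobExists

set_option autoImplicit false
set_option linter.style.haveILetI false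
set_option synthInstance.maxHeartbeats 400000

noncomputable section

namespace Fermat.Agent.H81.Local

open Fermat.Agent.H13.Cft groupCohomology
open Fermat.Agent.H78.CFT Fermat.Agent.H49.Unram Fermat.Agent.H61.CFT Fermat.Agent.H38.Cft

variable {q : ℕ} [Fact q.Prime] {E E' : IntermediateField ℚ Qb}

/-- `E(μ_N) ⊆ E'(μ_N)` for `E ≤ E'`. -/
theorem cyclo_le_cyclo_of_le (h : E ≤ E') (N : ℕ) {x : Qb} (hx : x ∈ cyclo E Qb N) :
    x ∈ cyclo E' Qb N := by
  letI : Algebra E E' := (IntermediateField.inclusion h).toRingHom.toAlgebra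
  haveI : IsScalarTower E E' Qb := IsScalarTower.of_algebraMap_eq (fun x => rfl)
  have hle : cyclo E Qb N ≤ (cyclo E' Qb N).restrictScalars E := by
    unfold cyclo
    rw [IntermediateField.adjoin_le_iff]
    intro y hy
    rw [SetLike.mem_coe, IntermediateField.mem_restrictScalars]
    exact IntermediateField.subset_adjoin E' _ hy
  exact hle hx

/-- `unramExt q E (m f) ⊆ unramExt q E' m` if `Q' = Q ^ f`. -/
theorem unramExt_le_baseChange (h : E ≤ E') {f : ℕ} (hf : resCard q E' = resCard q E ^ f)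
    (m : ℕ) {x : Qb} (hx : x ∈ unramExt q E (m * f)) : x ∈ unramExt q E' m := by
  have h1 := cyclo_le_cyclo_of_le h _ hx
  have h2 : resCard q E ^ (m * f) - 1 = resCard q E' ^ m - 1 := by
    rw [hf, ← pow_mul, mul_comm]
  unfold unramExt
  rw [← h2]
  exact h1

/-- The restriction of `g ∈ G_{E'}` to `unramExt q E (m f)` in terms of its restriction to
`unramExt q E' m`. -/
theorem dlog_resEF_baseChange (h : E ≤ E') {f : ℕ} (hf : resCard q E' = resCard q E ^ f)
    {m : ℕ} {φN : unramExt q E (m * f) ≃ₐ[E] unramExt q E (m * f)}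
    (hφN : IsFrobE q E (m * f) φN) {φ' : unramExt q E' m ≃ₐ[E'] unramExt q E' m}
    (hφ' : IsFrobE q E' m φ') (g : E'.fixingSubgroup) :
    dlog φN (resEF E (unramExt q E (m * f)) (inclGal h g)) =
      f * dlog φ' (resEF E' (unramExt q E' m) g) := by
  have hgen' := isFrobE_isGen hφ'
  have hgenN := isFrobE_isGen hφN
  set i := dlog φ' (resEF E' (unramExt q E' m) g) with hi
  have hpow : φ' ^ i = resEF E' (unramExt q E' m) g := hgen'.pow_dlog _
  have hilt : i < m := by
    have := hgen'.dlog_lt (resEF E' (unramExt q E' m) g)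
    rwa [hφ'.orderOf_eq] at this
  have hNpos : 0 < m * f := isFrobE_pos hφN
  have hfpos : 0 < f := Nat.pos_of_mul_pos_left hNpos
  have key : resEF E (unramExt q E (m * f)) (inclGal h g) = φN ^ (f * i) := by
    apply AlgEquiv.ext
    intro y
    apply Subtype.ext
    rw [Fermat.Agent.H75.Inf2.resEF_apply, coe_inclGal]
    have hσ : ∀ z : unramExt q E (m * f), qVal q (z : Qb) ≤ 1 →
        qVal q ((IntermediateField.fixingSubgroupEquiv E (inclGal h g)) (z : Qb)
          - (z : Qb) ^ (resCard q E ^ (f * i))) < 1 := by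
      intro z hz
      have hz' : (z : Qb) ∈ unramExt q E' m := unramExt_le_baseChange h hf m z.2
      have h1 := hφ'.frob_pow i ⟨(z : Qb), hz'⟩ hz
      rw [hpow, Fermat.Agent.H75.Inf2.resEF_apply, hf, ← pow_mul] at h1
      exact h1
    exact hφN.eq_pow_of_frob (IntermediateField.fixingSubgroupEquiv E (inclGal h g)) (f * i) hσ y
  rw [key, dlog_pow' hgenN.1, hφN.orderOf_eq]
  apply Nat.mod_eq_of_lt
  rw [mul_comm m f]
  exact Nat.mul_lt_mul_of_pos_left hilt hfpos

/-- The inclusion `Eˣ → E'ˣ`. -/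
def unitIncl (h : E ≤ E') : Eˣ →* E'ˣ :=
  Units.map ((IntermediateField.inclusion h : E →+* E') : E →* E')

@[simp] theorem coe_unitIncl (h : E ≤ E') (a : Eˣ) :
    (((unitIncl h a : E'ˣ) : E') : Qb) = ((a : E) : Qb) := rfl

/-- The restriction of the unramified cocycle of degree `m f` of `E` is the unramified cocycle
of degree `m` of `E'`. -/
theorem resCochain₂_unramCocycle_baseChange (h : E ≤ E') {f : ℕ}
    (hf : resCard q E' = resCard q E ^ f)
    {m : ℕ} {φN : unramExt q E (m * f) ≃ₐ[E] unramExt q E (m * f)}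
    (hφN : IsFrobE q E (m * f) φN) {φ' : unramExt q E' m ≃ₐ[E'] unramExt q E' m}
    (hφ' : IsFrobE q E' m φ') (a : Eˣ) (x : E'.fixingSubgroup × E'.fixingSubgroup) :
    resCochain₂ h (unramCocycle q E (m * f) φN a) x =
      unramCocycle q E' m φ' (unitIncl h a) x := by
  obtain ⟨g, g'⟩ := x
  have hNpos : 0 < m * f := isFrobE_pos hφN
  have hfpos : 0 < f := Nat.pos_of_mul_pos_left hNpos
  rw [resCochain₂_apply, unramCocycle_apply hφN, unramCocycle_apply hφ',
    dlog_resEF_baseChange h hf hφN hφ' g, dlog_resEF_baseChange h hf hφN hφ' g']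
  have e1 : (f * dlog φ' (resEF E' (unramExt q E' m) g) +
      f * dlog φ' (resEF E' (unramExt q E' m) g')) / (m * f)
      = (dlog φ' (resEF E' (unramExt q E' m) g) +
          dlog φ' (resEF E' (unramExt q E' m) g')) / m := by
    rw [← Nat.mul_add, mul_comm m f, Nat.mul_div_mul_left _ _ hfpos]
  rw [e1]
  congr 1

/-- An identity in commutative groups. -/
theorem commGroup_invRes_identity {M : Type*} [CommGroup M] (c u W v : M) (j : ℤ) (e f : ℕ) :
    c / v ^ (((e * f : ℕ) : ℤ) * j) =
      c / u ^ j * (u / W ^ f) ^ j * (W / v ^ (e : ℤ)) ^ ((f : ℤ) * j) := by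
  have h : ∀ (c u W v : Additive M),
      c - (((e * f : ℕ) : ℤ) * j) • v =
        c - j • u + j • (u - f • W) + ((f : ℤ) * j) • (W - (e : ℤ) • v) := by
    intro c u W v
    rw [smul_sub, smul_sub, mul_smul, mul_smul, Nat.cast_mul, mul_smul, smul_smul (f : ℤ) j,
      ← natCast_zsmul W f, smul_comm j (f : ℤ) W, smul_comm (e : ℤ) ((f : ℤ) * j) v,
      mul_smul (f : ℤ) j ((e : ℤ) • v), smul_comm j (e : ℤ) v, smul_comm (f : ℤ) (e : ℤ) (j • v)]
    abel
  exact h (Additive.ofMul c) (Additive.ofMul u) (Additive.ofMul W) (Additive.ofMul v)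

/-- `E' / E` is finite for finite extensions `E ≤ E'` of `K_v`. -/
theorem finiteDimensional_extendScalars (h : E ≤ E') (hE : IsLocalFinite q E)
    (hE' : IsLocalFinite q E') : FiniteDimensional E (IntermediateField.extendScalars h) := by
  have := Fermat.Agent.H81.isAlgebraic_rat_Qbar
  obtain ⟨F₀, hF₀, hle⟩ := hE'.exists_le_sup
  set M : IntermediateField E Qb := IntermediateField.adjoin E (F₀ : Set Qb) with hM
  have hrank : Module.rank E M ≤ Module.rank ℚ F₀ :=
    IntermediateField.adjoin_rank_le_of_isAlgebraic_right E F₀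
  have hfin : Module.rank ℚ F₀ < Cardinal.aleph0 := Module.rank_lt_aleph0 ℚ F₀
  have hMfin : Module.Finite E M :=
    Module.rank_lt_aleph0_iff.mp (lt_of_le_of_lt hrank hfin)
  have hle' : localField q ⊔ F₀ ≤ M.restrictScalars ℚ := by
    apply sup_le
    · intro x hx
      exact M.algebraMap_mem ⟨x, hE.le hx⟩
    · intro x hx
      rw [IntermediateField.mem_restrictScalars]
      exact IntermediateField.subset_adjoin E (F₀ : Set Qb) hx
  have hEM : IntermediateField.extendScalars h ≤ M := fun x hx => hle' (hle hx)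
  exact FiniteDimensional.of_injective (IntermediateField.inclusion hEM).toLinearMap
    (IntermediateField.inclusion hEM).injective

/-- **[INV-RES]** restriction multiplies the invariant by the degree. -/
theorem invRes : InvResStatement := by
  intro q _ E E' h hE hE' m c j hc
  have hU := Fermat.Agent.H57.CFT.unramCocycleStd
  obtain ⟨π, φ, hπ, hφ, hcob⟩ := hc
  have hm : 0 < m := isFrobE_pos hφ
  have hfd := finiteDimensional_extendScalars h hE hE'
  obtain ⟨e, f, he, hf0, hef, hQ, hval⟩ := exists_ef hE (IntermediateField.extendScalars h)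
  have hres : (IntermediateField.extendScalars h).restrictScalars ℚ = E' :=
    IntermediateField.extendScalars_restrictScalars h
  rw [hres] at hQ hval
  obtain ⟨φN, hφN⟩ := exists_isFrobE hE (Nat.mul_pos hm hf0)
  obtain ⟨φ', hφ'⟩ := exists_isFrobE hE' hm
  obtain ⟨π', hπ'⟩ := exists_unif_unit hE'
  refine ⟨π', φ', hπ', hφ', ?_⟩
  -- the three coboundaries
  have c1 := hcob.res h
  have c2 := isLvlMulCoboundary₂E_zpow ((unramCocycle_tower_coboundary hφ hφN π).res h) j
  have hππ' : qVal q ((π : E) : Qb) = qVal q ((π' : E') : Qb) ^ e := hval _ _ hπ hπ'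
  have hw : qVal q (((unitIncl h π * (π' ^ (e : ℤ))⁻¹ : E'ˣ) : E') : Qb) =
      qVal q ((π' : E') : Qb) ^ (0 : ℤ) := by
    have e1 : (((unitIncl h π * (π' ^ (e : ℤ))⁻¹ : E'ˣ) : E') : Qb) =
        ((π : E) : Qb) * (((π' : E') : Qb) ^ e)⁻¹ := by
      rw [Units.val_mul, zpow_natCast, ← inv_pow, Units.val_pow_eq_pow_val, Units.val_inv_eq_inv_val]
      push_cast
      rw [inv_pow]
      rfl
    rw [e1, map_mul, map_inv₀, map_pow, hππ', zpow_zero]
    exact mul_inv_cancel₀ (pow_ne_zero _ (ne_of_gt hπ'.pos))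
  have c3 := isLvlMulCoboundary₂E_zpow (unramCocycle_unit_coboundary hU hE' hφ' hπ' hw)
    ((f : ℤ) * j)
  refine ((c1.mul c2).mul c3).congr fun x => ?_
  rw [IntermediateField.relfinrank_eq_finrank_of_le h, ← hef]
  have e2 : unramCocycle q E' m φ' (unitIncl h π * (π' ^ (e : ℤ))⁻¹) x =
      unramCocycle q E' m φ' (unitIncl h π) x / unramCocycle q E' m φ' π' x ^ (e : ℤ) := by
    rw [unramCocycle_mul, ← zpow_neg, unramCocycle_zpow, zpow_neg, div_eq_mul_inv]
  have e3 := resCochain₂_unramCocycle_baseChange h hQ hφN hφ' π x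
  change resCochain₂ h c x / resCochain₂ h (unramCocycle q E m φ π) x ^ j *
      (resCochain₂ h (unramCocycle q E m φ π) x /
        resCochain₂ h (unramCocycle q E (m * f) φN π) x ^ f) ^ j *
      unramCocycle q E' m φ' (unitIncl h π * (π' ^ (e : ℤ))⁻¹) x ^ ((f : ℤ) * j) =
    resCochain₂ h c x / unramCocycle q E' m φ' π' x ^ (((e * f : ℕ) : ℤ) * j)
  rw [e2, e3]
  exact (commGroup_invRes_identity _ _ _ _ j e f).symm

end Fermat.Agent.H81.Local
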